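import Mathlib

/-!
# The quadratic space `sl₂`

A triple `v = (x, y, z)` stands for the matrix `[[x, y], [z, -x]]`.

## Main results

* `qf`, `bf`, `br`: the quadratic form, the bilinear form and the bracket.
* `bf_sq`, `bf_mul_apply`: the identities relating them.
-/

set_option autoImplicit false

namespace Fermat.Agent.LocalRing

variable {R : Type*} [CommRing R] {R' : Type*} [CommRing R']

/-- The quadratic form `x² + y z` (minus the determinant). -/
def qf (v : Fin 3 → R) : R := v 0 * v 0 + v 1 * v 2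

/-- The trace form. -/
def bf (v w : Fin 3 → R) : R := 2 * (v 0 * w 0) + v 1 * w 2 + v 2 * w 1

/-- The commutator. -/
def br (v w : Fin 3 → R) : Fin 3 → R :=
  ![v 1 * w 2 - v 2 * w 1, 2 * (v 0 * w 1 - v 1 * w 0), 2 * (v 2 * w 0 - v 0 * w 2)]

theorem map_qf (φ : R →+* R') (v : Fin 3 → R) : φ (qf v) = qf (φ ∘ v) := by simp [qf]

theorem map_bf (φ : R →+* R') (v w : Fin 3 → R) : φ (bf v w) = bf (φ ∘ v) (φ ∘ w) := by
  simp [bf, map_ofNat]

theorem map_br (φ : R →+* R') (v w : Fin 3 → R) (u : Fin 3) :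
    φ (br v w u) = br (φ ∘ v) (φ ∘ w) u := by
  fin_cases u <;> simp [br, map_ofNat]

theorem bf_br (v w : Fin 3 → R) : bf v (br v w) = 0 := by simp [bf, br]; ring

/-- The square of the bilinear form. -/
theorem bf_sq (v w : Fin 3 → R) : bf v w * bf v w = 4 * (qf v * qf w) + qf (br v w) := by
  simp [bf, qf, br]; ring

/-- `bf v w • w - 2 qf w • v` is a combination of the commutator. -/
theorem bf_mul_apply (v w : Fin 3 → R) :
    2 * (bf v w * w 0 - 2 * qf w * v 0) = w 1 * br v w 2 - w 2 * br v w 1 ∧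
    bf v w * w 1 - 2 * qf w * v 1 = w 0 * br v w 1 - w 1 * br v w 0 ∧
    bf v w * w 2 - 2 * qf w * v 2 = -(w 0 * br v w 2) + w 2 * br v w 0 := by
  refine ⟨?_, ?_, ?_⟩ <;> simp [bf, qf, br] <;> ring

end Fermat.Agent.LocalRing
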