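import Mathlib

/-!
# Monomials in two proportional isotropic vectors

If `S`, `N` are triples (letters of weight `0, 1, 2`) with `S a * N b = S b * N a`,
`N 1 * N 1 = N 0 * N 2` and `S 1 * N 1 = S 0 * N 2`, a monomial of positive degree in `N` only
depends on its two degrees and its weight.

## Main results

* `letterVal_eq`: this statement.
-/

set_option autoImplicit false

namespace Fermat.Agent.LocalRing

variable {Q : Type*} [CommRing Q] (S N : Fin 3 → Q)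

/-- A monomial in `S` and `N`. -/
def letterVal (a0 a1 a2 b0 b1 b2 : ℕ) : Q :=
  S 0 ^ a0 * S 1 ^ a1 * S 2 ^ a2 * (N 0 ^ b0 * N 1 ^ b1 * N 2 ^ b2)

/-- A monomial in normal form. -/
def IsNormalWord (a1 a2 b0 b1 : ℕ) : Prop :=
  a1 + b1 ≤ 1 ∧ (0 < a1 → b0 = 0) ∧ (0 < a2 → b0 = 0 ∧ b1 = 0)

variable {S N}

theorem exists_normalWord (hsw : ∀ a b, S a * N b = S b * N a) (h2 : N 1 * N 1 = N 0 * N 2)
    (h3 : S 1 * N 1 = S 0 * N 2) :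
    ∀ (T W : ℕ) (a0 a1 a2 b0 b1 b2 : ℕ), a1 + b1 = T → a1 + 2 * a2 = W → 1 ≤ b0 + b1 + b2 →
      ∃ a0' a1' a2' b0' b1' b2' : ℕ, IsNormalWord a1' a2' b0' b1' ∧
        b0' + b1' + b2' = b0 + b1 + b2 ∧ a0' + a1' + a2' = a0 + a1 + a2 ∧
        a1' + b1' + 2 * (a2' + b2') = a1 + b1 + 2 * (a2 + b2) ∧
        letterVal S N a0 a1 a2 b0 b1 b2 = letterVal S N a0' a1' a2' b0' b1' b2' := by
  intro T
  induction T using Nat.strong_induction_on with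
  | _ T ihT =>
  intro W
  induction W using Nat.strong_induction_on with
  | _ W ihW =>
  intro a0 a1 a2 b0 b1 b2 hT hW hi
  by_cases hN : IsNormalWord a1 a2 b0 b1
  · exact ⟨_, _, _, _, _, _, hN, rfl, rfl, rfl, rfl⟩
  have key : ∀ c0 c1 c2 d0 d1 d2 : ℕ,
      (c1 + d1 < T ∨ (c1 + d1 = T ∧ c1 + 2 * c2 < W)) →
      d0 + d1 + d2 = b0 + b1 + b2 → c0 + c1 + c2 = a0 + a1 + a2 →
      c1 + d1 + 2 * (c2 + d2) = a1 + b1 + 2 * (a2 + b2) →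
      letterVal S N a0 a1 a2 b0 b1 b2 = letterVal S N c0 c1 c2 d0 d1 d2 →
      ∃ a0' a1' a2' b0' b1' b2' : ℕ, IsNormalWord a1' a2' b0' b1' ∧
        b0' + b1' + b2' = b0 + b1 + b2 ∧ a0' + a1' + a2' = a0 + a1 + a2 ∧
        a1' + b1' + 2 * (a2' + b2') = a1 + b1 + 2 * (a2 + b2) ∧
        letterVal S N a0 a1 a2 b0 b1 b2 = letterVal S N a0' a1' a2' b0' b1' b2' := by
    intro c0 c1 c2 d0 d1 d2 hlt e1 e2 e3 e4
    obtain ⟨r0, r1, r2, s0, s1, s2, g0, g1, g2, g3, g4⟩ : ∃ a0' a1' a2' b0' b1' b2' : ℕ,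
        IsNormalWord a1' a2' b0' b1' ∧
        b0' + b1' + b2' = d0 + d1 + d2 ∧ a0' + a1' + a2' = c0 + c1 + c2 ∧
        a1' + b1' + 2 * (a2' + b2') = c1 + d1 + 2 * (c2 + d2) ∧
        letterVal S N c0 c1 c2 d0 d1 d2 = letterVal S N a0' a1' a2' b0' b1' b2' := by
      rcases hlt with h | ⟨h, h'⟩
      · exact ihT _ h _ c0 c1 c2 d0 d1 d2 rfl rfl (by omega)
      · exact ihW _ h' c0 c1 c2 d0 d1 d2 h rfl (by omega)
    exact ⟨r0, r1, r2, s0, s1, s2, g0, g1.trans e1, g2.trans e2, g3.trans e3, e4.trans g4⟩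
  -- the six rewriting steps
  by_cases c1 : 2 ≤ b1
  · obtain ⟨b, rfl⟩ : ∃ b, b1 = b + 2 := ⟨b1 - 2, by omega⟩
    refine key a0 a1 a2 (b0 + 1) b (b2 + 1) (Or.inl (by omega)) (by omega) rfl (by omega) ?_
    rw [letterVal, letterVal, pow_succ (N 0), pow_succ (N 2), pow_add (N 1), pow_two, h2]
    ring
  by_cases c2 : 1 ≤ b1 ∧ 1 ≤ a1
  · obtain ⟨b, rfl⟩ : ∃ b, b1 = b + 1 := ⟨b1 - 1, by omega⟩
    obtain ⟨a, rfl⟩ : ∃ a, a1 = a + 1 := ⟨a1 - 1, by omega⟩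
    refine key (a0 + 1) a a2 b0 b (b2 + 1) (Or.inl (by omega)) (by omega) (by omega) (by omega) ?_
    calc letterVal S N a0 (a + 1) a2 b0 (b + 1) b2
        = S 0 ^ a0 * S 1 ^ a * S 2 ^ a2 * (N 0 ^ b0 * N 1 ^ b * N 2 ^ b2) * (S 1 * N 1) := by
          rw [letterVal]; ring
      _ = letterVal S N (a0 + 1) a a2 b0 b (b2 + 1) := by rw [h3, letterVal]; ring
  by_cases c3 : 1 ≤ a1 ∧ 1 ≤ b0
  · obtain ⟨b, rfl⟩ : ∃ b, b0 = b + 1 := ⟨b0 - 1, by omega⟩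
    obtain ⟨a, rfl⟩ : ∃ a, a1 = a + 1 := ⟨a1 - 1, by omega⟩
    refine key (a0 + 1) a a2 b (b1 + 1) b2 (Or.inr ⟨by omega, by omega⟩) (by omega) (by omega)
      (by omega) ?_
    calc letterVal S N a0 (a + 1) a2 (b + 1) b1 b2
        = S 0 ^ a0 * S 1 ^ a * S 2 ^ a2 * (N 0 ^ b * N 1 ^ b1 * N 2 ^ b2) * (S 1 * N 0) := by
          rw [letterVal]; ring
      _ = letterVal S N (a0 + 1) a a2 b (b1 + 1) b2 := by rw [hsw 1 0, letterVal]; ring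
  by_cases c4 : 2 ≤ a1 ∧ 1 ≤ b2
  · obtain ⟨b, rfl⟩ : ∃ b, b2 = b + 1 := ⟨b2 - 1, by omega⟩
    obtain ⟨a, rfl⟩ : ∃ a, a1 = a + 2 := ⟨a1 - 2, by omega⟩
    refine key (a0 + 1) a (a2 + 1) b0 b1 (b + 1) (Or.inl (by omega)) (by omega) (by omega)
      (by omega) ?_
    have h : S 1 * S 1 * N 2 = S 2 * S 0 * N 2 := by
      rw [mul_assoc, hsw 1 2, ← mul_assoc, mul_comm (S 1) (S 2), mul_assoc, h3, mul_assoc]
    calc letterVal S N a0 (a + 2) a2 b0 b1 (b + 1)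
        = S 0 ^ a0 * S 1 ^ a * S 2 ^ a2 * (N 0 ^ b0 * N 1 ^ b1 * N 2 ^ b) *
          (S 1 * S 1 * N 2) := by rw [letterVal]; ring
      _ = letterVal S N (a0 + 1) a (a2 + 1) b0 b1 (b + 1) := by rw [h, letterVal]; ring
  by_cases c5 : 1 ≤ a2 ∧ 1 ≤ b0
  · obtain ⟨b, rfl⟩ : ∃ b, b0 = b + 1 := ⟨b0 - 1, by omega⟩
    obtain ⟨a, rfl⟩ : ∃ a, a2 = a + 1 := ⟨a2 - 1, by omega⟩
    refine key (a0 + 1) a1 a b b1 (b2 + 1) (Or.inr ⟨by omega, by omega⟩) (by omega) (by omega)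
      (by omega) ?_
    calc letterVal S N a0 a1 (a + 1) (b + 1) b1 b2
        = S 0 ^ a0 * S 1 ^ a1 * S 2 ^ a * (N 0 ^ b * N 1 ^ b1 * N 2 ^ b2) * (S 2 * N 0) := by
          rw [letterVal]; ring
      _ = letterVal S N (a0 + 1) a1 a b b1 (b2 + 1) := by rw [hsw 2 0, letterVal]; ring
  by_cases c6 : 1 ≤ a2 ∧ 1 ≤ b1
  · obtain ⟨b, rfl⟩ : ∃ b, b1 = b + 1 := ⟨b1 - 1, by omega⟩
    obtain ⟨a, rfl⟩ : ∃ a, a2 = a + 1 := ⟨a2 - 1, by omega⟩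
    refine key a0 (a1 + 1) a b0 b (b2 + 1) (Or.inr ⟨by omega, by omega⟩) (by omega) (by omega)
      (by omega) ?_
    calc letterVal S N a0 a1 (a + 1) b0 (b + 1) b2
        = S 0 ^ a0 * S 1 ^ a1 * S 2 ^ a * (N 0 ^ b0 * N 1 ^ b * N 2 ^ b2) * (S 2 * N 1) := by
          rw [letterVal]; ring
      _ = letterVal S N a0 (a1 + 1) a b0 b (b2 + 1) := by rw [hsw 2 1, letterVal]; ring
  exact absurd ⟨by omega, fun h => by omega, fun h => ⟨by omega, by omega⟩⟩ hN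

/-- Monomials of positive `N`-degree depend only on the degrees and the weight. -/
theorem letterVal_eq (hsw : ∀ a b, S a * N b = S b * N a) (h2 : N 1 * N 1 = N 0 * N 2)
    (h3 : S 1 * N 1 = S 0 * N 2) {a0 a1 a2 b0 b1 b2 a0' a1' a2' b0' b1' b2' : ℕ}
    (hi : 1 ≤ b0 + b1 + b2) (hb : b0' + b1' + b2' = b0 + b1 + b2)
    (ha : a0' + a1' + a2' = a0 + a1 + a2)
    (hm : a1' + b1' + 2 * (a2' + b2') = a1 + b1 + 2 * (a2 + b2)) :
    letterVal S N a0 a1 a2 b0 b1 b2 = letterVal S N a0' a1' a2' b0' b1' b2' := by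
  obtain ⟨r0, r1, r2, s0, s1, s2, g0, g1, g2, g3, g4⟩ :=
    exists_normalWord hsw h2 h3 _ _ a0 a1 a2 b0 b1 b2 rfl rfl hi
  obtain ⟨r0', r1', r2', s0', s1', s2', g0', g1', g2', g3', g4'⟩ :=
    exists_normalWord hsw h2 h3 _ _ a0' a1' a2' b0' b1' b2' rfl rfl (by omega)
  rw [g4, g4']
  obtain ⟨p1, p2, p3⟩ := g0
  obtain ⟨p1', p2', p3'⟩ := g0'
  have : r0 = r0' ∧ r1 = r1' ∧ r2 = r2' ∧ s0 = s0' ∧ s1 = s1' ∧ s2 = s2' := by
    omega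
  obtain ⟨rfl, rfl, rfl, rfl, rfl, rfl⟩ := this
  rfl

end Fermat.Agent.LocalRing
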