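import Mathlib
import Fermat.Agent.Patching.Limit
import Fermat.Agent.Patching.PowerSeries

/-!
# Power series over a complete local ring

## Main results

* `eval`: evaluation at elements of the maximal ideal of a complete Noetherian local ring.
* `sub_mem_of_generators`: two homomorphisms agreeing on the generators modulo an ideal agree
  modulo that ideal.
* `exists_sq_eq_one_add`: `1 + x` is a square when `2` is a unit.
-/

set_option autoImplicit false

noncomputable section

open IsLocalRing

namespace Fermat.Agent.LocalRing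

variable {σ : Type*} [Finite σ] {O : Type*} [CommRing O] [IsLocalRing O]

instance isAdicComplete_mvPowerSeries [IsAdicComplete (maximalIdeal O) O] :
    IsAdicComplete (maximalIdeal (MvPowerSeries σ O)) (MvPowerSeries σ O) := by
  cases nonempty_fintype σ
  rw [← map_ringEquiv_maximalIdeal
    (MvPowerSeries.renameEquiv O (Fintype.equivFin σ)).toRingEquiv.symm]
  exact (IsAdicComplete.congr_ringEquiv _ _).mpr inferInstance

omit [Finite σ] in
theorem C_mem_maximalIdeal {a : O} (ha : a ∈ maximalIdeal O) :
    MvPowerSeries.C a ∈ maximalIdeal (MvPowerSeries σ O) := by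
  simpa [mem_maximalIdeal, MvPowerSeries.isUnit_iff_constantCoeff] using ha

omit [Finite σ] in
theorem X_mem_maximalIdeal (s : σ) :
    MvPowerSeries.X s ∈ maximalIdeal (MvPowerSeries σ O) := by
  simp [mem_maximalIdeal, MvPowerSeries.isUnit_iff_constantCoeff]

omit [Finite σ] in
theorem constantCoeff_mem {x : MvPowerSeries σ O} (hx : x ∈ maximalIdeal (MvPowerSeries σ O)) :
    MvPowerSeries.constantCoeff x ∈ maximalIdeal O := by
  simpa [mem_maximalIdeal, MvPowerSeries.isUnit_iff_constantCoeff] using hx

omit [Finite σ] in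
theorem coeff_mem_pow_of_mem_pow {k : ℕ} {f : MvPowerSeries σ O}
    (hf : f ∈ maximalIdeal (MvPowerSeries σ O) ^ k) (d : σ →₀ ℕ) :
    MvPowerSeries.coeff d f ∈ maximalIdeal O ^ (k - d.degree) := by
  classical
  induction k generalizing f d with
  | zero => simp
  | succ k ih =>
    rw [pow_succ] at hf
    induction hf using Submodule.mul_induction_on' with
    | mem_mul_mem x hx y hy =>
      rw [MvPowerSeries.coeff_mul]
      refine Ideal.sum_mem _ fun p hp => ?_
      have hp' : p.1.degree + p.2.degree = d.degree := by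
        rw [← map_add, Finset.HasAntidiagonal.mem_antidiagonal.mp hp]
      rcases eq_or_ne p.2 0 with h0 | hne
      · have hy0 : MvPowerSeries.coeff p.2 y ∈ maximalIdeal O := by
          rw [h0, MvPowerSeries.coeff_zero_eq_constantCoeff_apply]
          exact constantCoeff_mem hy
        exact Ideal.pow_le_pow_right (show k + 1 - d.degree ≤ k - p.1.degree + 1 by omega)
          (pow_succ (maximalIdeal O) _ ▸ Ideal.mul_mem_mul (ih hx p.1) hy0)
      · have hpos : p.2.degree ≠ 0 := fun h => hne ((Finsupp.degree_eq_zero_iff _).mp h)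
        exact Ideal.pow_le_pow_right (show k + 1 - d.degree ≤ k - p.1.degree by omega)
          (Ideal.mul_mem_right _ _ (ih hx p.1))
    | add x _ y _ hx hy => rw [map_add]; exact add_mem hx hy

omit [IsLocalRing O] in
theorem mem_span_X_pow {n : ℕ} {f : MvPowerSeries σ O}
    (h : MvPowerSeries.truncTotal n f = 0) :
    f ∈ Ideal.span (Set.range (MvPowerSeries.X : σ → MvPowerSeries σ O)) ^ n := by
  set e := (MvPowerSeries.toAdicCompletionAlgEquiv σ O).toRingEquiv
  have hmap : Ideal.map e (Ideal.span (Set.range MvPowerSeries.X)) =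
      (MvPolynomial.idealOfVars σ O).map (algebraMap _ _) := by
    simp_rw [Ideal.map_span, ← Set.range_comp]
    congr 2; ext1
    simp [e, AdicCompletion.algebraMap_apply, ← MvPolynomial.coe_X,
      MvPowerSeries.toAdicCompletion_coe]
  have hk : e f ∈ (MvPolynomial.idealOfVars σ O ^ n •
      ⊤ : Submodule (MvPolynomial σ O) (AdicCompletion (MvPolynomial.idealOfVars σ O)
        (MvPolynomial σ O))) := by
    rw [AdicCompletion.pow_smul_top_eq_ker_eval (MvPolynomial.idealOfVars_fg σ O),
      LinearMap.mem_ker]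
    have : (MvPowerSeries.toAdicCompletion σ O f).val n = 0 := by
      rw [MvPowerSeries.toAdicCompletion_apply_eq_mk_truncTotal, h]; rfl
    exact this
  rw [Ideal.smul_top_eq_map, Submodule.restrictScalars_mem, Ideal.map_pow, ← hmap,
    ← Ideal.map_pow] at hk
  obtain ⟨g, hg, hge⟩ := (Ideal.mem_map_iff_of_surjective e e.surjective).mp hk
  exact e.injective hge ▸ hg

theorem sub_truncTotal_mem_pow (n : ℕ) (f : MvPowerSeries σ O) :
    f - (MvPowerSeries.truncTotal n f : MvPolynomial σ O) ∈
      maximalIdeal (MvPowerSeries σ O) ^ n := by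
  refine Ideal.pow_right_mono (Ideal.span_le.mpr ?_) n (mem_span_X_pow (MvPolynomial.ext _ _
    fun d => ?_))
  · rintro _ ⟨s, rfl⟩; exact X_mem_maximalIdeal s
  · by_cases hd : d.degree < n
    · rw [map_sub, MvPolynomial.coeff_sub, MvPowerSeries.coeff_truncTotal _ hd,
        MvPowerSeries.coeff_truncTotal _ hd, MvPolynomial.coeff_coe,
        MvPowerSeries.coeff_truncTotal _ hd]
      simp
    · rw [MvPowerSeries.coeff_truncTotal_eq_zero _ (not_lt.mp hd)]
      simp

section Eval

variable {D : Type*} [CommRing D] [IsLocalRing D]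

theorem map_maximalIdeal_le (F : MvPowerSeries σ O →+* D)
    (hC : ∀ c ∈ maximalIdeal O, F (MvPowerSeries.C c) ∈ maximalIdeal D)
    (hX : ∀ s, F (MvPowerSeries.X s) ∈ maximalIdeal D) :
    (maximalIdeal (MvPowerSeries σ O)).map F ≤ maximalIdeal D := by
  rw [Ideal.map_le_iff_le_comap]
  intro f hf
  rw [Ideal.mem_comap]
  have h1 := sub_truncTotal_mem_pow 1 f
  have hsum : (MvPowerSeries.truncTotal 1 f : MvPolynomial σ O) =
      MvPolynomial.C (MvPowerSeries.constantCoeff f) := by
    refine MvPolynomial.ext _ _ fun d => ?_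
    classical
    rw [MvPowerSeries.coeff_truncTotal_eq_ite, MvPolynomial.coeff_C]
    rcases eq_or_ne d 0 with rfl | hd
    · simp
    · have : d.degree ≠ 0 := fun h => hd ((Finsupp.degree_eq_zero_iff _).mp h)
      rw [if_neg (by omega), if_neg (Ne.symm hd)]
  have h2 := mem_span_X_pow (n := 1)
    (f := f - MvPowerSeries.C (MvPowerSeries.constantCoeff f)) (MvPolynomial.ext _ _ fun d => by
      classical
      rw [MvPowerSeries.coeff_truncTotal_eq_ite]
      split_ifs with hd
      · obtain rfl : d = 0 := (Finsupp.degree_eq_zero_iff _).mp (by omega)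
        simp
      · simp)
  rw [pow_one] at h2
  rw [← sub_add_cancel f (MvPowerSeries.C (MvPowerSeries.constantCoeff f)), map_add]
  refine add_mem ?_ (hC _ (constantCoeff_mem hf))
  have h3 := Ideal.mem_map_of_mem F h2
  rw [Ideal.map_span] at h3
  exact (Ideal.span_le.mpr (by rintro _ ⟨_, ⟨s, rfl⟩, rfl⟩; exact hX s)) h3

/-- Two homomorphisms out of a power series ring that agree on the generators modulo an ideal
agree modulo that ideal. -/
theorem sub_mem_of_generators [IsNoetherianRing D] (F G : MvPowerSeries σ O →+* D) (I : Ideal D)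
    (hC : ∀ c, F (MvPowerSeries.C c) - G (MvPowerSeries.C c) ∈ I)
    (hX : ∀ s, F (MvPowerSeries.X s) - G (MvPowerSeries.X s) ∈ I)
    (hCF : ∀ c ∈ maximalIdeal O, F (MvPowerSeries.C c) ∈ maximalIdeal D)
    (hXF : ∀ s, F (MvPowerSeries.X s) ∈ maximalIdeal D)
    (hCG : ∀ c ∈ maximalIdeal O, G (MvPowerSeries.C c) ∈ maximalIdeal D)
    (hXG : ∀ s, G (MvPowerSeries.X s) ∈ maximalIdeal D) (f : MvPowerSeries σ O) :
    F f - G f ∈ I := by
  have hP : ∀ P : MvPolynomial σ O, F (P : MvPowerSeries σ O) - G P ∈ I := by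
    intro P
    induction P using MvPolynomial.induction_on with
    | C r => simpa using hC r
    | add P Q hP hQ =>
      rw [MvPolynomial.coe_add, map_add, map_add, add_sub_add_comm]
      exact add_mem hP hQ
    | mul_X P s h =>
      rw [MvPolynomial.coe_mul, MvPolynomial.coe_X, map_mul, map_mul,
        show F (P : MvPowerSeries σ O) * F (MvPowerSeries.X s) - G P * G (MvPowerSeries.X s) =
          (F P - G P) * F (MvPowerSeries.X s) +
            G P * (F (MvPowerSeries.X s) - G (MvPowerSeries.X s)) by ring]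
      exact add_mem (I.mul_mem_right _ h) (I.mul_mem_left _ (hX s))
  refine Patching.mem_of_forall_mem_sup_pow I fun n => ?_
  have hF := Ideal.mem_map_of_mem F (sub_truncTotal_mem_pow n f)
  have hG := Ideal.mem_map_of_mem G (sub_truncTotal_mem_pow n f)
  rw [Ideal.map_pow] at hF hG
  have hF' := Ideal.pow_right_mono (map_maximalIdeal_le F hCF hXF) n hF
  have hG' := Ideal.pow_right_mono (map_maximalIdeal_le G hCG hXG) n hG
  rw [map_sub] at hF' hG'
  have := add_mem (Ideal.mem_sup_right (S := I) (sub_mem hF' hG'))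
    (Ideal.mem_sup_left (T := maximalIdeal D ^ n) (hP (MvPowerSeries.truncTotal n f)))
  convert this using 1
  ring

variable [IsNoetherianRing D] [IsAdicComplete (maximalIdeal D) D] (φ : O →+* D) (a : σ → D)
  (ha : ∀ s, a s ∈ maximalIdeal D)

/-- Evaluation modulo `m ^ n`. -/
def evalMod (n : ℕ) : MvPowerSeries σ O →+* D ⧸ maximalIdeal D ^ n :=
  (Ideal.Quotient.lift (MvPolynomial.idealOfVars σ O ^ n)
    ((Ideal.Quotient.mk (maximalIdeal D ^ n)).comp (MvPolynomial.eval₂Hom φ a)) (fun P hP => by
      rw [RingHom.comp_apply, Ideal.Quotient.eq_zero_iff_mem]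
      have hle : (MvPolynomial.idealOfVars σ O).map (MvPolynomial.eval₂Hom φ a) ≤
          maximalIdeal D := by
        rw [MvPolynomial.idealOfVars, Ideal.map_span, Ideal.span_le]
        rintro _ ⟨_, ⟨s, rfl⟩, rfl⟩
        simpa using ha s
      have := Ideal.mem_map_of_mem (MvPolynomial.eval₂Hom φ a) hP
      rw [Ideal.map_pow] at this
      exact Ideal.pow_right_mono hle n this)).comp
    (MvPowerSeries.truncTotalAlgHom σ O n).toRingHom

omit [IsLocalRing O] [IsNoetherianRing D] [IsAdicComplete (maximalIdeal D) D] in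
theorem evalMod_compat {m n : ℕ} (hle : m ≤ n) :
    (Ideal.Quotient.factorPow (maximalIdeal D) hle).comp (evalMod φ a ha n) = evalMod φ a ha m :=
  RingHom.ext fun f => by
    have e : ∀ k, evalMod φ a ha k f = Ideal.Quotient.mk (maximalIdeal D ^ k)
        (MvPolynomial.eval₂Hom φ a (MvPowerSeries.truncTotal k f)) := fun k => rfl
    rw [RingHom.comp_apply, e, e, Ideal.Quotient.factorPow,
      Ideal.Quotient.factor_mk, Ideal.Quotient.mk_eq_mk_iff_sub_mem, ← map_sub]
    have hle' : (MvPolynomial.idealOfVars σ O).map (MvPolynomial.eval₂Hom φ a) ≤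
        maximalIdeal D := by
      rw [MvPolynomial.idealOfVars, Ideal.map_span, Ideal.span_le]
      rintro _ ⟨_, ⟨s, rfl⟩, rfl⟩
      simpa using ha s
    have := Ideal.mem_map_of_mem (MvPolynomial.eval₂Hom φ a)
      (MvPowerSeries.truncTotal_sub_truncTotal_mem_pow_idealOfVars hle le_rfl f)
    rw [Ideal.map_pow] at this
    exact Ideal.pow_right_mono hle' m this

/-- Evaluation of power series. -/
def eval : MvPowerSeries σ O →+* D :=
  IsAdicComplete.liftRingHom (maximalIdeal D) (evalMod φ a ha) (evalMod_compat φ a ha)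

omit [IsLocalRing O] [IsNoetherianRing D] in
theorem eval_sub_mem (n : ℕ) (f : MvPowerSeries σ O) :
    eval φ a ha f - MvPolynomial.eval₂Hom φ a (MvPowerSeries.truncTotal n f) ∈
      maximalIdeal D ^ n := by
  rw [← Ideal.Quotient.mk_eq_mk_iff_sub_mem]
  exact IsAdicComplete.mk_liftRingHom (maximalIdeal D) _ (evalMod_compat φ a ha) n f

omit [IsLocalRing O] in
theorem eval_coe (P : MvPolynomial σ O) :
    eval φ a ha (P : MvPowerSeries σ O) = MvPolynomial.eval₂Hom φ a P := by
  refine sub_eq_zero.1 (IsHausdorff.haus (I := maximalIdeal D) inferInstance _ fun n => ?_)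
  rw [SModEq.zero, smul_eq_mul, Ideal.mul_top]
  set m := max n (P.totalDegree + 1)
  have h := eval_sub_mem φ a ha m (P : MvPowerSeries σ O)
  rw [(MvPowerSeries.truncTotal_coe_eq_self_iff P (by omega)).2 (by omega)] at h
  exact Ideal.pow_le_pow_right (le_max_left _ _) h

omit [IsLocalRing O] in
@[simp]
theorem eval_C (r : O) : eval φ a ha (MvPowerSeries.C r) = φ r := by
  rw [← MvPolynomial.coe_C, eval_coe]; simp

omit [IsLocalRing O] in
@[simp]
theorem eval_X (s : σ) : eval φ a ha (MvPowerSeries.X s) = a s := by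
  rw [← MvPolynomial.coe_X, eval_coe]; simp

end Eval

/-- A unit congruent to `1` in a complete local ring in which `2` is invertible is a square. -/
theorem exists_sq_eq_one_add {D : Type*} [CommRing D] [IsLocalRing D]
    [IsAdicComplete (maximalIdeal D) D] (h2 : IsUnit (2 : D)) {x : D} (hx : x ∈ maximalIdeal D) :
    ∃ y : D, y * y = 1 + x ∧ y - 1 ∈ maximalIdeal D := by
  obtain ⟨y, hy, hy1⟩ := HenselianRing.is_henselian (I := maximalIdeal D)
    (Polynomial.X ^ 2 - Polynomial.C (1 + x)) (Polynomial.monic_X_pow_sub_C _ two_ne_zero) 1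
    (by simpa using hx) (by
      rw [show (Polynomial.X ^ 2 - Polynomial.C (1 + x) : Polynomial D).derivative.eval 1 =
          (2 : D) by
        simp [one_add_one_eq_two]]
      exact h2.map _)
  refine ⟨y, ?_, hy1⟩
  rw [Polynomial.IsRoot.def] at hy
  simp at hy
  rw [← pow_two]
  linear_combination hy

end Fermat.Agent.LocalRing
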