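import Mathlib
import Fermat.Agent.LocalRing.Series

/-!
# Monomial charts

## Main results

* `mem_of_monomialCharts`: a criterion for a power series to lie in `K + (ϖ)`: a family of
  monomial substitutions such that monomials with the same image are congruent modulo `K` detects
  membership.
-/

set_option autoImplicit false

noncomputable section

open IsLocalRing

namespace Fermat.Agent.LocalRing

variable {σ τ ι : Type*} [Finite σ] [Finite τ] {O : Type*} [CommRing O] [IsLocalRing O]
  (e : ι → σ → (τ →₀ ℕ)) (c : ι → σ → O)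

/-- The exponent of the image of a monomial. -/
def expImage (t : ι) (d : σ →₀ ℕ) : τ →₀ ℕ := d.sum fun s m => m • e t s

/-- The coefficient of the image of a monomial. -/
def coeffImage (t : ι) (d : σ →₀ ℕ) : O := d.prod fun s m => c t s ^ m

omit [Finite σ] [Finite τ] [IsLocalRing O] in
theorem coeffImage_eq_zero_or_isUnit (hc : ∀ t s, c t s = 0 ∨ IsUnit (c t s)) (t : ι)
    (d : σ →₀ ℕ) : coeffImage c t d = 0 ∨ IsUnit (coeffImage c t d) := by
  classical
  by_cases h : ∀ s ∈ d.support, IsUnit (c t s)
  · exact Or.inr (IsUnit.prod_iff.mpr fun s hs => (h s hs).pow _)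
  · push Not at h
    obtain ⟨s, hs, hu⟩ := h
    refine Or.inl (Finset.prod_eq_zero hs ?_)
    change c t s ^ d s = 0
    rw [(hc t s).resolve_right hu]
    exact zero_pow (Finsupp.mem_support_iff.mp hs)

omit [Finite σ] [Finite τ] in
theorem degree_le_expImage (he : ∀ t s, e t s ≠ 0) (t : ι) (d : σ →₀ ℕ) :
    d.degree ≤ (expImage e t d).degree := by
  classical
  rw [expImage, Finsupp.sum, map_sum, Finsupp.degree_apply]
  refine Finset.sum_le_sum fun s _ => ?_
  rw [map_nsmul, smul_eq_mul]
  exact Nat.le_mul_of_pos_right _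
    (Nat.pos_of_ne_zero fun h => he t s ((Finsupp.degree_eq_zero_iff _).mp h))

theorem monomial_mem_pow {n : ℕ} {d : σ →₀ ℕ} (h : n ≤ d.degree) (a : O) :
    MvPowerSeries.monomial d a ∈ maximalIdeal (MvPowerSeries σ O) ^ n := by
  classical
  refine Ideal.pow_right_mono (Ideal.span_le.mpr ?_) n (mem_span_X_pow (MvPolynomial.ext _ _
    fun d' => ?_))
  · rintro _ ⟨s, rfl⟩; exact X_mem_maximalIdeal s
  · rw [MvPowerSeries.coeff_truncTotal_eq_ite]
    split_ifs with hd
    · rw [MvPowerSeries.coeff_monomial_ne fun h' => by subst h'; omega]; simp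
    · simp

omit [Finite σ] [Finite τ] [IsLocalRing O] in
theorem isMonomial_eval₂ (t : ι) (d : σ →₀ ℕ) (a : O) :
    MvPolynomial.eval₂Hom (MvPowerSeries.C : O →+* MvPowerSeries τ O)
      (fun s => MvPowerSeries.monomial (e t s) (c t s)) (MvPolynomial.monomial d a) =
      MvPowerSeries.monomial (expImage e t d) (a * coeffImage c t d) := by
  classical
  rw [MvPolynomial.eval₂Hom_monomial, Finsupp.prod]
  simp only [MvPowerSeries.monomial_pow]
  rw [MvPowerSeries.prod_monomial, ← MvPowerSeries.monomial_zero_eq_C_apply,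
    MvPowerSeries.monomial_mul_monomial, zero_add]
  rfl

variable [IsAdicComplete (maximalIdeal O) O] [IsNoetherianRing O]

/-- The substitution given by a monomial chart. -/
def chartHom (he : ∀ t s, e t s ≠ 0) (t : ι) : MvPowerSeries σ O →+* MvPowerSeries τ O :=
  eval MvPowerSeries.C (fun s => MvPowerSeries.monomial (e t s) (c t s)) fun s => by
    simpa using monomial_mem_pow (n := 1)
      (Nat.pos_of_ne_zero fun h => he t s ((Finsupp.degree_eq_zero_iff _).mp h)) (c t s)

/-- If monomials with the same image are congruent modulo `K`, a series killed by all monomial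
charts modulo `ϖ` lies in `K + (ϖ)`. -/
theorem mem_of_monomialCharts (he : ∀ t s, e t s ≠ 0) (hc : ∀ t s, c t s = 0 ∨ IsUnit (c t s))
    {ϖ : O} (hϖ : maximalIdeal O = Ideal.span {ϖ}) (U : (σ →₀ ℕ) → ι)
    (K : Ideal (MvPowerSeries σ O))
    (hzero : ∀ d, ¬ IsUnit (coeffImage c (U d) d) → MvPowerSeries.monomial d 1 ∈ K)
    (hclass : ∀ d d', IsUnit (coeffImage c (U d) d) → IsUnit (coeffImage c (U d) d') →
      expImage e (U d) d' = expImage e (U d) d → U d' = U d ∧
        MvPowerSeries.C (coeffImage c (U d) d) * MvPowerSeries.monomial d' 1 -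
          MvPowerSeries.C (coeffImage c (U d) d') * MvPowerSeries.monomial d 1 ∈ K)
    {f : MvPowerSeries σ O}
    (hf : ∀ t μ, MvPowerSeries.coeff μ (chartHom e c he t f) ∈ maximalIdeal O) :
    f ∈ K ⊔ Ideal.span {MvPowerSeries.C ϖ} := by
  classical
  refine Patching.mem_of_forall_mem_sup_pow _ fun n => ?_
  set L := K ⊔ Ideal.span {MvPowerSeries.C ϖ} with hL
  set F := (Finsupp.finite_of_degree_lt (σ := σ) n).toFinset with hF
  have hmon : ∀ (d : σ →₀ ℕ) (a : O), MvPowerSeries.monomial d a =
      MvPowerSeries.C a * MvPowerSeries.monomial d 1 := fun d a => by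
    rw [← MvPowerSeries.monomial_zero_eq_C_apply, MvPowerSeries.monomial_mul_monomial, zero_add,
      mul_one]
  have hsplit : f - ∑ d ∈ F, MvPowerSeries.monomial d (MvPowerSeries.coeff d f) ∈
      maximalIdeal (MvPowerSeries σ O) ^ n := by
    have : (MvPowerSeries.truncTotal n f : MvPowerSeries σ O) =
        ∑ d ∈ F, MvPowerSeries.monomial d (MvPowerSeries.coeff d f) := MvPowerSeries.ext fun d => by
      rw [MvPolynomial.coeff_coe, MvPowerSeries.coeff_truncTotal_eq_ite, map_sum]
      simp_rw [MvPowerSeries.coeff_monomial, Finset.sum_ite_eq, hF, Set.Finite.mem_toFinset]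
      rfl
    rw [← this]
    exact sub_truncTotal_mem_pow n f
  rw [← sub_add_cancel f (∑ d ∈ F, MvPowerSeries.monomial d (MvPowerSeries.coeff d f))]
  refine add_mem (Ideal.mem_sup_right hsplit) ?_
  rw [← Finset.sum_filter_add_sum_filter_not F fun d => IsUnit (coeffImage c (U d) d)]
  refine add_mem ?_ (Ideal.sum_mem _ fun d hd => ?_)
  swap
  · rw [hmon]
    exact Ideal.mem_sup_left (Ideal.mem_sup_left
      (K.mul_mem_left _ (hzero d (Finset.mem_filter.mp hd).2)))
  set F' := F.filter fun d => IsUnit (coeffImage c (U d) d) with hF'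
  set key : (σ →₀ ℕ) → ι × (τ →₀ ℕ) := fun d => (U d, expImage e (U d) d)
  rw [← Finset.sum_fiberwise_of_maps_to (t := F'.image key) (g := key)
    (fun d hd => Finset.mem_image_of_mem key hd)]
  refine Ideal.sum_mem _ fun k hk => ?_
  obtain ⟨d₀, hd₀, rfl⟩ := Finset.mem_image.mp hk
  have hu₀ := (Finset.mem_filter.mp hd₀).2
  set t := U d₀
  set μ := expImage e t d₀ with hμ
  set G := ((Finsupp.finite_of_degree_lt (σ := σ) (μ.degree + 1)).toFinset).filter
    fun d => IsUnit (coeffImage c t d) ∧ expImage e t d = μ with hG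
  have hG' : ∀ d, d ∈ G ↔ IsUnit (coeffImage c t d) ∧ expImage e t d = μ := by
    intro d
    rw [hG, Finset.mem_filter, Set.Finite.mem_toFinset, Set.mem_ofPred_eq]
    refine ⟨fun h => h.2, fun h => ⟨?_, h⟩⟩
    have := degree_le_expImage e he t d
    rw [h.2] at this
    omega
  have hfib : F'.filter (fun d => key d = key d₀) = G.filter fun d => d.degree < n := by
    ext d
    simp only [hF', hF, Finset.mem_filter, hG', Set.Finite.mem_toFinset, Set.mem_ofPred_eq]
    constructor
    · rintro ⟨⟨hn, hu⟩, hk⟩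
      obtain ⟨h1, h2⟩ := Prod.mk.inj hk
      rw [h1] at hu h2
      exact ⟨⟨hu, h2⟩, hn⟩
    · rintro ⟨⟨hu, hE⟩, hn⟩
      have hU := (hclass d₀ d hu₀ hu hE).1
      exact ⟨⟨hn, by rw [hU]; exact hu⟩,
        Prod.ext hU (by change expImage e (U d) d = μ; rw [hU]; exact hE)⟩
  rw [hfib]
  have hall : ∑ d ∈ G, MvPowerSeries.monomial d (MvPowerSeries.coeff d f) ∈ L := by
    have hS : ∑ d ∈ G, MvPowerSeries.coeff d f * coeffImage c t d ∈ maximalIdeal O := by
      set N := μ.degree + 1
      have h1 := coeff_mem_pow_of_mem_pow (eval_sub_mem MvPowerSeries.C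
        (fun s => MvPowerSeries.monomial (e t s) (c t s)) (fun s => by
          simpa using monomial_mem_pow (n := 1)
            (Nat.pos_of_ne_zero fun h => he t s ((Finsupp.degree_eq_zero_iff _).mp h)) (c t s))
        N f) μ
      rw [show N - μ.degree = 1 by omega, pow_one, map_sub] at h1
      have h2 := hf t μ
      rw [chartHom] at h2
      have h3 := sub_mem h2 h1
      rw [sub_sub_cancel] at h3
      have h4 : MvPowerSeries.coeff μ (MvPolynomial.eval₂Hom MvPowerSeries.C
          (fun s => MvPowerSeries.monomial (e t s) (c t s)) (MvPowerSeries.truncTotal N f)) =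
          ∑ d ∈ G, MvPowerSeries.coeff d f * coeffImage c t d := by
        have hP : MvPowerSeries.truncTotal N f =
            ∑ d ∈ (Finsupp.finite_of_degree_lt (σ := σ) N).toFinset,
            MvPolynomial.monomial d (MvPowerSeries.coeff d f) := MvPolynomial.ext _ _ fun d => by
          rw [MvPowerSeries.coeff_truncTotal_eq_ite, MvPolynomial.coeff_sum]
          simp_rw [MvPolynomial.coeff_monomial, Finset.sum_ite_eq', Set.Finite.mem_toFinset]
          rfl
        rw [hP, map_sum, map_sum, Finset.sum_congr rfl fun d _ => congrArg (MvPowerSeries.coeff μ)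
          (isMonomial_eval₂ e c t d (MvPowerSeries.coeff d f))]
        simp_rw [MvPowerSeries.coeff_monomial]
        rw [← Finset.sum_filter, hG]
        refine (Finset.sum_subset (fun d hd => ?_) fun d hd hd' => ?_).symm
        · rw [Finset.mem_filter] at hd ⊢
          exact ⟨hd.1, hd.2.2.symm⟩
        · rw [Finset.mem_filter] at hd hd'
          rcases coeffImage_eq_zero_or_isUnit c hc t d with h | h
          · rw [h, mul_zero]
          · exact absurd ⟨hd.1, h, hd.2.symm⟩ hd'
      rwa [h4] at h3
    obtain ⟨w, hw⟩ := Ideal.mem_span_singleton'.mp (hϖ ▸ hS)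
    have hu : IsUnit (MvPowerSeries.C (σ := σ) (coeffImage c t d₀)) := hu₀.map _
    rw [← Ideal.unit_mul_mem_iff_mem _ hu]
    have hrel : ∀ d ∈ G, MvPowerSeries.C (coeffImage c t d₀) *
        MvPowerSeries.monomial d (MvPowerSeries.coeff d f) -
        MvPowerSeries.C (MvPowerSeries.coeff d f * coeffImage c t d) *
          MvPowerSeries.monomial d₀ 1 ∈ K := by
      intro d hd
      obtain ⟨hud, hEd⟩ := (hG' d).mp hd
      have h := K.mul_mem_left (MvPowerSeries.C (MvPowerSeries.coeff d f))
        (hclass d₀ d hu₀ hud hEd).2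
      rw [hmon d (MvPowerSeries.coeff d f), map_mul]
      convert h using 1
      ring
    have h5 := Ideal.mem_sup_left (T := Ideal.span {MvPowerSeries.C ϖ}) (K.sum_mem hrel)
    rw [Finset.sum_sub_distrib, ← Finset.sum_mul, ← map_sum, ← hw, map_mul, ← Finset.mul_sum] at h5
    have h6 : MvPowerSeries.C w * MvPowerSeries.C ϖ * MvPowerSeries.monomial d₀ 1 ∈ L :=
      Ideal.mem_sup_right (Ideal.mul_mem_right _ _
        (Ideal.mul_mem_left _ _ (Ideal.subset_span rfl)))
    simpa [hL] using add_mem h5 h6
  rw [← Finset.sum_filter_add_sum_filter_not G fun d => d.degree < n] at hall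
  have hbig : ∑ d ∈ G with ¬ d.degree < n, MvPowerSeries.monomial d (MvPowerSeries.coeff d f) ∈
      maximalIdeal (MvPowerSeries σ O) ^ n :=
    Ideal.sum_mem _ fun d hd => monomial_mem_pow (not_lt.mp (Finset.mem_filter.mp hd).2) _
  have := sub_mem (Ideal.mem_sup_left (T := maximalIdeal (MvPowerSeries σ O) ^ n) hall)
    (Ideal.mem_sup_right (S := L) hbig)
  rwa [add_sub_cancel_right] at this

end Fermat.Agent.LocalRing
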