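import Mathlib
import Fermat.Agent.LocalRing.Series
import Fermat.Agent.LocalRing.Monomial
import Fermat.Agent.LocalRing.Letters
import Fermat.Agent.LocalRing.Coord

/-!
# The local deformation rings at primes `q ≡ 1 mod p` with trivial residual representation

`r` such primes and `g` free variables.  At the `i`-th prime the variables are two triples
`Sv i` (the projective coordinates of Frobenius) and `Nv i` (the coordinates of `τ - scalar`).

* `unipotentIdeal h` : `qf N = 0`, `[S, N] = 2 h N`;
* `charIdeal ε` : `qf N = εᵢ²`, `[S, N] = 0`;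
* `residualIdeal` : the relations modulo `ϖ`, with `bf S N = 0` added (this is nilpotent).

## Main results

* `mem_residualIdeal_of_charts`: the monomial charts detect membership in the residual ideal
  plus `(ϖ)`, so the residual ring is reduced.
-/

set_option autoImplicit false

noncomputable section

open IsLocalRing

namespace Fermat.Agent.LocalRing

/-- The variables. -/
abbrev Var (r g : ℕ) := (Fin r × Bool × Fin 3) ⊕ Fin g

/-- The variables of a chart. -/
abbrev ChartVar (r g : ℕ) := (Fin r × Fin 3) ⊕ Fin g

/-- The power series ring containing all the coordinates. -/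
abbrev Amb (r g : ℕ) (O : Type*) := MvPowerSeries (Var r g) O

/-- The power series ring of a chart. -/
abbrev ChartRing (r g : ℕ) (O : Type*) := MvPowerSeries (ChartVar r g) O

variable {r g : ℕ} {O : Type*} [CommRing O]

/-- The coordinates of Frobenius. -/
def Sv (i : Fin r) : Fin 3 → Amb r g O := fun u => MvPowerSeries.X (.inl (i, false, u))

/-- The coordinates of inertia. -/
def Nv (i : Fin r) : Fin 3 → Amb r g O := fun u => MvPowerSeries.X (.inl (i, true, u))

/-- The unipotent deformation condition. -/
def unipotentIdeal (g : ℕ) (h : Fin r → O) : Ideal (Amb r g O) :=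
  Ideal.span (Set.range fun i => qf (Nv i)) ⊔
    Ideal.span (Set.range fun p : Fin r × Fin 3 =>
      br (Sv p.1) (Nv p.1) p.2 - MvPowerSeries.C (2 * h p.1) * Nv p.1 p.2)

/-- The deformation condition with characters `χ, χ⁻¹` on inertia. -/
def charIdeal (r g : ℕ) (ε : Fin r → O) : Ideal (Amb r g O) :=
  Ideal.span (Set.range fun i : Fin r => qf (Nv i) - MvPowerSeries.C (ε i * ε i)) ⊔
    Ideal.span (Set.range fun p : Fin r × Fin 3 => br (Sv p.1) (Nv p.1) p.2)

/-- The ideal of the trace forms. -/
def bfIdeal (r g : ℕ) (O : Type*) [CommRing O] : Ideal (Amb r g O) :=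
  Ideal.span (Set.range fun i : Fin r => bf (Sv i) (Nv i))

/-- The relations modulo `ϖ`, up to nilpotents. -/
def residualIdeal (r g : ℕ) (O : Type*) [CommRing O] : Ideal (Amb r g O) :=
  charIdeal r g (fun _ => 0) ⊔ bfIdeal r g O

theorem qf_mem_residualIdeal (i : Fin r) : qf (Nv i) ∈ residualIdeal r g O :=
  Ideal.mem_sup_left (Ideal.mem_sup_left (Ideal.subset_span ⟨i, by simp⟩))

theorem br_mem_residualIdeal (i : Fin r) (u : Fin 3) :
    br (Sv i) (Nv i) u ∈ residualIdeal r g O :=
  Ideal.mem_sup_left (Ideal.mem_sup_right (Ideal.subset_span ⟨(i, u), rfl⟩))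

theorem bf_mem_residualIdeal (i : Fin r) : bf (Sv i) (Nv i) ∈ residualIdeal r g O :=
  Ideal.mem_sup_right (Ideal.subset_span ⟨i, rfl⟩)

/-- The weight of a letter. -/
def letterWeight : Fin 3 → ℕ := ![1, 0, 2]

/-- Exponent vector `(a, b, c)` at the `i`-th prime. -/
def chartVec (i : Fin r) (a b c : ℕ) : ChartVar r g →₀ ℕ :=
  Finsupp.single (.inl (i, 0)) a + Finsupp.single (.inl (i, 1)) b + Finsupp.single (.inl (i, 2)) c

/-- Exponents of the monomial charts: at a `false` place `N = 0`, `S = (v₀, v₀v₁, v₀v₂)`; at a
`true` place `N = (v₀v₁, v₀, -v₀v₁²)`, `S = v₂ N`. -/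
def chartExp (t : Fin r → Bool) : Var r g → (ChartVar r g →₀ ℕ) :=
  Sum.elim (fun p => if t p.1 then chartVec p.1 1 (letterWeight p.2.2) (if p.2.1 then 0 else 1)
    else chartVec p.1 1 (if p.2.2 = 1 then 1 else 0) (if p.2.2 = 2 then 1 else 0))
    fun j => Finsupp.single (.inr j) 1

/-- Coefficients of the monomial charts. -/
def chartCoeff (t : Fin r → Bool) : Var r g → O :=
  Sum.elim (fun p => if t p.1 then (if p.2.2 = 2 then -1 else 1) else (if p.2.1 then 0 else 1))
    fun _ => 1

/-- The degree in `N` at the `i`-th prime. -/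
def nDegree (d : Var r g →₀ ℕ) (i : Fin r) : ℕ :=
  d (.inl (i, true, 0)) + d (.inl (i, true, 1)) + d (.inl (i, true, 2))

theorem chartExp_ne_zero (t : Fin r → Bool) (s : Var r g) : chartExp t s ≠ 0 := by
  rcases s with ⟨i, b, u⟩ | j
  · intro h
    have := DFunLike.congr_fun h (.inl (i, 0))
    cases ht : t i <;> simp [chartExp, chartVec, ht] at this
  · simp [chartExp]

theorem chartCoeff_eq (t : Fin r → Bool) (s : Var r g) :
    (chartCoeff t s : O) = 0 ∨ IsUnit (chartCoeff t s : O) := by
  rcases s with ⟨i, b, u⟩ | j
  · simp only [chartCoeff, Sum.elim_inl]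
    split_ifs <;> simp
  · simp [chartCoeff]

theorem expImage_chartExp_inr (t : Fin r → Bool) (d : Var r g →₀ ℕ) (j : Fin g) :
    expImage chartExp t d (.inr j) = d (.inr j) := by
  classical
  rw [expImage, d.sum_fintype (fun s m => m • chartExp t s) fun s => zero_smul ℕ _,
    Finsupp.finsetSum_apply, Fintype.sum_sum_type, Finset.sum_eq_zero, zero_add,
    Finset.sum_eq_single j]
  · simp [chartExp]
  · intro b _ hb
    simp [chartExp, hb]
  · simp
  · rintro ⟨i, b, u⟩ -
    cases ht : t i <;> simp [chartExp, chartVec, ht]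

theorem expImage_chartExp_inl (t : Fin r → Bool) (d : Var r g →₀ ℕ) (i : Fin r) (k : Fin 3) :
    expImage chartExp t d (.inl (i, k)) =
      ∑ b : Bool, ∑ u : Fin 3,
        d (.inl (i, b, u)) * chartExp (g := g) t (.inl (i, b, u)) (.inl (i, k)) := by
  classical
  rw [expImage, d.sum_fintype (fun s m => m • chartExp t s) fun s => zero_smul ℕ _,
    Finsupp.finsetSum_apply, Fintype.sum_sum_type, Fintype.sum_prod_type]
  rw [Finset.sum_eq_single i, Finset.sum_eq_zero (s := Finset.univ (α := Fin g)), add_zero,
    Fintype.sum_prod_type]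
  · simp
  · intro j _
    simp [chartExp]
  · intro i' _ hi'
    refine Finset.sum_eq_zero fun p _ => ?_
    cases ht : t i' <;> simp [chartExp, chartVec, ht, hi'.symm]
  · simp

theorem isUnit_coeffImage_chartCoeff_iff [Nontrivial O] (t : Fin r → Bool) (d : Var r g →₀ ℕ) :
    IsUnit (coeffImage (fun t => (chartCoeff t : Var r g → O)) t d) ↔
      ∀ i, t i = false → nDegree d i = 0 := by
  classical
  rw [coeffImage, Finsupp.prod_fintype _ _ fun s => pow_zero _, IsUnit.prod_iff]
  constructor
  · intro h i hi
    have key : ∀ u, d (.inl (i, true, u)) = 0 := fun u => by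
      have := h (.inl (i, true, u)) (Finset.mem_univ _)
      by_contra hne
      simp [chartCoeff, hi, zero_pow hne] at this
    simp [nDegree, key]
  · intro h s _
    rcases s with ⟨i, b, u⟩ | j
    · cases ht : t i
      · cases b
        · simp [chartCoeff, ht]
        · have := h i ht
          rw [nDegree] at this
          have hd : d (.inl (i, true, u)) = 0 := by fin_cases u <;> simp at this ⊢ <;> omega
          simp [hd]
      · refine IsUnit.pow _ ?_
        simp only [chartCoeff, Sum.elim_inl, ht, if_true]
        split_ifs <;> simp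
    · simp [chartCoeff]

/-- Letters in weight order, with signs. -/
def letters {R : Type*} [CommRing R] (v : Fin 3 → R) : Fin 3 → R := ![v 1, v 0, -v 2]

variable [IsLocalRing O]

omit [IsLocalRing O] in
theorem C_mul_monomial_eq_prod (t : Fin r → Bool) (d : Var r g →₀ ℕ) :
    MvPowerSeries.C (coeffImage (fun t => (chartCoeff t : Var r g → O)) t d) *
        MvPowerSeries.monomial d 1 =
      ∏ s, (MvPowerSeries.C (chartCoeff t s) * MvPowerSeries.X s) ^ d s := by
  classical
  simp only [mul_pow, Finset.prod_mul_distrib, ← map_pow, ← map_prod, MvPowerSeries.X_pow_eq]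
  rw [MvPowerSeries.prod_monomial, Finset.prod_const_one, coeffImage,
    Finsupp.prod_fintype _ _ fun s => pow_zero _]
  rw [d.univ_sum_single]

theorem sq_coeffImage_chartCoeff {t : Fin r → Bool} {d : Var r g →₀ ℕ}
    (h : IsUnit (coeffImage (fun t => (chartCoeff t : Var r g → O)) t d)) :
    coeffImage (fun t => (chartCoeff t : Var r g → O)) t d *
      coeffImage (fun t => (chartCoeff t : Var r g → O)) t d = 1 := by
  classical
  rw [coeffImage, Finsupp.prod, ← Finset.prod_mul_distrib]
  refine Finset.prod_eq_one fun s hs => ?_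
  have hu := (isUnit_coeffImage_chartCoeff_iff t d).mp h
  rw [← mul_pow]
  suffices (chartCoeff t s : O) * chartCoeff t s = 1 by simp only [this, one_pow]
  rcases s with ⟨i, b, u⟩ | j
  · cases ht : t i
    · cases b
      · simp [chartCoeff, ht]
      · exfalso
        have h0 := hu i ht
        rw [nDegree] at h0
        refine Finsupp.mem_support_iff.mp hs ?_
        fin_cases u <;> simp at h0 ⊢ <;> omega
    · simp only [chartCoeff, Sum.elim_inl, ht, if_true]
      split_ifs <;> simp
  · simp [chartCoeff]

theorem monomial_sub_mem_residualIdeal (h2 : IsUnit (2 : O)) {t : Fin r → Bool}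
    {d d' : Var r g →₀ ℕ}
    (hd : IsUnit (coeffImage (fun t => (chartCoeff t : Var r g → O)) t d))
    (hd' : IsUnit (coeffImage (fun t => (chartCoeff t : Var r g → O)) t d'))
    (ht : ∀ i, t i = true → 1 ≤ nDegree d i) (hE : expImage chartExp t d' = expImage chartExp t d) :
    MvPowerSeries.C (coeffImage (fun t => (chartCoeff t : Var r g → O)) t d) *
        MvPowerSeries.monomial d' 1 -
      MvPowerSeries.C (coeffImage (fun t => (chartCoeff t : Var r g → O)) t d') *
        MvPowerSeries.monomial d 1 ∈ residualIdeal r g O := by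
  classical
  set cd := coeffImage (fun t => (chartCoeff t : Var r g → O)) t d
  set cd' := coeffImage (fun t => (chartCoeff t : Var r g → O)) t d'
  suffices H : MvPowerSeries.C cd' * MvPowerSeries.monomial d' 1 -
      MvPowerSeries.C cd * MvPowerSeries.monomial d 1 ∈ residualIdeal r g O by
    have := Ideal.mul_mem_left _ (MvPowerSeries.C (cd * cd')) H
    convert this using 1
    rw [mul_sub, ← mul_assoc, ← mul_assoc, ← map_mul, ← map_mul, mul_assoc cd,
      sq_coeffImage_chartCoeff hd', mul_one,
      show cd * cd' * cd = cd' * (cd * cd) by ring, sq_coeffImage_chartCoeff hd, mul_one]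
  rw [C_mul_monomial_eq_prod, C_mul_monomial_eq_prod, ← Ideal.Quotient.mk_eq_mk_iff_sub_mem,
    map_prod, map_prod, Fintype.prod_sum_type, Fintype.prod_sum_type]
  congr 1
  swap
  · refine Finset.prod_congr rfl fun j _ => ?_
    have := DFunLike.congr_fun hE (.inr j)
    rw [expImage_chartExp_inr, expImage_chartExp_inr] at this
    rw [this]
  simp only [Fintype.prod_prod_type]
  refine Finset.prod_congr rfl fun i _ => ?_
  set mk := Ideal.Quotient.mk (residualIdeal r g O)
  have hk : ∀ k, expImage chartExp t d' (.inl (i, k)) = expImage chartExp t d (.inl (i, k)) :=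
    fun k => DFunLike.congr_fun hE _
  simp only [expImage_chartExp_inl] at hk
  cases hti : t i
  · -- no `N`-letters: the exponents agree
    have hn := (isUnit_coeffImage_chartCoeff_iff t d).mp hd i hti
    have hn' := (isUnit_coeffImage_chartCoeff_iff t d').mp hd' i hti
    rw [nDegree] at hn hn'
    have k0 := hk 0
    have k1 := hk 1
    have k2 := hk 2
    simp [chartExp, chartVec, hti, Fin.sum_univ_three] at k0 k1 k2
    have hall : ∀ b u, d' (.inl (i, b, u)) = d (.inl (i, b, u)) := by
      intro b u; cases b <;> fin_cases u <;> simp <;> omega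
    simp only [hall]
  · -- at a `true` place use the normal form of monomials in two proportional isotropic vectors
    have h2' : IsUnit (2 : Amb r g O ⧸ residualIdeal r g O) := by
      simpa [map_ofNat] using h2.map (mk.comp MvPowerSeries.C)
    have hq : qf (mk ∘ Nv i) = 0 := by
      rw [← map_qf]; exact Ideal.Quotient.eq_zero_iff_mem.mpr (qf_mem_residualIdeal i)
    have hb : ∀ u, br (mk ∘ Sv i) (mk ∘ Nv i) u = 0 := fun u => by
      rw [← map_br]; exact Ideal.Quotient.eq_zero_iff_mem.mpr (br_mem_residualIdeal i u)
    have hf : bf (mk ∘ Sv i) (mk ∘ Nv i) = 0 := by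
      rw [← map_bf]; exact Ideal.Quotient.eq_zero_iff_mem.mpr (bf_mem_residualIdeal i)
    have hb0 := hb 0
    have hb1 := hb 1
    have hb2 := hb 2
    simp only [br, Matrix.cons_val_zero] at hb0
    simp only [br, Matrix.cons_val_one, Matrix.cons_val_zero] at hb1
    simp only [br, Matrix.cons_val] at hb2
    rw [h2'.mul_right_eq_zero] at hb1 hb2
    have hsw : ∀ a b, letters (mk ∘ Sv i) a * letters (mk ∘ Nv i) b =
        letters (mk ∘ Sv i) b * letters (mk ∘ Nv i) a := by
      intro a b
      fin_cases a <;> fin_cases b <;> simp only [letters, Matrix.cons_val_zero,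
        Matrix.cons_val_one, Matrix.cons_val, Fin.zero_eta, Fin.mk_one, Fin.reduceFinMk]
      · linear_combination -hb1
      · linear_combination -hb0
      · linear_combination hb1
      · linear_combination -hb2 * (-1 : Amb r g O ⧸ residualIdeal r g O)
      · linear_combination hb0
      · linear_combination -hb2
    have hl2 : letters (mk ∘ Nv i) 1 * letters (mk ∘ Nv i) 1 =
        letters (mk ∘ Nv i) 0 * letters (mk ∘ Nv i) 2 := by
      simp only [letters, Matrix.cons_val_zero, Matrix.cons_val_one, Matrix.cons_val]
      rw [qf] at hq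
      linear_combination hq
    have hl3 : letters (mk ∘ Sv i) 1 * letters (mk ∘ Nv i) 1 =
        letters (mk ∘ Sv i) 0 * letters (mk ∘ Nv i) 2 := by
      simp only [letters, Matrix.cons_val_zero, Matrix.cons_val_one, Matrix.cons_val]
      rw [bf] at hf
      refine h2'.mul_left_cancel ?_
      linear_combination hf + hb0
    have k0 := hk 0
    have k1 := hk 1
    have k2 := hk 2
    simp [chartExp, chartVec, letterWeight, hti, Fin.sum_univ_three] at k0 k1 k2
    have hti' := ht i hti
    rw [nDegree] at hti'
    have := letterVal_eq hsw hl2 hl3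
      (a0 := d (.inl (i, false, 1))) (a1 := d (.inl (i, false, 0))) (a2 := d (.inl (i, false, 2)))
      (b0 := d (.inl (i, true, 1))) (b1 := d (.inl (i, true, 0))) (b2 := d (.inl (i, true, 2)))
      (a0' := d' (.inl (i, false, 1))) (a1' := d' (.inl (i, false, 0)))
      (a2' := d' (.inl (i, false, 2))) (b0' := d' (.inl (i, true, 1)))
      (b1' := d' (.inl (i, true, 0))) (b2' := d' (.inl (i, true, 2)))
      (by omega) (by omega) (by omega) (by omega)
    simp only [letterVal, letters, Matrix.cons_val_zero, Matrix.cons_val_one, Matrix.cons_val,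
      Function.comp_apply, Sv, Nv] at this
    simp [chartCoeff, hti, Fin.prod_univ_three, mk] at this ⊢
    linear_combination -this

/-- **The residual ring is reduced**: the monomial charts detect membership in the residual
ideal plus `(ϖ)`. -/
theorem mem_residualIdeal_of_charts [IsNoetherianRing O] [IsAdicComplete (maximalIdeal O) O]
    (h2 : IsUnit (2 : O)) {ϖ : O} (hϖ : maximalIdeal O = Ideal.span {ϖ}) {f : Amb r g O}
    (hf : ∀ (t : Fin r → Bool) μ, MvPowerSeries.coeff μ
      (chartHom chartExp (fun t => (chartCoeff t : Var r g → O)) chartExp_ne_zero t f) ∈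
        maximalIdeal O) :
    f ∈ residualIdeal r g O ⊔ Ideal.span {MvPowerSeries.C ϖ} := by
  classical
  refine mem_of_monomialCharts chartExp _ chartExp_ne_zero chartCoeff_eq hϖ
    (fun d i => decide (0 < nDegree d i)) _ (fun d hd => absurd ?_ hd) (fun d d' hd hd' hE => ?_) hf
  · rw [isUnit_coeffImage_chartCoeff_iff]
    intro i hi
    simpa using hi
  · refine ⟨?_, monomial_sub_mem_residualIdeal h2 hd hd'
      (fun i hi => Nat.succ_le_of_lt (by simpa using hi)) hE⟩
    funext i
    by_cases hpos : 0 < nDegree d i
    · have k0 := DFunLike.congr_fun hE (.inl (i, 0))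
      have k2 := DFunLike.congr_fun hE (.inl (i, 2))
      simp only [expImage_chartExp_inl] at k0 k2
      simp [chartExp, chartVec, Fin.sum_univ_three, hpos] at k0 k2
      rw [decide_eq_decide]
      simp only [nDegree] at hpos ⊢
      omega
    · have := (isUnit_coeffImage_chartCoeff_iff _ d').mp hd' i (by simp [hpos])
      simp [this, hpos]

end Fermat.Agent.LocalRing
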