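import Mathlib
import Fermat.Agent.LocalRing.Series

/-!
# Substitutions that preserve a grading

## Main results

* `weightPart`: the homogeneous parts of a power series.
* `eval_weightPart_eq_zero`: the kernel of a homogeneous substitution is stable under taking
  homogeneous parts.
-/

set_option autoImplicit false

noncomputable section

open IsLocalRing

namespace Fermat.Agent.LocalRing

variable {σ τ : Type*} [Finite σ] [Finite τ] {O : Type*} [CommRing O]

/-- All monomials of `x` have degree `k` for the grading `v`. -/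
def HasWeight (v : (τ →₀ ℕ) →+ ℕ) (k : ℕ) (x : MvPowerSeries τ O) : Prop :=
  ∀ μ, MvPowerSeries.coeff μ x ≠ 0 → v μ = k

omit [Finite τ] in
theorem HasWeight.mul {v : (τ →₀ ℕ) →+ ℕ} {k l : ℕ} {x y : MvPowerSeries τ O}
    (hx : HasWeight v k x) (hy : HasWeight v l y) : HasWeight v (k + l) (x * y) := by
  classical
  intro μ hμ
  rw [MvPowerSeries.coeff_mul] at hμ
  obtain ⟨p, hp, hne⟩ := Finset.exists_ne_zero_of_sum_ne_zero hμ
  rw [← Finset.HasAntidiagonal.mem_antidiagonal.mp hp, map_add, hx _ (left_ne_zero_of_mul hne),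
    hy _ (right_ne_zero_of_mul hne)]

omit [Finite τ] in
theorem hasWeight_C (v : (τ →₀ ℕ) →+ ℕ) (c : O) : HasWeight v 0 (MvPowerSeries.C c) := by
  classical
  intro μ hμ
  rw [MvPowerSeries.coeff_C] at hμ
  split_ifs at hμ with h
  · rw [h, map_zero]
  · exact absurd rfl hμ

omit [Finite τ] in
theorem hasWeight_monomial (v : (τ →₀ ℕ) →+ ℕ) (μ : τ →₀ ℕ) (c : O) :
    HasWeight v (v μ) (MvPowerSeries.monomial μ c) := by
  classical
  intro μ' hμ
  rw [MvPowerSeries.coeff_monomial] at hμ
  split_ifs at hμ with h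
  · rw [h]
  · exact absurd rfl hμ

omit [Finite τ] in
theorem HasWeight.add {v : (τ →₀ ℕ) →+ ℕ} {k : ℕ} {x y : MvPowerSeries τ O}
    (hx : HasWeight v k x) (hy : HasWeight v k y) : HasWeight v k (x + y) := by
  intro μ hμ
  rw [map_add] at hμ
  by_cases h : MvPowerSeries.coeff μ x = 0
  · rw [h, zero_add] at hμ; exact hy μ hμ
  · exact hx μ h

omit [Finite τ] in
theorem HasWeight.neg {v : (τ →₀ ℕ) →+ ℕ} {k : ℕ} {x : MvPowerSeries τ O}
    (hx : HasWeight v k x) : HasWeight v k (-x) := fun μ hμ => hx μ (by simpa using hμ)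

omit [Finite τ] in
theorem HasWeight.sub {v : (τ →₀ ℕ) →+ ℕ} {k : ℕ} {x y : MvPowerSeries τ O}
    (hx : HasWeight v k x) (hy : HasWeight v k y) : HasWeight v k (x - y) := by
  rw [sub_eq_add_neg]; exact hx.add hy.neg

omit [Finite τ] in
theorem HasWeight.pow {v : (τ →₀ ℕ) →+ ℕ} {k : ℕ} {x : MvPowerSeries τ O}
    (hx : HasWeight v k x) (n : ℕ) : HasWeight v (n * k) (x ^ n) := by
  induction n with
  | zero => rw [pow_zero, zero_mul, ← map_one (MvPowerSeries.C (σ := τ))]; exact hasWeight_C v 1
  | succ n ih => rw [pow_succ, Nat.succ_mul]; exact ih.mul hx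

omit [Finite τ] in
theorem hasWeight_prod (v : (τ →₀ ℕ) →+ ℕ) {ι : Type*} (s : Finset ι) {x : ι → MvPowerSeries τ O}
    {k : ι → ℕ} (h : ∀ i ∈ s, HasWeight v (k i) (x i)) :
    HasWeight v (∑ i ∈ s, k i) (∏ i ∈ s, x i) := by
  classical
  induction s using Finset.induction with
  | empty =>
    rw [Finset.sum_empty, Finset.prod_empty, ← map_one (MvPowerSeries.C (σ := τ))]
    exact hasWeight_C v 1
  | insert i t hi ih =>
    rw [Finset.sum_insert hi, Finset.prod_insert hi]
    exact (h i (Finset.mem_insert_self i t)).mul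
      (ih fun j hj => h j (Finset.mem_insert_of_mem hj))

/-- The part of degree `k` for the grading `u`. -/
def weightPart (u : (σ →₀ ℕ) →+ ℕ) (k : ℕ) (f : MvPowerSeries σ O) : MvPowerSeries σ O :=
  fun d => if u d = k then MvPowerSeries.coeff d f else 0

omit [Finite σ] in
theorem coeff_weightPart (u : (σ →₀ ℕ) →+ ℕ) (k : ℕ) (f : MvPowerSeries σ O) (d : σ →₀ ℕ) :
    MvPowerSeries.coeff d (weightPart u k f) = if u d = k then MvPowerSeries.coeff d f else 0 :=
  rfl

variable [IsLocalRing O] [IsNoetherianRing O] [IsAdicComplete (maximalIdeal O) O]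
  (u : (σ →₀ ℕ) →+ ℕ) (v : (τ →₀ ℕ) →+ ℕ) (a : σ → MvPowerSeries τ O)
  (ha : ∀ s, a s ∈ maximalIdeal (MvPowerSeries τ O))
  (hw : ∀ s, HasWeight v (u (Finsupp.single s 1)) (a s))

include hw in
/-- A homogeneous substitution does not mix the degrees. -/
theorem coeff_eval_eq_zero {f : MvPowerSeries σ O} {μ : τ →₀ ℕ}
    (hf : ∀ d, MvPowerSeries.coeff d f ≠ 0 → u d ≠ v μ) :
    MvPowerSeries.coeff μ (eval MvPowerSeries.C a ha f) = 0 := by
  classical
  have hpoly : ∀ n, MvPowerSeries.coeff μ (MvPolynomial.eval₂Hom MvPowerSeries.C a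
      (MvPowerSeries.truncTotal n f)) = 0 := by
    intro n
    rw [MvPolynomial.coe_eval₂Hom, MvPolynomial.eval₂_eq, map_sum]
    refine Finset.sum_eq_zero fun d hd => ?_
    have hd0 : MvPowerSeries.coeff d f ≠ 0 := by
      rw [MvPolynomial.mem_support_iff, MvPowerSeries.coeff_truncTotal_eq_ite] at hd
      split_ifs at hd with h
      · exact hd
      · exact absurd rfl hd
    have hu : u d = ∑ s ∈ d.support, d s * u (Finsupp.single s 1) := by
      conv_lhs => rw [← d.sum_single, Finsupp.sum, map_sum]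
      exact Finset.sum_congr rfl fun s _ => by
        rw [← smul_eq_mul, ← map_nsmul, Finsupp.smul_single_one]
    have hW := (hasWeight_C v ((MvPowerSeries.truncTotal n f).coeff d)).mul
      (hasWeight_prod v d.support fun s _ => (hw s).pow (d s))
    rw [zero_add, ← hu] at hW
    by_contra hne
    exact hf d hd0 (hW μ hne).symm
  rw [← Ideal.mem_bot (R := O), ← Ideal.iInf_pow_eq_bot_of_isLocalRing (maximalIdeal O)
    (maximalIdeal.isMaximal O).ne_top, Ideal.mem_iInf]
  intro k
  have h := coeff_mem_pow_of_mem_pow (eval_sub_mem MvPowerSeries.C a ha (k + μ.degree) f) μ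
  rwa [map_sub, hpoly, sub_zero, Nat.add_sub_cancel] at h

include hw in
/-- The homogeneous parts of an element of the kernel of a homogeneous substitution are in the
kernel. -/
theorem eval_weightPart_eq_zero {f : MvPowerSeries σ O}
    (hf : eval MvPowerSeries.C a ha f = 0) (k : ℕ) :
    eval MvPowerSeries.C a ha (weightPart u k f) = 0 := by
  classical
  ext μ
  rw [map_zero]
  by_cases hμ : v μ = k
  · have h := coeff_eval_eq_zero u v a ha hw (f := f - weightPart u k f) (μ := μ) fun d hd hd' => by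
      rw [map_sub, coeff_weightPart, if_pos (hd'.trans hμ), sub_self] at hd
      exact hd rfl
    rwa [map_sub, hf, zero_sub, map_neg, neg_eq_zero] at h
  · refine coeff_eval_eq_zero u v a ha hw fun d hd hd' => ?_
    rw [coeff_weightPart, if_neg (fun h => hμ (hd'.symm.trans h))] at hd
    exact hd rfl

omit [IsNoetherianRing O] [IsAdicComplete (maximalIdeal O) O] in
/-- The truncation at total degree `n` only involves the parts of degree `< n`. -/
theorem sub_sum_weightPart_mem (hu : ∀ d, u d ≤ d.degree) (n : ℕ) (f : MvPowerSeries σ O) :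
    f - ∑ k ∈ Finset.range n, weightPart u k f ∈ maximalIdeal (MvPowerSeries σ O) ^ n := by
  classical
  refine Ideal.pow_right_mono (Ideal.span_le.mpr ?_) n (mem_span_X_pow (MvPolynomial.ext _ _
    fun d => ?_))
  · rintro _ ⟨s, rfl⟩; exact X_mem_maximalIdeal s
  · rw [MvPowerSeries.coeff_truncTotal_eq_ite]
    split_ifs with hd
    · simp only [map_sub, map_sum, coeff_weightPart, Finset.sum_ite_eq, Finset.mem_range]
      rw [if_pos ((hu d).trans_lt hd), sub_self]
      rfl
    · rfl

end Fermat.Agent.LocalRing
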