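import Mathlib
import Fermat.Agent.LocalRing.Rings

/-!
# The unipotent ring: components

The charts `unipotentChart h t` (`t i = true`: Steinberg at `i`; `false`: unramified) have as
intersection of kernels the ideal `unipotentIdeal h ⊔ bfIdeal`, which every prime containing
`unipotentIdeal h` contains.

## Main results

* `iInf_ker_unipotentChart`: this intersection.
* `exists_ker_unipotentChart_le`: every prime over the relations contains the kernel of a
  chart.
-/

set_option autoImplicit false

noncomputable section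

open IsLocalRing

namespace Fermat.Agent.LocalRing

variable {r g : ℕ} {O : Type*} [CommRing O] [IsDomain O] [IsDiscreteValuationRing O]
  [IsAdicComplete (maximalIdeal O) O]

/-- The chart variable. -/
def chartX (i : Fin r) (k : Fin 3) : ChartRing r g O := MvPowerSeries.X (.inl (i, k))

omit [IsDomain O] [IsDiscreteValuationRing O] [IsAdicComplete (maximalIdeal O) O] in
theorem monomial_chartVec (i : Fin r) (a b c : ℕ) :
    MvPowerSeries.monomial (chartVec (g := g) i a b c) (1 : O) =
      chartX i 0 ^ a * chartX i 1 ^ b * chartX i 2 ^ c := by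
  simp only [chartX, MvPowerSeries.X_pow_eq, MvPowerSeries.monomial_mul_monomial, mul_one]
  rfl

/-- Reduction of the coefficients modulo `ϖ`. -/
def reduceSeries (τ : Type*) (O : Type*) [CommRing O] [IsLocalRing O] :
    MvPowerSeries τ O →+* MvPowerSeries τ (ResidueField O) :=
  MvPowerSeries.map (residue O)

omit [IsAdicComplete (maximalIdeal O) O] in
theorem reduceSeries_eq_zero_iff {τ : Type*} (x : MvPowerSeries τ O) :
    reduceSeries τ O x = 0 ↔ ∀ μ, MvPowerSeries.coeff μ x ∈ maximalIdeal O := by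
  simp [reduceSeries, MvPowerSeries.ext_iff, residue_eq_zero_iff]

omit [IsAdicComplete (maximalIdeal O) O] in
theorem reduceSeries_C {τ : Type*} {a : O} (ha : a ∈ maximalIdeal O) :
    reduceSeries τ O (MvPowerSeries.C a) = 0 := by
  simp [reduceSeries, (residue_eq_zero_iff a).mpr ha]

omit [IsAdicComplete (maximalIdeal O) O] in
theorem reduceSeries_X {τ : Type*} (s : τ) :
    reduceSeries τ O (MvPowerSeries.X s) = MvPowerSeries.X s := by simp [reduceSeries]

/-- Substitutions with the same reduction have the same reduced homomorphism. -/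
theorem reduceSeries_eval_eq {σ τ : Type*} [Finite σ] [Finite τ] {a b : σ → MvPowerSeries τ O}
    (ha : ∀ s, a s ∈ maximalIdeal (MvPowerSeries τ O))
    (hb : ∀ s, b s ∈ maximalIdeal (MvPowerSeries τ O))
    (hab : ∀ s, reduceSeries τ O (a s) = reduceSeries τ O (b s)) (f : MvPowerSeries σ O) :
    reduceSeries τ O (eval MvPowerSeries.C a ha f) =
      reduceSeries τ O (eval MvPowerSeries.C b hb f) := by
  have hm : ∀ x ∈ maximalIdeal (MvPowerSeries τ O),
      reduceSeries τ O x ∈ maximalIdeal (MvPowerSeries τ (ResidueField O)) := by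
    intro x hx
    have := (residue_eq_zero_iff _).mpr (constantCoeff_mem hx)
    rw [mem_maximalIdeal, mem_nonunits_iff, MvPowerSeries.isUnit_iff_constantCoeff, reduceSeries,
      MvPowerSeries.constantCoeff_map, this]
    exact not_isUnit_zero
  have h := sub_mem_of_generators ((reduceSeries τ O).comp (eval MvPowerSeries.C a ha))
    ((reduceSeries τ O).comp (eval MvPowerSeries.C b hb)) ⊥ (fun c => by simp)
    (fun s => by simp [hab]) (fun c hc => by simpa using hm _ (C_mem_maximalIdeal hc))
    (fun s => by simpa using hm _ (ha s)) (fun c hc => by simpa using hm _ (C_mem_maximalIdeal hc))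
    (fun s => by simpa using hm _ (hb s)) f
  simpa [sub_eq_zero] using h

omit [IsAdicComplete (maximalIdeal O) O] in
/-- Descent: an ideal saturated for `ϖ` which lies in `J + (ϖ)` lies in `J`. -/
theorem le_of_saturated {σ : Type*} [Finite σ] {ϖ : O} (hϖ : ϖ ∈ maximalIdeal O)
    {J K : Ideal (MvPowerSeries σ O)} (hJK : J ≤ K)
    (hsat : ∀ x, MvPowerSeries.C ϖ * x ∈ K → x ∈ K)
    (hK : K ≤ J ⊔ Ideal.span {MvPowerSeries.C ϖ}) : K ≤ J := by
  have key : ∀ n : ℕ, ∀ x ∈ K, x ∈ J ⊔ Ideal.span {MvPowerSeries.C ϖ} ^ n := by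
    intro n
    induction n with
    | zero => intro x _; simp
    | succ n ih =>
      intro x hx
      obtain ⟨j, hj, y, hy, rfl⟩ := Submodule.mem_sup.mp (hK hx)
      obtain ⟨z, rfl⟩ := Ideal.mem_span_singleton'.mp hy
      rw [mul_comm] at hx hy ⊢
      have hz : z ∈ K := hsat z ((Submodule.add_mem_iff_right _ (hJK hj)).mp hx)
      obtain ⟨j', hj', w, hw, rfl⟩ := Submodule.mem_sup.mp (ih z hz)
      rw [mul_add, ← add_assoc]
      refine add_mem (Ideal.mem_sup_left (add_mem hj (Ideal.mul_mem_left _ _ hj')))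
        (Ideal.mem_sup_right ?_)
      rw [pow_succ']
      exact Ideal.mul_mem_mul (Ideal.mem_span_singleton_self _) hw
  intro x hx
  refine Patching.mem_of_forall_mem_sup_pow J fun n => ?_
  refine (sup_le_sup_left (Ideal.pow_right_mono ?_ n) J) (key n x hx)
  rw [Ideal.span_le, Set.singleton_subset_iff]
  exact C_mem_maximalIdeal hϖ

/-- Substitution for the lifted unipotent chart. -/
def unipotentImage (h : Fin r → O) (t : Fin r → Bool) : Var r g → ChartRing r g O :=
  Sum.elim
    (fun p =>
      if t p.1 then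
        (if p.2.1 then ![chartX p.1 0 * chartX p.1 1, chartX p.1 0,
            -(chartX p.1 0 * chartX p.1 1 ^ 2)] p.2.2
          else ![chartX p.1 2 * (chartX p.1 0 * chartX p.1 1) + MvPowerSeries.C (h p.1),
            chartX p.1 2 * chartX p.1 0,
            chartX p.1 2 * -(chartX p.1 0 * chartX p.1 1 ^ 2) -
              2 * MvPowerSeries.C (h p.1) * chartX p.1 1] p.2.2)
      else (if p.2.1 then 0
        else ![chartX p.1 0, chartX p.1 0 * chartX p.1 1, chartX p.1 0 * chartX p.1 2] p.2.2))
    fun j => MvPowerSeries.X (.inr j)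

variable {h : Fin r → O} (hh : ∀ i, h i ∈ maximalIdeal O)

omit [IsAdicComplete (maximalIdeal O) O] in
include hh in
theorem unipotentImage_mem (t : Fin r → Bool) (s : Var r g) :
    unipotentImage h t s ∈ maximalIdeal (ChartRing r g O) := by
  have hX : ∀ i k, chartX (g := g) i k ∈ maximalIdeal (ChartRing r g O) :=
    fun i k => X_mem_maximalIdeal _
  rcases s with ⟨i, b, u⟩ | j
  · simp only [unipotentImage, Sum.elim_inl]
    cases t i <;> cases b <;> fin_cases u <;>
      simp only [Bool.false_eq_true, if_false, if_true, Matrix.cons_val_zero, Matrix.cons_val_one,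
        Matrix.cons_val, Fin.zero_eta, Fin.mk_one, Fin.reduceFinMk]
    all_goals first
      | exact zero_mem _
      | exact hX i 0
      | exact Ideal.mul_mem_right _ _ (hX i 0)
      | exact neg_mem (Ideal.mul_mem_right _ _ (hX i 0))
      | exact Ideal.mul_mem_right _ _ (hX i 2)
      | exact add_mem (Ideal.mul_mem_right _ _ (hX i 2)) (C_mem_maximalIdeal (hh i))
      | exact sub_mem (Ideal.mul_mem_right _ _ (hX i 2)) (Ideal.mul_mem_left _ _ (hX i 1))
  · exact X_mem_maximalIdeal _

/-- The lifted unipotent chart. -/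
def unipotentChart (t : Fin r → Bool) : Amb r g O →+* ChartRing r g O :=
  eval MvPowerSeries.C (unipotentImage h t) (unipotentImage_mem hh t)

theorem reduceSeries_unipotentChart (t : Fin r → Bool) (f : Amb r g O) :
    reduceSeries _ O (unipotentChart hh t f) = reduceSeries _ O
      (chartHom chartExp (fun t => (chartCoeff t : Var r g → O)) chartExp_ne_zero t f) := by
  refine reduceSeries_eval_eq _ _ (fun s => ?_) f
  have hred : ∀ i, reduceSeries (ChartVar r g) O (MvPowerSeries.C (h i)) = 0 :=
    fun i => reduceSeries_C (hh i)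
  have hmon : ∀ (i : Fin r) (x y z : ℕ) (c : O),
      MvPowerSeries.monomial (chartVec (g := g) i x y z) c =
        MvPowerSeries.C c * (chartX i 0 ^ x * chartX i 1 ^ y * chartX i 2 ^ z) :=
        fun i x y z c => by
    rw [← monomial_chartVec, ← MvPowerSeries.monomial_zero_eq_C_apply,
      MvPowerSeries.monomial_mul_monomial, zero_add, mul_one]
  rcases s with ⟨i, b, u⟩ | j
  · change _ = reduceSeries _ O (MvPowerSeries.monomial _ _)
    simp only [unipotentImage, chartExp, chartCoeff, Sum.elim_inl]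
    cases t i <;> cases b <;> fin_cases u <;>
      simp [hmon, letterWeight, hred] <;> ring
  · simp [unipotentImage, chartExp, chartCoeff, MvPowerSeries.X_def]

theorem comp_Sv_unipotentChart (t : Fin r → Bool) (i : Fin r) :
    unipotentChart hh t ∘ Sv (g := g) i = fun u => unipotentImage h t (.inl (i, false, u)) := by
  funext u; simp [unipotentChart, Sv]

theorem comp_Nv_unipotentChart (t : Fin r → Bool) (i : Fin r) :
    unipotentChart hh t ∘ Nv (g := g) i = fun u => unipotentImage h t (.inl (i, true, u)) := by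
  funext u; simp [unipotentChart, Nv]

theorem unipotentIdeal_sup_bfIdeal_le_ker (t : Fin r → Bool) :
    unipotentIdeal g h ⊔ bfIdeal r g O ≤ RingHom.ker (unipotentChart hh t) := by
  refine sup_le (sup_le (Ideal.span_le.mpr ?_) (Ideal.span_le.mpr ?_)) (Ideal.span_le.mpr ?_)
  · rintro _ ⟨i, rfl⟩
    rw [SetLike.mem_coe, RingHom.mem_ker, map_qf, comp_Nv_unipotentChart]
    cases ht : t i <;> simp [qf, unipotentImage, ht]
    ring
  · rintro _ ⟨⟨i, u⟩, rfl⟩
    rw [SetLike.mem_coe, RingHom.mem_ker, map_sub, map_mul, map_br, comp_Nv_unipotentChart,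
      comp_Sv_unipotentChart]
    cases ht : t i <;> fin_cases u <;>
      simp [br, unipotentChart, Nv, unipotentImage, ht, map_ofNat] <;> ring
  · rintro _ ⟨i, rfl⟩
    rw [SetLike.mem_coe, RingHom.mem_ker, map_bf, comp_Nv_unipotentChart, comp_Sv_unipotentChart]
    cases ht : t i <;> simp [bf, unipotentImage, ht]
    ring
omit [IsDomain O] [IsDiscreteValuationRing O] in

omit [IsAdicComplete (maximalIdeal O) O] in
theorem residualIdeal_le {ϖ : O} (hϖ' : ∀ i, ∃ c, h i = c * ϖ) :
    residualIdeal r g O ≤ unipotentIdeal g h ⊔ bfIdeal r g O ⊔ Ideal.span {MvPowerSeries.C ϖ} := by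
  refine sup_le (sup_le ?_ ?_) (le_sup_of_le_left le_sup_right) <;> rw [Ideal.span_le]
  · rintro _ ⟨i, rfl⟩
    simp only [mul_zero, map_zero, sub_zero]
    exact Ideal.mem_sup_left (Ideal.mem_sup_left (Ideal.mem_sup_left (Ideal.subset_span ⟨i, rfl⟩)))
  · rintro _ ⟨⟨i, u⟩, rfl⟩
    obtain ⟨c, hc⟩ := hϖ' i
    have h1 : br (Sv i) (Nv i) u - MvPowerSeries.C (2 * h i) * Nv i u ∈
        unipotentIdeal g h ⊔ bfIdeal r g O :=
      Ideal.mem_sup_left (Ideal.mem_sup_right (Ideal.subset_span ⟨(i, u), rfl⟩))
    have h2 : MvPowerSeries.C (2 * h i) * Nv i u ∈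
        Ideal.span {(MvPowerSeries.C ϖ : Amb r g O)} := by
      rw [hc, ← mul_assoc, map_mul, mul_right_comm]
      exact Ideal.mul_mem_left _ _ (Ideal.mem_span_singleton_self _)
    simpa using add_mem (Ideal.mem_sup_left (T := Ideal.span {MvPowerSeries.C ϖ}) h1)
      (Ideal.mem_sup_right (S := unipotentIdeal g h ⊔ bfIdeal r g O) h2)

/-- The charts cut out exactly `unipotentIdeal h ⊔ bfIdeal`. -/
theorem iInf_ker_unipotentChart (h2 : IsUnit (2 : O)) :
    ⨅ t : Fin r → Bool, RingHom.ker (unipotentChart (g := g) hh t) =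
      unipotentIdeal g h ⊔ bfIdeal r g O := by
  obtain ⟨ϖ, hϖ⟩ := IsDiscreteValuationRing.exists_irreducible O
  have hm := hϖ.maximalIdeal_eq
  have hmem : ϖ ∈ maximalIdeal O := hm ▸ Ideal.mem_span_singleton_self ϖ
  refine le_antisymm (le_of_saturated hmem (le_iInf (unipotentIdeal_sup_bfIdeal_le_ker hh))
    (fun x hx => ?_) fun f hf => ?_) (le_iInf (unipotentIdeal_sup_bfIdeal_le_ker hh))
  · rw [Ideal.mem_iInf] at hx ⊢
    intro t
    have h1 := hx t
    rw [RingHom.mem_ker, map_mul, unipotentChart, eval_C, mul_eq_zero] at h1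
    refine h1.resolve_left fun h0 => hϖ.ne_zero ?_
    simpa using congrArg MvPowerSeries.constantCoeff h0
  · rw [Ideal.mem_iInf] at hf
    refine (sup_le (residualIdeal_le fun i => ?_) le_sup_right)
      (mem_residualIdeal_of_charts h2 hm fun t μ => ?_)
    · obtain ⟨c, hc⟩ := Ideal.mem_span_singleton'.mp (hm ▸ hh i)
      exact ⟨c, hc.symm⟩
    · revert μ
      rw [← reduceSeries_eq_zero_iff, ← reduceSeries_unipotentChart hh, RingHom.mem_ker.mp (hf t),
        map_zero]

omit [IsDomain O] [IsDiscreteValuationRing O] in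
omit [IsAdicComplete (maximalIdeal O) O] in
/-- Every prime containing the unipotent relations contains the trace forms. -/
theorem bfIdeal_le_of_isPrime (h2 : IsUnit (2 : O)) {Q : Ideal (Amb r g O)}
    (hQ : Q.IsPrime) (hle : unipotentIdeal g h ≤ Q) : bfIdeal r g O ≤ Q := by
  rw [bfIdeal, Ideal.span_le]
  rintro _ ⟨i, rfl⟩
  have hbr : ∀ u, br (Sv i) (Nv i) u - MvPowerSeries.C (2 * h i) * Nv i u ∈ Q :=
    fun u => hle (Ideal.mem_sup_right (Ideal.subset_span ⟨(i, u), rfl⟩))
  by_cases hC : MvPowerSeries.C (h i) ∈ Q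
  · -- residual characteristic: `bf² ∈ Q`
    have hbr' : ∀ u, br (Sv i) (Nv i) u ∈ Q := fun u => by
      have := add_mem (hbr u) (Q.mul_mem_right (Nv i u)
        (Q.mul_mem_left (MvPowerSeries.C (2 : O)) hC))
      rwa [← map_mul, sub_add_cancel] at this
    refine (hQ.mem_or_mem ?_).elim id id
    rw [bf_sq]
    refine add_mem (Q.mul_mem_left _ (Q.mul_mem_left _
      (hle (Ideal.mem_sup_left (Ideal.subset_span ⟨i, rfl⟩))))) ?_
    exact add_mem (Q.mul_mem_left _ (hbr' 0)) (Q.mul_mem_left _ (hbr' 2))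
  · have h1 : MvPowerSeries.C (2 * h i) * bf (Sv (g := g) i) (Nv i) ∈ Q := by
      have hz := bf_br (Sv (g := g) (O := O) i) (Nv i)
      have : bf (Sv i) (fun u => br (Sv i) (Nv i) u - MvPowerSeries.C (2 * h i) * Nv i u) ∈ Q :=
        add_mem (add_mem (Q.mul_mem_left _ (Q.mul_mem_left _ (hbr 0))) (Q.mul_mem_left _ (hbr 2)))
          (Q.mul_mem_left _ (hbr 1))
      rw [← neg_mem_iff]
      convert this using 1
      simp only [bf] at hz ⊢
      linear_combination -hz
    refine (hQ.mem_or_mem h1).resolve_left fun hmem => ?_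
    rw [map_mul] at hmem
    exact (hQ.mem_or_mem hmem).elim
      (fun h => hQ.ne_top (Ideal.eq_top_of_isUnit_mem _ h (h2.map _))) hC

include hh in
/-- Every prime containing the relations contains the kernel of some chart. -/
theorem exists_ker_unipotentChart_le (h2 : IsUnit (2 : O))
    {Q : Ideal (Amb r g O)} (hQ : Q.IsPrime) (hle : unipotentIdeal g h ≤ Q) :
    ∃ t, RingHom.ker (unipotentChart hh t) ≤ Q := by
  classical
  have h1 : ⨅ t : Fin r → Bool, RingHom.ker (unipotentChart (g := g) hh t) ≤ Q :=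
    (iInf_ker_unipotentChart hh h2).le.trans
      (sup_le hle (bfIdeal_le_of_isPrime h2 hQ hle))
  rw [← Finset.inf_univ_eq_iInf] at h1
  obtain ⟨t, -, ht⟩ := hQ.inf_le'.mp h1
  exact ⟨t, ht⟩

end Fermat.Agent.LocalRing
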