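import Mathlib
import Fermat.Agent.LocalRing.Unipotent
import Fermat.Agent.LocalRing.Graded

/-!
# The ring with characters on inertia has a single component

`charChart ε t` are lifts of the monomial charts to the condition `qf N = ε²`, `[S, N] = 0`.

## Main results

* `exists_C_pow_mul_mem`: the kernel of the generic chart is killed by a power of `∏ εᵢ²` modulo
  the relations.
* `ker_charChart_le_of_isPrime`: if all `εᵢ ≠ 0`, every prime containing the relations contains
  the kernel of the generic chart.
-/

set_option autoImplicit false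

noncomputable section

open IsLocalRing

namespace Fermat.Agent.LocalRing

variable {r g : ℕ} {O : Type*} [CommRing O] [IsDomain O] [IsDiscreteValuationRing O]
  [IsAdicComplete (maximalIdeal O) O]

omit [IsAdicComplete (maximalIdeal O) O] in
theorem chartX_mem (i : Fin r) (k : Fin 3) :
    chartX (g := g) (O := O) i k ∈ maximalIdeal (ChartRing r g O) :=
  X_mem_maximalIdeal _

/-- `(ε + v₀v₁, v₀, -v₀v₁² - 2εv₁)`: the parametrisation of `qf = ε²`. -/
def quadricVec (ε : O) (i : Fin r) : Fin 3 → ChartRing r g O :=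
  ![MvPowerSeries.C ε + chartX i 0 * chartX i 1, chartX i 0,
    -(chartX i 0 * chartX i 1 ^ 2) - 2 * MvPowerSeries.C ε * chartX i 1]

omit [IsDomain O] [IsDiscreteValuationRing O] [IsAdicComplete (maximalIdeal O) O] in
theorem qf_quadricVec (ε : O) (i : Fin r) :
    qf (quadricVec (g := g) ε i) = MvPowerSeries.C (ε * ε) := by
  simp [qf, quadricVec, map_mul (MvPowerSeries.C (σ := ChartVar r g))]
  ring

omit [IsAdicComplete (maximalIdeal O) O] in
theorem quadricVec_mem {ε : O} (hε : ε ∈ maximalIdeal O) (i : Fin r) (u : Fin 3) :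
    quadricVec (g := g) ε i u ∈ maximalIdeal (ChartRing r g O) := by
  fin_cases u <;> simp only [quadricVec, Fin.zero_eta, Fin.mk_one, Fin.reduceFinMk,
    Matrix.cons_val_zero, Matrix.cons_val_one, Matrix.cons_val]
  · exact add_mem (C_mem_maximalIdeal hε) (Ideal.mul_mem_right _ _ (chartX_mem i 0))
  · exact chartX_mem i 0
  · exact sub_mem (neg_mem (Ideal.mul_mem_right _ _ (chartX_mem i 0)))
      (Ideal.mul_mem_left _ _ (chartX_mem i 1))

theorem exists_unitRoot (h2 : IsUnit (2 : O)) (r g : ℕ) (i : Fin r) :
    ∃ η : ChartRing r g O, η * η * (1 + chartX i 1 * chartX i 2) = 1 := by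
  have hx : chartX (g := g) (O := O) i 1 * chartX i 2 ∈ maximalIdeal (ChartRing r g O) :=
    Ideal.mul_mem_right _ _ (chartX_mem i 1)
  have hu : IsUnit (1 + chartX (g := g) (O := O) i 1 * chartX i 2) := by
    rw [← sub_neg_eq_add]
    exact isUnit_one_sub_self_of_mem_nonunits _ (neg_mem hx)
  obtain ⟨u, hu⟩ := hu
  have hm : (↑u⁻¹ : ChartRing r g O) - 1 ∈ maximalIdeal (ChartRing r g O) := by
    rw [show (↑u⁻¹ : ChartRing r g O) - 1 = -(↑u⁻¹ * (chartX i 1 * chartX i 2)) by
      linear_combination -(↑u⁻¹ : ChartRing r g O) * hu + u.inv_mul]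
    exact neg_mem (Ideal.mul_mem_left _ _ hx)
  obtain ⟨y, hy, -⟩ := exists_sq_eq_one_add
    (by simpa [map_ofNat] using h2.map (MvPowerSeries.C (σ := ChartVar r g))) hm
  refine ⟨y, ?_⟩
  rw [hy, add_sub_cancel, ← hu, Units.inv_mul]

/-- The chosen square root of `(1 + v₁v₂)⁻¹`. -/
def unitRoot (h2 : IsUnit (2 : O)) (i : Fin r) : ChartRing r g O :=
  (exists_unitRoot h2 r g i).choose

theorem unitRoot_spec (h2 : IsUnit (2 : O)) (i : Fin r) :
    unitRoot (g := g) h2 i * unitRoot h2 i * (1 + chartX i 1 * chartX i 2) = 1 :=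
  (exists_unitRoot h2 r g i).choose_spec

/-- Substitution for the lifted chart. -/
def charImage (h2 : IsUnit (2 : O)) (ε : Fin r → O) (t : Fin r → Bool) :
    Var r g → ChartRing r g O :=
  Sum.elim
    (fun p =>
      if t p.1 then
        (if p.2.1 then quadricVec (ε p.1) p.1 p.2.2
         else chartX p.1 2 * quadricVec (ε p.1) p.1 p.2.2)
      else
        (if p.2.1 then MvPowerSeries.C (ε p.1) * unitRoot h2 p.1 *
            ![1, chartX p.1 1, chartX p.1 2] p.2.2
          else chartX p.1 0 * ![1, chartX p.1 1, chartX p.1 2] p.2.2))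
    fun j => MvPowerSeries.X (.inr j)

variable {ε : Fin r → O} (h2 : IsUnit (2 : O)) (hε : ∀ i, ε i ∈ maximalIdeal O)

include hε in
theorem charImage_mem (t : Fin r → Bool) (s : Var r g) :
    charImage h2 ε t s ∈ maximalIdeal (ChartRing r g O) := by
  rcases s with ⟨i, b, u⟩ | j
  · simp only [charImage, Sum.elim_inl]
    cases t i <;> cases b <;> simp only [Bool.false_eq_true, if_false, if_true]
    · exact Ideal.mul_mem_right _ _ (chartX_mem i 0)
    · exact Ideal.mul_mem_right _ _ (Ideal.mul_mem_right _ _ (C_mem_maximalIdeal (hε i)))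
    · exact Ideal.mul_mem_right _ _ (chartX_mem i 2)
    · exact quadricVec_mem (hε i) i u
  · exact X_mem_maximalIdeal _

/-- The lifted chart. -/
def charChart (t : Fin r → Bool) : Amb r g O →+* ChartRing r g O :=
  eval MvPowerSeries.C (charImage h2 ε t) (charImage_mem h2 hε t)

theorem reduceSeries_charChart (t : Fin r → Bool) (f : Amb r g O) :
    reduceSeries _ O (charChart h2 hε t f) = reduceSeries _ O
      (chartHom chartExp (fun t => (chartCoeff t : Var r g → O)) chartExp_ne_zero t f) := by
  refine reduceSeries_eval_eq _ _ (fun s => ?_) f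
  have hred : ∀ i, reduceSeries (ChartVar r g) O (MvPowerSeries.C (ε i)) = 0 :=
    fun i => reduceSeries_C (hε i)
  have hmon : ∀ (i : Fin r) (x y z : ℕ) (c : O),
      MvPowerSeries.monomial (chartVec (g := g) i x y z) c =
        MvPowerSeries.C c * (chartX i 0 ^ x * chartX i 1 ^ y * chartX i 2 ^ z) :=
        fun i x y z c => by
    rw [← monomial_chartVec, ← MvPowerSeries.monomial_zero_eq_C_apply,
      MvPowerSeries.monomial_mul_monomial, zero_add, mul_one]
  rcases s with ⟨i, b, u⟩ | j
  · change _ = reduceSeries _ O (MvPowerSeries.monomial _ _)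
    simp only [charImage, quadricVec, chartExp, chartCoeff, Sum.elim_inl]
    cases t i <;> cases b <;> fin_cases u <;>
      simp [hmon, letterWeight, hred] <;> ring
  · simp [charImage, chartExp, chartCoeff, MvPowerSeries.X_def]

theorem charIdeal_le_ker (t : Fin r → Bool) :
    charIdeal r g ε ≤ RingHom.ker (charChart (g := g) h2 hε t) := by
  have hS : ∀ i, charChart h2 hε t ∘ Sv (g := g) i =
      fun u => charImage h2 ε t (.inl (i, false, u)) := fun i => by
    funext u; simp [charChart, Sv]
  have hN : ∀ i, charChart h2 hε t ∘ Nv (g := g) i =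
      fun u => charImage h2 ε t (.inl (i, true, u)) := fun i => by
    funext u; simp [charChart, Nv]
  refine sup_le (Ideal.span_le.mpr ?_) (Ideal.span_le.mpr ?_)
  · rintro _ ⟨i, rfl⟩
    rw [SetLike.mem_coe, RingHom.mem_ker, map_sub, map_qf, hN, charChart, eval_C, sub_eq_zero]
    cases ht : t i
    · simp only [qf, charImage, Sum.elim_inl, ht, Bool.false_eq_true, if_false, if_true,
        Matrix.cons_val_zero, Matrix.cons_val_one, Matrix.cons_val, map_mul]
      linear_combination
        MvPowerSeries.C (ε i) * MvPowerSeries.C (ε i) * unitRoot_spec (g := g) h2 i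
    · have := qf_quadricVec (g := g) (ε i) i
      simpa [qf, charImage, ht] using this
  · rintro _ ⟨⟨i, u⟩, rfl⟩
    rw [SetLike.mem_coe, RingHom.mem_ker, map_br, hS, hN]
    cases ht : t i <;> fin_cases u <;> simp [br, charImage, ht] <;>
      first | (right; ring1) | ring

/-! ### The generic chart -/

/-- Exponents for the chart on `qf N = ε²` with `S_y` as a free variable. -/
def quadricExp : Unit → Var r g → (ChartVar r g →₀ ℕ) := fun _ =>
  Sum.elim (fun p => if p.2.1 then chartVec p.1 1 (letterWeight p.2.2) 0 else chartVec p.1 0 0 1)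
    fun j => Finsupp.single (.inr j) 1

/-- Coefficients for the chart on `qf N = ε²`. -/
def quadricCoeff : Unit → Var r g → O := fun _ =>
  Sum.elim (fun p => if p.2.1 then (if p.2.2 = 2 then -1 else 1) else (if p.2.2 = 1 then 1 else 0))
    fun _ => 1

theorem quadricExp_ne_zero (t : Unit) (s : Var r g) : quadricExp t s ≠ 0 := by
  rcases s with ⟨i, b, u⟩ | j
  · intro h
    have h0 := DFunLike.congr_fun h (.inl (i, 0))
    have h2 := DFunLike.congr_fun h (.inl (i, 2))
    cases b <;> simp [quadricExp, chartVec] at h0 h2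
  · simp [quadricExp]

omit [IsAdicComplete (maximalIdeal O) O] in
theorem quadricCoeff_eq (t : Unit) (s : Var r g) :
    (quadricCoeff t s : O) = 0 ∨ IsUnit (quadricCoeff t s : O) := by
  rcases s with ⟨i, b, u⟩ | j
  · simp only [quadricCoeff, Sum.elim_inl]
    split_ifs <;> simp
  · simp [quadricCoeff]

/-- The relations killed by the quadric chart. -/
def quadricIdeal (r g : ℕ) (ε : Fin r → O) : Ideal (Amb r g O) :=
  Ideal.span (Set.range fun i : Fin r => qf (Nv i) - MvPowerSeries.C (ε i * ε i)) ⊔
    Ideal.span (Set.range fun i : Fin r => Sv i 0) ⊔ Ideal.span (Set.range fun i : Fin r => Sv i 2)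

theorem expImage_quadricExp_inl (d : Var r g →₀ ℕ) (i : Fin r) (k : Fin 3) :
    expImage quadricExp () d (.inl (i, k)) = ∑ b : Bool, ∑ u : Fin 3,
      d (.inl (i, b, u)) * quadricExp (g := g) () (.inl (i, b, u)) (.inl (i, k)) := by
  classical
  rw [expImage, d.sum_fintype (fun s m => m • quadricExp () s) fun s => zero_smul ℕ _,
    Finsupp.finsetSum_apply, Fintype.sum_sum_type, Fintype.sum_prod_type]
  rw [Finset.sum_eq_single i, Finset.sum_eq_zero (s := Finset.univ (α := Fin g)), add_zero,
    Fintype.sum_prod_type]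
  · simp
  · intro j _
    simp [quadricExp]
  · intro i' _ hi'
    refine Finset.sum_eq_zero fun p _ => ?_
    cases hb : p.1 <;> simp [quadricExp, chartVec, hb, hi'.symm]
  · simp

theorem expImage_quadricExp_inr (d : Var r g →₀ ℕ) (j : Fin g) :
    expImage quadricExp () d (.inr j) = d (.inr j) := by
  classical
  rw [expImage, d.sum_fintype (fun s m => m • quadricExp () s) fun s => zero_smul ℕ _,
    Finsupp.finsetSum_apply, Fintype.sum_sum_type, Finset.sum_eq_zero, zero_add,
    Finset.sum_eq_single j]
  · simp [quadricExp]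
  · intro b _ hb
    simp [quadricExp, hb]
  · simp
  · rintro ⟨i, b, u⟩ -
    cases b <;> simp [quadricExp, chartVec]

theorem mem_quadricIdeal_of_chart {ϖ : O} (hϖ : maximalIdeal O = Ideal.span {ϖ}) {f : Amb r g O}
    (hf : ∀ μ, MvPowerSeries.coeff μ (chartHom quadricExp
      (quadricCoeff : Unit → Var r g → O) quadricExp_ne_zero () f) ∈ maximalIdeal O) :
    f ∈ quadricIdeal r g (fun _ => 0) ⊔ Ideal.span {MvPowerSeries.C ϖ} := by
  classical
  set mk := Ideal.Quotient.mk (quadricIdeal r g (fun _ => (0 : O)))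
  have hS : ∀ i (u : Fin 3), u ≠ 1 → Sv (g := g) i u ∈ quadricIdeal r g (fun _ => (0 : O)) := by
    intro i u hu
    fin_cases u
    · exact Ideal.mem_sup_left (Ideal.mem_sup_right (Ideal.subset_span ⟨i, rfl⟩))
    · exact absurd rfl hu
    · exact Ideal.mem_sup_right (Ideal.subset_span ⟨i, rfl⟩)
  have hunit : ∀ d : Var r g →₀ ℕ, IsUnit (coeffImage (quadricCoeff : Unit → Var r g → O) () d) ↔
      ∀ i u, u ≠ 1 → d (.inl (i, false, u)) = 0 := by
    intro d
    rw [coeffImage, Finsupp.prod_fintype _ _ fun s => pow_zero _, IsUnit.prod_iff]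
    constructor
    · intro h i u hu
      have := h (.inl (i, false, u)) (Finset.mem_univ _)
      by_contra hne
      simp [quadricCoeff, hu, zero_pow hne] at this
    · intro h s _
      rcases s with ⟨i, b, u⟩ | j
      · cases b
        · by_cases hu : u = 1
          · simp [quadricCoeff, hu]
          · simp [h i u hu]
        · refine IsUnit.pow _ ?_
          simp only [quadricCoeff, Sum.elim_inl, if_true]
          split_ifs <;> simp
      · simp [quadricCoeff]
  have hC : ∀ d : Var r g →₀ ℕ,
      MvPowerSeries.C (coeffImage (quadricCoeff : Unit → Var r g → O) () d) *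
        MvPowerSeries.monomial d 1 =
      ∏ s, (MvPowerSeries.C (quadricCoeff () s) * MvPowerSeries.X s) ^ d s := by
    intro d
    simp only [mul_pow, Finset.prod_mul_distrib, ← map_pow, ← map_prod, MvPowerSeries.X_pow_eq]
    rw [MvPowerSeries.prod_monomial, Finset.prod_const_one, coeffImage,
      Finsupp.prod_fintype _ _ fun s => pow_zero _]
    rw [d.univ_sum_single]
  have hsq : ∀ d : Var r g →₀ ℕ, IsUnit (coeffImage (quadricCoeff : Unit → Var r g → O) () d) →
      coeffImage (quadricCoeff : Unit → Var r g → O) () d *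
        coeffImage (quadricCoeff : Unit → Var r g → O) () d = 1 := by
    intro d hd
    rw [coeffImage, Finsupp.prod, ← Finset.prod_mul_distrib]
    refine Finset.prod_eq_one fun s hs => ?_
    rw [← mul_pow]
    suffices (quadricCoeff () s : O) * quadricCoeff () s = 1 by simp only [this, one_pow]
    rcases s with ⟨i, b, u⟩ | j
    · cases b
      · by_cases hu : u = 1
        · simp [quadricCoeff, hu]
        · exact absurd ((hunit d).mp hd i u hu) (Finsupp.mem_support_iff.mp hs)
      · simp only [quadricCoeff, Sum.elim_inl, if_true]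
        split_ifs <;> simp
    · simp [quadricCoeff]
  refine mem_of_monomialCharts quadricExp _ quadricExp_ne_zero quadricCoeff_eq hϖ
    (fun _ => ()) _ (fun d hd => ?_) (fun d d' hd hd' hE => ⟨rfl, ?_⟩) (fun t => hf)
  · rw [hunit] at hd
    push Not at hd
    obtain ⟨i, u, hu, hne⟩ := hd
    have : MvPowerSeries.monomial d (1 : O) =
        MvPowerSeries.monomial (d - Finsupp.single (.inl (i, false, u)) 1) 1 * Sv i u := by
      rw [Sv, MvPowerSeries.X_def, MvPowerSeries.monomial_mul_monomial, mul_one,
        tsub_add_cancel_of_le (Finsupp.single_le_iff.mpr (Nat.one_le_iff_ne_zero.mpr hne))]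
    rw [this]
    exact Ideal.mul_mem_left _ _ (hS i u hu)
  · set cd := coeffImage (quadricCoeff : Unit → Var r g → O) () d
    set cd' := coeffImage (quadricCoeff : Unit → Var r g → O) () d'
    suffices H : MvPowerSeries.C cd' * MvPowerSeries.monomial d' 1 -
        MvPowerSeries.C cd * MvPowerSeries.monomial d 1 ∈ quadricIdeal r g (fun _ => 0) by
      have := Ideal.mul_mem_left _ (MvPowerSeries.C (cd * cd')) H
      convert this using 1
      rw [mul_sub, ← mul_assoc, ← mul_assoc, ← map_mul, ← map_mul, mul_assoc cd,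
        hsq d' hd', mul_one, show cd * cd' * cd = cd' * (cd * cd) by ring, hsq d hd, mul_one]
    rw [hC, hC, ← Ideal.Quotient.mk_eq_mk_iff_sub_mem,
      map_prod, map_prod, Fintype.prod_sum_type, Fintype.prod_sum_type]
    congr 1
    swap
    · refine Finset.prod_congr rfl fun j _ => ?_
      have := DFunLike.congr_fun hE (.inr j)
      rw [expImage_quadricExp_inr, expImage_quadricExp_inr] at this
      rw [this]
    simp only [Fintype.prod_prod_type]
    refine Finset.prod_congr rfl fun i _ => ?_
    have hk : ∀ k, expImage quadricExp () d' (.inl (i, k)) =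
        expImage quadricExp () d (.inl (i, k)) := fun k => DFunLike.congr_fun hE _
    simp only [expImage_quadricExp_inl] at hk
    have k0 := hk 0
    have k1 := hk 1
    have k2 := hk 2
    have e0 := (hunit d).mp hd i 0 (by decide)
    have e2 := (hunit d).mp hd i 2 (by decide)
    have e0' := (hunit d').mp hd' i 0 (by decide)
    have e2' := (hunit d').mp hd' i 2 (by decide)
    simp [quadricExp, chartVec, letterWeight, Fin.sum_univ_three, e0, e2, e0', e2'] at k0 k1 k2
    have hq : qf (mk ∘ Nv i) = 0 := by
      rw [← map_qf]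
      refine Ideal.Quotient.eq_zero_iff_mem.mpr (Ideal.mem_sup_left (Ideal.mem_sup_left
        (Ideal.subset_span ⟨i, by simp⟩)))
    have hsw : ∀ a b, letters (mk ∘ Nv i) a * letters (mk ∘ Nv i) b =
        letters (mk ∘ Nv i) b * letters (mk ∘ Nv i) a := fun a b => mul_comm _ _
    have hl2 : letters (mk ∘ Nv i) 1 * letters (mk ∘ Nv i) 1 =
        letters (mk ∘ Nv i) 0 * letters (mk ∘ Nv i) 2 := by
      simp only [letters, Matrix.cons_val_zero, Matrix.cons_val_one, Matrix.cons_val]
      rw [qf] at hq
      linear_combination hq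
    rcases Nat.eq_zero_or_pos
        (d (.inl (i, true, 0)) + d (.inl (i, true, 1)) + d (.inl (i, true, 2))) with h0 | hpos
    · have hall : ∀ b u, d' (.inl (i, b, u)) = d (.inl (i, b, u)) := by
        intro b u; cases b <;> fin_cases u <;> simp <;> omega
      simp only [hall]
    · have := letterVal_eq hsw hl2 hl2 (a0 := 0) (a1 := 0) (a2 := 0)
        (b0 := d (.inl (i, true, 1))) (b1 := d (.inl (i, true, 0))) (b2 := d (.inl (i, true, 2)))
        (a0' := 0) (a1' := 0) (a2' := 0) (b0' := d' (.inl (i, true, 1)))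
        (b1' := d' (.inl (i, true, 0))) (b2' := d' (.inl (i, true, 2)))
        (by omega) (by omega) (by omega) (by omega)
      simp only [letterVal, letters, Matrix.cons_val_zero, Matrix.cons_val_one, Matrix.cons_val,
        Function.comp_apply, Nv] at this
      simp [quadricCoeff, Fin.prod_univ_three, mk, e0, e2, e0', e2'] at this ⊢
      rw [k2]
      linear_combination
        (-(Ideal.Quotient.mk (quadricIdeal r g (fun _ => (0 : O)))
          (MvPowerSeries.X (Sum.inl (i, false, 1))) ^ d (.inl (i, false, 1)))) * this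

/-- The substitution of the quadric chart lifted to `ε`. -/
def quadricImage (ε : Fin r → O) : Var r g → ChartRing r g O :=
  Sum.elim (fun p => if p.2.1 then quadricVec (ε p.1) p.1 p.2.2
    else ![0, chartX p.1 2, 0] p.2.2) fun j => MvPowerSeries.X (.inr j)

omit [IsAdicComplete (maximalIdeal O) O] in
include hε in
theorem quadricImage_mem (s : Var r g) : quadricImage ε s ∈ maximalIdeal (ChartRing r g O) := by
  rcases s with ⟨i, b, u⟩ | j
  · cases b
    · fin_cases u
      · simp [quadricImage]
      · simpa [quadricImage] using chartX_mem i 2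
      · simp [quadricImage]
    · simpa [quadricImage] using quadricVec_mem (hε i) i u
  · exact X_mem_maximalIdeal _

/-- The quadric chart lifted to `ε`. -/
def quadricChart : Amb r g O →+* ChartRing r g O :=
  eval MvPowerSeries.C (quadricImage ε) (quadricImage_mem hε)

theorem ker_quadricChart_le :
    RingHom.ker (quadricChart (r := r) (g := g) hε) ≤ quadricIdeal r g ε := by
  obtain ⟨ϖ, hϖ⟩ := IsDiscreteValuationRing.exists_irreducible O
  have hm := hϖ.maximalIdeal_eq
  have hmem : ϖ ∈ maximalIdeal O := hm ▸ Ideal.mem_span_singleton_self ϖ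
  refine le_of_saturated hmem ?_ (fun x hx => ?_) fun f hf => ?_
  · refine sup_le (sup_le (Ideal.span_le.mpr ?_) (Ideal.span_le.mpr ?_)) (Ideal.span_le.mpr ?_) <;>
      rintro _ ⟨i, rfl⟩ <;> rw [SetLike.mem_coe, RingHom.mem_ker]
    · have : quadricChart hε ∘ Nv (g := g) i = quadricVec (ε i) i := by
        funext u; simp [quadricChart, quadricImage, Nv]
      rw [map_sub, map_qf, this, qf_quadricVec, quadricChart, eval_C, sub_self]
    · simp [quadricChart, quadricImage, Sv]
    · simp [quadricChart, quadricImage, Sv]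
  · rw [RingHom.mem_ker, map_mul, quadricChart, eval_C, mul_eq_zero] at hx
    refine hx.resolve_left fun h0 => hϖ.ne_zero ?_
    simpa using congrArg MvPowerSeries.constantCoeff h0
  · have hle : quadricIdeal r g (fun _ => (0 : O)) ≤
        quadricIdeal r g ε ⊔ Ideal.span {MvPowerSeries.C ϖ} := by
      refine sup_le (sup_le (Ideal.span_le.mpr ?_) ?_) ?_
      · rintro _ ⟨i, rfl⟩
        simp only [mul_zero, map_zero, sub_zero]
        have h1 : qf (Nv i) - MvPowerSeries.C (ε i * ε i) ∈ quadricIdeal r g ε :=
          Ideal.mem_sup_left (Ideal.mem_sup_left (Ideal.subset_span ⟨i, rfl⟩))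
        obtain ⟨c, hc⟩ := Ideal.mem_span_singleton'.mp (hm ▸ hε i)
        have h2 : (MvPowerSeries.C (ε i * ε i) : Amb r g O) ∈ Ideal.span {MvPowerSeries.C ϖ} := by
          rw [← hc, ← mul_assoc, map_mul]
          exact Ideal.mul_mem_left _ _ (Ideal.mem_span_singleton_self _)
        simpa using add_mem (Ideal.mem_sup_left (T := Ideal.span {MvPowerSeries.C ϖ}) h1)
          (Ideal.mem_sup_right (S := quadricIdeal r g ε) h2)
      · exact le_sup_of_le_left (le_sup_of_le_left le_sup_right)
      · exact le_sup_of_le_left le_sup_right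
    refine sup_le hle le_sup_right (mem_quadricIdeal_of_chart hm fun μ => ?_)
    revert μ
    rw [← reduceSeries_eq_zero_iff]
    have hred : ∀ i, reduceSeries (ChartVar r g) O (MvPowerSeries.C (ε i)) = 0 :=
    fun i => reduceSeries_C (hε i)
    have hmon : ∀ (i : Fin r) (x y z : ℕ) (c : O),
        MvPowerSeries.monomial (chartVec (g := g) i x y z) c =
          MvPowerSeries.C c * (chartX i 0 ^ x * chartX i 1 ^ y * chartX i 2 ^ z) :=
      fun i x y z c => by
        rw [← monomial_chartVec, ← MvPowerSeries.monomial_zero_eq_C_apply,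
          MvPowerSeries.monomial_mul_monomial, zero_add, mul_one]
    rw [chartHom, reduceSeries_eval_eq _ (quadricImage_mem hε) (fun s => ?_) f]
    · change reduceSeries _ O (quadricChart hε f) = 0
      rw [RingHom.mem_ker.mp hf, map_zero]
    · rcases s with ⟨i, b, u⟩ | j
      · simp only [quadricExp, quadricCoeff, quadricImage, quadricVec, Sum.elim_inl]
        cases b <;> fin_cases u <;> simp [hmon, letterWeight, hred]
      · simp [quadricExp, quadricCoeff, quadricImage, MvPowerSeries.X_def]

/-- The degree in the coordinates of Frobenius. -/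
def sWeight (r g : ℕ) : (Var r g →₀ ℕ) →+ ℕ where
  toFun d := ∑ i, (d (.inl (i, false, 0)) + d (.inl (i, false, 1)) + d (.inl (i, false, 2)))
  map_zero' := by simp
  map_add' d e := by
    simp only [Finsupp.add_apply, ← Finset.sum_add_distrib]
    exact Finset.sum_congr rfl fun i _ => by ring

/-- The degree in the scaling variables of the chart. -/
def chartWeight (r g : ℕ) : (ChartVar r g →₀ ℕ) →+ ℕ where
  toFun μ := ∑ i, μ (.inl (i, 2))
  map_zero' := by simp
  map_add' d e := by simp [Finset.sum_add_distrib]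

theorem sWeight_le (d : Var r g →₀ ℕ) : sWeight r g d ≤ d.degree := by
  classical
  simp only [sWeight, AddMonoidHom.coe_mk, ZeroHom.coe_mk]
  rw [Finsupp.degree_eq_sum, Fintype.sum_sum_type, Fintype.sum_prod_type]
  refine le_add_right (Finset.sum_le_sum fun i _ => ?_)
  rw [Fintype.sum_prod_type]
  simp [Fin.sum_univ_three]

theorem sWeight_single (i : Fin r) (b : Bool) (u : Fin 3) :
    sWeight r g (Finsupp.single (.inl (i, b, u)) 1) = if b then 0 else 1 := by
  classical
  simp only [sWeight, AddMonoidHom.coe_mk, ZeroHom.coe_mk]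
  rw [Finset.sum_eq_single i (fun j _ hj => by simp [hj.symm]) (by simp)]
  cases b <;> fin_cases u <;> simp

/-- The homogeneity of the chart at the all-Steinberg type. -/
theorem hasWeight_charImage (s : Var r g) :
    HasWeight (chartWeight r g) (sWeight r g (Finsupp.single s 1))
      (charImage h2 ε (fun _ => true) s) := by
  classical
  have hX : ∀ (i : Fin r) (k : Fin 3),
      HasWeight (chartWeight r g) (if k = 2 then 1 else 0) (chartX (O := O) i k) := by
    intro i k
    have hw : chartWeight r g (Finsupp.single (Sum.inl (i, k)) 1) = if k = 2 then 1 else 0 := by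
      simp only [chartWeight, AddMonoidHom.coe_mk, ZeroHom.coe_mk]
      rw [Finset.sum_eq_single i (fun j _ hj => by simp [hj.symm]) (by simp)]
      fin_cases k <;> simp
    rw [← hw]
    exact hasWeight_monomial _ _ _
  have hq : ∀ i u, HasWeight (chartWeight r g) 0 (quadricVec (g := g) (ε i) i u) := by
    intro i u
    have h0 : HasWeight (chartWeight r g) 0 (chartX (O := O) i 0) := by simpa using hX i 0
    have h1 : HasWeight (chartWeight r g) 0 (chartX (O := O) i 1) := by simpa using hX i 1
    fin_cases u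
    · simpa [quadricVec] using (hasWeight_C _ (ε i)).add (h0.mul h1)
    · simpa [quadricVec] using h0
    · have h2' : HasWeight (chartWeight r g) 0 (2 * MvPowerSeries.C (ε i) : ChartRing r g O) := by
        rw [← map_ofNat (MvPowerSeries.C (σ := ChartVar r g) (R := O)), ← map_mul]
        exact hasWeight_C _ _
      simpa [quadricVec] using (h0.mul (h1.pow 2)).neg.sub (h2'.mul h1)
  rcases s with ⟨i, b, u⟩ | j
  · rw [sWeight_single]
    cases b
    · simpa [charImage] using (hX i 2).mul (hq i u)
    · simpa [charImage] using hq i u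
  · have h0 : sWeight r g (Finsupp.single (Sum.inr j) 1) = 0 := by simp [sWeight]
    have hj : chartWeight r g (Finsupp.single (Sum.inr j) 1) = 0 := by simp [chartWeight]
    rw [h0, ← hj]
    exact hasWeight_monomial _ _ _

include h2 hε in
theorem C_pow_mul_weightPart_mem {f : Amb r g O} {k : ℕ}
    (hf : charChart h2 hε (fun _ => true) (weightPart (sWeight r g) k f) = 0) :
    MvPowerSeries.C ((∏ i, ε i * ε i) ^ k) * weightPart (sWeight r g) k f ∈ charIdeal r g ε := by
  classical
  set fk := weightPart (sWeight r g) k f with hfk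
  set δ := ∏ i, ε i * ε i with hδ
  set rest : Fin r → O := fun i => ∏ j ∈ Finset.univ.erase i, ε j * ε j
  have hrest : ∀ i, rest i * (ε i * ε i) = δ := fun i =>
    Finset.prod_erase_mul _ _ (Finset.mem_univ i)
  -- `θ : S ↦ S_y N`
  set θi : Var r g → Amb r g O := Sum.elim
    (fun p => if p.2.1 then Nv p.1 p.2.2 else Sv p.1 1 * Nv p.1 p.2.2)
    fun j => MvPowerSeries.X (.inr j) with hθi
  have hθm : ∀ s, θi s ∈ maximalIdeal (Amb r g O) := by
    rintro (⟨i, b, u⟩ | j)
    · cases b
      · exact Ideal.mul_mem_left _ _ (X_mem_maximalIdeal _)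
      · exact X_mem_maximalIdeal _
    · exact X_mem_maximalIdeal _
  set θ := eval MvPowerSeries.C θi hθm
  have hθk : θ fk ∈ quadricIdeal r g ε := by
    refine ker_quadricChart_le hε ?_
    rw [RingHom.mem_ker]
    have hgen := sub_mem_of_generators ((quadricChart (r := r) (g := g) hε).comp θ)
      (charChart h2 hε (fun _ => true)) ⊥ (fun c => by simp [θ, quadricChart, charChart])
      (fun s => ?_) ?_ ?_ ?_ ?_ fk
    · simpa [hf] using hgen
    · rcases s with ⟨i, b, u⟩ | j
      · cases b <;>
          simp [θ, hθi, quadricChart, charChart, quadricImage, charImage, Nv, Sv]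
      · simp [θ, hθi, quadricChart, charChart, quadricImage, charImage]
    · intro c hc; simpa [θ, quadricChart] using C_mem_maximalIdeal hc
    · intro s
      rw [RingHom.comp_apply]
      refine map_maximalIdeal_le (quadricChart (r := r) (g := g) hε) (fun c hc => ?_) (fun s => ?_)
        (Ideal.mem_map_of_mem _ ?_)
      · simpa [quadricChart] using C_mem_maximalIdeal hc
      · simpa [quadricChart] using quadricImage_mem hε s
      · simpa [θ] using hθm s
    · intro c hc; simpa [charChart] using C_mem_maximalIdeal hc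
    · intro s; simpa [charChart] using charImage_mem h2 hε _ s
  -- `ρ : S_y ↦ bf S N / 2`
  obtain ⟨half, hhalf⟩ := h2.exists_left_inv
  set ρi : Var r g → Amb r g O := Sum.elim
    (fun p => if p.2.1 then Nv p.1 p.2.2
      else ![0, MvPowerSeries.C (rest p.1 * half) * bf (Sv p.1) (Nv p.1), 0] p.2.2)
    fun j => MvPowerSeries.X (.inr j) with hρi
  have hρm : ∀ s, ρi s ∈ maximalIdeal (Amb r g O) := by
    rintro (⟨i, b, u⟩ | j)
    · cases b
      · fin_cases u
        · simp [hρi]
        · have : bf (Sv (g := g) (O := O) i) (Nv i) ∈ maximalIdeal (Amb r g O) :=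
            add_mem (add_mem (Ideal.mul_mem_left _ _ (Ideal.mul_mem_left _ _
              (X_mem_maximalIdeal _))) (Ideal.mul_mem_left _ _ (X_mem_maximalIdeal _)))
              (Ideal.mul_mem_left _ _ (X_mem_maximalIdeal _))
          simpa [hρi] using Ideal.mul_mem_left _ (MvPowerSeries.C (rest i * half)) this
        · simp [hρi]
      · exact X_mem_maximalIdeal _
    · exact X_mem_maximalIdeal _
  set ρ := eval MvPowerSeries.C ρi hρm
  have hρk : ρ (θ fk) ∈ charIdeal r g ε := by
    have hρN : ∀ i, ρ ∘ Nv (g := g) i = Nv i := fun i => by funext u; simp [ρ, hρi, Nv]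
    refine Ideal.mem_comap.mp
      ((Ideal.map_le_iff_le_comap (f := ρ) (K := charIdeal r g ε)).mp ?_ hθk)
    rw [quadricIdeal, Ideal.map_sup, Ideal.map_sup, Ideal.map_span, Ideal.map_span,
      Ideal.map_span]
    refine sup_le (sup_le ?_ ?_) ?_ <;> rw [Ideal.span_le]
    · rintro _ ⟨_, ⟨i, rfl⟩, rfl⟩
      rw [SetLike.mem_coe, map_sub, map_qf, hρN]
      simp only [ρ, eval_C]
      exact Ideal.mem_sup_left (Ideal.subset_span ⟨i, rfl⟩)
    · rintro _ ⟨_, ⟨i, rfl⟩, rfl⟩
      simp [ρ, hρi, Sv]
    · rintro _ ⟨_, ⟨i, rfl⟩, rfl⟩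
      simp [ρ, hρi, Sv]
  -- scaling `S` by `δ`
  set hi : Var r g → Amb r g O := Sum.elim
    (fun p => if p.2.1 then Nv p.1 p.2.2 else MvPowerSeries.C δ * Sv p.1 p.2.2)
    fun j => MvPowerSeries.X (.inr j) with hhi
  have hhm : ∀ s, hi s ∈ maximalIdeal (Amb r g O) := by
    rintro (⟨i, b, u⟩ | j)
    · cases b
      · exact Ideal.mul_mem_left _ _ (X_mem_maximalIdeal _)
      · exact X_mem_maximalIdeal _
    · exact X_mem_maximalIdeal _
  set H := eval MvPowerSeries.C hi hhm
  have hscale : H fk = MvPowerSeries.C (δ ^ k) * fk := by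
    rw [← sub_eq_zero, ← Ideal.mem_bot (R := Amb r g O),
      ← Ideal.iInf_pow_eq_bot_of_isLocalRing (maximalIdeal (Amb r g O))
        (maximalIdeal.isMaximal _).ne_top, Ideal.mem_iInf]
    intro n
    have h1 := eval_sub_mem MvPowerSeries.C hi hhm n fk
    have h3 : MvPolynomial.eval₂Hom MvPowerSeries.C hi (MvPowerSeries.truncTotal n fk) =
        (MvPowerSeries.C (δ ^ k) : Amb r g O) *
          ((MvPowerSeries.truncTotal n fk : MvPolynomial (Var r g) O) : Amb r g O) := by
      conv_lhs => rw [MvPolynomial.as_sum (MvPowerSeries.truncTotal n fk)]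
      conv_rhs => rw [MvPolynomial.as_sum (MvPowerSeries.truncTotal n fk),
        ← MvPolynomial.coeToMvPowerSeries.ringHom_apply, map_sum]
      rw [map_sum, Finset.mul_sum]
      refine Finset.sum_congr rfl fun d hd => ?_
      have hw : sWeight r g d = k := by
        rw [MvPolynomial.mem_support_iff, MvPowerSeries.coeff_truncTotal_eq_ite] at hd
        split_ifs at hd with h
        · by_contra hne
          exact hd (by rw [hfk, coeff_weightPart, if_neg hne])
        · exact absurd rfl hd
      rw [MvPolynomial.coeToMvPowerSeries.ringHom_apply, MvPolynomial.coe_monomial,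
        MvPolynomial.eval₂Hom_monomial, Finsupp.prod_fintype _ _ fun s => pow_zero _]
      have hprod : ∏ s, hi s ^ d s = MvPowerSeries.C (δ ^ k) * MvPowerSeries.monomial d 1 := by
        rw [show MvPowerSeries.monomial d (1 : O) = ∏ s, MvPowerSeries.X s ^ d s by
            simp only [MvPowerSeries.X_pow_eq]
            rw [MvPowerSeries.prod_monomial, Finset.prod_const_one, d.univ_sum_single],
          ← hw]
        simp only [sWeight, AddMonoidHom.coe_mk, ZeroHom.coe_mk]
        rw [map_pow, ← Finset.prod_pow_eq_pow_sum, Fintype.prod_sum_type, Fintype.prod_sum_type,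
          ← mul_assoc]
        congr 1
        simp only [Fintype.prod_prod_type, ← Finset.prod_mul_distrib]
        refine Finset.prod_congr rfl fun i _ => ?_
        simp [hhi, Fin.prod_univ_three, Nv, Sv, mul_pow, pow_add]
        ring
      rw [hprod, ← mul_assoc, mul_comm _ (MvPowerSeries.C (δ ^ k)), mul_assoc,
        ← MvPowerSeries.monomial_zero_eq_C_apply (R := O)
          ((MvPowerSeries.truncTotal n fk).coeff d),
        MvPowerSeries.monomial_mul_monomial, zero_add, mul_one]
    have h2' := Ideal.mul_mem_left _ (MvPowerSeries.C (δ ^ k)) (sub_truncTotal_mem_pow n fk)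
    have := sub_mem h1 h2'
    rw [h3] at this
    convert this using 1
    ring
  have hcongr := sub_mem_of_generators H (ρ.comp θ) (charIdeal r g ε)
    (fun c => by simp [H, ρ, θ]) (fun s => ?_) ?_ ?_ ?_ ?_ fk
  · have := add_mem hcongr hρk
    rwa [RingHom.comp_apply, sub_add_cancel, hscale] at this
  · rcases s with ⟨i, b, u⟩ | j
    · cases b
      · have hq : qf (Nv (g := g) i) - MvPowerSeries.C (ε i * ε i) ∈ charIdeal r g ε :=
          Ideal.mem_sup_left (Ideal.subset_span ⟨i, rfl⟩)
        have hb : ∀ u, br (Sv (g := g) i) (Nv i) u ∈ charIdeal r g ε :=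
          fun u => Ideal.mem_sup_right (Ideal.subset_span ⟨(i, u), rfl⟩)
        have hhalf' : MvPowerSeries.C half * 2 = (1 : Amb r g O) := by
          rw [← map_ofNat (MvPowerSeries.C (σ := Var r g) (R := O)), ← map_mul, hhalf, map_one]
        have hδ' : MvPowerSeries.C (rest i) * MvPowerSeries.C (ε i * ε i) =
            (MvPowerSeries.C δ : Amb r g O) := by rw [← map_mul, hrest]
        have e : H (Sv i u) - ρ (θ (Sv i u)) = MvPowerSeries.C (rest i) *
            (-(MvPowerSeries.C half * (bf (Sv i) (Nv i) * Nv i u - 2 * qf (Nv i) * Sv i u)) -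
              (qf (Nv i) - MvPowerSeries.C (ε i * ε i)) * Sv i u) := by
          simp only [H, θ, ρ, Sv, eval_X, hhi, hθi, Sum.elim_inl, Bool.false_eq_true, if_false,
            map_mul, Nv, hρi, if_true, Matrix.cons_val_one, Matrix.cons_val_zero] at hδ' ⊢
          linear_combination (-(MvPowerSeries.C (rest i) * (qf (Nv i) *
            MvPowerSeries.X (Sum.inl (i, false, u))))) * hhalf' -
            MvPowerSeries.X (Sum.inl (i, false, u)) * hδ'
        change H (Sv i u) - ρ (θ (Sv i u)) ∈ _
        rw [e]
        refine Ideal.mul_mem_left _ _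
          (sub_mem (neg_mem (Ideal.mul_mem_left _ _ ?_)) (Ideal.mul_mem_right _ _ hq))
        obtain ⟨e0, e1, e2⟩ := bf_mul_apply (Sv (g := g) (O := O) i) (Nv i)
        fin_cases u
        · have : 2 * (bf (Sv (g := g) i) (Nv i) * Nv i 0 - 2 * qf (Nv i) * Sv i 0) ∈
              charIdeal r g ε :=
            e0 ▸ sub_mem (Ideal.mul_mem_left _ _ (hb 2)) (Ideal.mul_mem_left _ _ (hb 1))
          have hu : IsUnit (2 : Amb r g O) := by
            simpa [map_ofNat] using h2.map (MvPowerSeries.C (σ := Var r g))
          exact (Ideal.unit_mul_mem_iff_mem _ hu).mp this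
        · exact e1 ▸ sub_mem (Ideal.mul_mem_left _ _ (hb 1)) (Ideal.mul_mem_left _ _ (hb 0))
        · exact e2 ▸ add_mem (neg_mem (Ideal.mul_mem_left _ _ (hb 2)))
            (Ideal.mul_mem_left _ _ (hb 0))
      · simp [H, ρ, θ, hhi, hθi, hρi, Nv]
    · simp [H, ρ, θ, hhi, hθi, hρi]
  · intro c hc; simpa [H] using C_mem_maximalIdeal hc
  · intro s; simpa [H] using hhm s
  · intro c hc; simpa [ρ, θ] using C_mem_maximalIdeal hc
  · intro s
    rw [RingHom.comp_apply]
    refine map_maximalIdeal_le ρ (fun c hc => ?_) (fun s => ?_) (Ideal.mem_map_of_mem ρ ?_)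
    · simpa [ρ] using C_mem_maximalIdeal hc
    · simpa [ρ] using hρm s
    · simpa [θ] using hθm s

include h2 hε in
/-- The kernel of the generic chart is torsion modulo the relations. -/
theorem exists_C_pow_mul_mem : ∃ N : ℕ, ∀ f : Amb r g O,
    charChart h2 hε (fun _ => true) f = 0 →
      MvPowerSeries.C ((∏ i, ε i * ε i) ^ N) * f ∈ charIdeal r g ε := by
  let Jn : ℕ →o Submodule (Amb r g O) (Amb r g O) :=
    { toFun := fun n => Submodule.comap
        (LinearMap.mulLeft (Amb r g O) (MvPowerSeries.C ((∏ i, ε i * ε i) ^ n))) (charIdeal r g ε)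
      monotone' := monotone_nat_of_le_succ fun n x hx => by
        simp only [Submodule.mem_comap, LinearMap.mulLeft_apply] at hx ⊢
        rw [pow_succ', map_mul, mul_assoc]
        exact Ideal.mul_mem_left _ _ hx }
  obtain ⟨N, hN⟩ := monotone_stabilizes_iff_noetherian.mpr inferInstance Jn
  refine ⟨N, fun f hf => ?_⟩
  refine Patching.mem_of_forall_mem_sup_pow _ fun n => ?_
  rw [← sub_add_cancel f (∑ k ∈ Finset.range n, weightPart (sWeight r g) k f), mul_add]
  refine add_mem (Ideal.mem_sup_right (Ideal.mul_mem_left _ _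
    (sub_sum_weightPart_mem (sWeight r g) sWeight_le n f))) (Ideal.mem_sup_left ?_)
  rw [Finset.mul_sum]
  refine Ideal.sum_mem _ fun k _ => ?_
  have hk := C_pow_mul_weightPart_mem h2 hε (f := f) (k := k)
    (eval_weightPart_eq_zero _ _ _ _ (hasWeight_charImage h2) hf k)
  have hk' : weightPart (sWeight r g) k f ∈ Jn (max N k) := Jn.monotone (le_max_right N k) hk
  rw [← hN _ (le_max_left N k)] at hk'
  exact hk'

include h2 hε in
/-- **A single component**: every prime containing the relations contains the kernel of the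
generic chart. -/
theorem ker_charChart_le_of_isPrime (hne : ∀ i, ε i ≠ 0) {Q : Ideal (Amb r g O)} (hQ : Q.IsPrime)
    (hle : charIdeal r g ε ≤ Q) :
    RingHom.ker (charChart (g := g) h2 hε fun _ : Fin r => true) ≤ Q := by
  classical
  obtain ⟨N, hN⟩ := exists_C_pow_mul_mem (r := r) (g := g) h2 hε
  intro f hf
  have hfN := hN f (RingHom.mem_ker.mp hf)
  rcases hQ.mem_or_mem (hle hfN) with hC | h
  swap
  · exact h
  obtain ⟨ϖ, hϖ⟩ := IsDiscreteValuationRing.exists_irreducible O
  have hprod : (∏ i, ε i * ε i : O) ≠ 0 :=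
    Finset.prod_ne_zero_iff.mpr fun i _ => mul_ne_zero (hne i) (hne i)
  have hϖQ : MvPowerSeries.C ϖ ∈ Q := by
    obtain ⟨m, u, hu⟩ := IsDiscreteValuationRing.eq_unit_mul_pow_irreducible
      (pow_ne_zero N hprod) hϖ
    rw [hu, map_mul, map_pow] at hC
    exact hQ.mem_of_pow_mem _ ((hQ.mem_or_mem hC).resolve_left fun h =>
      hQ.ne_top (Ideal.eq_top_of_isUnit_mem _ h (u.isUnit.map _)))
  have hεQ : ∀ i, MvPowerSeries.C (ε i) ∈ Q := fun i => by
    obtain ⟨c, hc⟩ := Ideal.mem_span_singleton'.mp (hϖ.maximalIdeal_eq ▸ hε i)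
    rw [← hc, map_mul]
    exact Q.mul_mem_left _ hϖQ
  have hchart : ∀ t μ, MvPowerSeries.coeff μ
      (chartHom chartExp (fun t => (chartCoeff t : Var r g → O)) chartExp_ne_zero t f) ∈
        maximalIdeal O := by
    intro t
    have h0 := RingHom.mem_ker.mp (charIdeal_le_ker h2 hε t hfN)
    rw [map_mul, charChart, eval_C, mul_eq_zero] at h0
    have hf0 : charChart h2 hε t f = 0 := h0.resolve_left fun h => by
      have := congrArg MvPowerSeries.constantCoeff h
      simp [pow_eq_zero_iff', hprod] at this
    rw [← reduceSeries_eq_zero_iff, ← reduceSeries_charChart h2 hε, hf0, map_zero]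
  refine (sup_le ?_ ?_ : _ ≤ Q) (mem_residualIdeal_of_charts h2 hϖ.maximalIdeal_eq hchart)
  · have hq : ∀ i, qf (Nv i) ∈ Q := fun i => by
      have h1 := hle (Ideal.mem_sup_left (Ideal.subset_span ⟨i, rfl⟩) :
        qf (Nv i) - MvPowerSeries.C (ε i * ε i) ∈ charIdeal r g ε)
      have := add_mem h1 (Q.mul_mem_left (MvPowerSeries.C (ε i)) (hεQ i))
      rwa [← map_mul, sub_add_cancel] at this
    have hbr : ∀ i u, br (Sv i) (Nv i) u ∈ Q :=
      fun i u => hle (Ideal.mem_sup_right (Ideal.subset_span ⟨(i, u), rfl⟩))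
    refine sup_le (sup_le (Ideal.span_le.mpr ?_) (Ideal.span_le.mpr ?_)) (Ideal.span_le.mpr ?_)
    · rintro _ ⟨i, rfl⟩
      simpa using hq i
    · rintro _ ⟨⟨i, u⟩, rfl⟩
      exact hbr i u
    · rintro _ ⟨i, rfl⟩
      refine (hQ.mem_or_mem ?_).elim id id
      rw [bf_sq]
      exact add_mem (Q.mul_mem_left _ (Q.mul_mem_left _ (hq i)))
        (add_mem (Q.mul_mem_left _ (hbr i 0)) (Q.mul_mem_left _ (hbr i 2)))
  · rw [Ideal.span_le, Set.singleton_subset_iff]
    exact hϖQ

end Fermat.Agent.LocalRing
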