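import Mathlib
import Fermat.Agent.LocalRing.CharType

/-!
# Flip primes

At a flip prime there are coordinates `a` (index `none`) and `x_j` (index `some j`) with relations
`x_j x_k = 0` (`j ≠ k`) and `x_j (a - c_j) = 0`.  The components are indexed by a choice `F f` of
one coordinate at each flip prime: `none` is unramified (`all x = 0`), `some j` is the `j`-th
Steinberg component (`a = c_j`, the other `x = 0`).  `flipProj c F` eliminates the other
coordinates, which reduces every question to the ring without flip primes.

## Main results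

* `exists_linearIdeal_le`: every prime over the relations contains the linear ideal of a choice.
* `flipProj`, `flipSec`, `comap_flipProj_le`: the elimination and its section.
-/

set_option autoImplicit false

noncomputable section

open IsLocalRing

namespace Fermat.Agent.LocalRing

/-- The variables with flip primes. -/
abbrev FlipVar (r g : ℕ) {s : ℕ} (m : Fin s → ℕ) :=
  (Fin r × Bool × Fin 3) ⊕ (Fin g ⊕ (Σ f : Fin s, Option (Fin (m f))))

/-- The power series ring with flip primes. -/
abbrev FlipAmb (r g : ℕ) {s : ℕ} (m : Fin s → ℕ) (O : Type*) :=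
  MvPowerSeries (FlipVar r g m) O

/-- A choice of component at each flip prime. -/
abbrev FlipChoice {s : ℕ} (m : Fin s → ℕ) := ∀ f : Fin s, Option (Fin (m f))

variable {r g s : ℕ} {m : Fin s → ℕ} {O : Type*} [CommRing O]

/-- The coordinates of Frobenius. -/
def flipS (i : Fin r) : Fin 3 → FlipAmb r g m O := fun u => MvPowerSeries.X (.inl (i, false, u))

/-- The coordinates of inertia. -/
def flipN (i : Fin r) : Fin 3 → FlipAmb r g m O := fun u => MvPowerSeries.X (.inl (i, true, u))

/-- The coordinate `a` (`none`) or `x_j` (`some j`) of a flip prime. -/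
def flipX (f : Fin s) (o : Option (Fin (m f))) : FlipAmb r g m O :=
  MvPowerSeries.X (.inr (.inr ⟨f, o⟩))

/-- The relations at the flip primes. -/
def flipIdeal (r g : ℕ) {s : ℕ} {m : Fin s → ℕ} (c : ∀ f, Fin (m f) → O) :
    Ideal (FlipAmb r g m O) :=
  Ideal.span (Set.range fun p : Σ f, Fin (m f) × Fin (m f) =>
    if p.2.1 = p.2.2 then flipX p.1 (some p.2.1) * (flipX p.1 none - MvPowerSeries.C (c p.1 p.2.1))
    else flipX p.1 (some p.2.1) * flipX p.1 (some p.2.2))

variable (c : ∀ f, Fin (m f) → O)

/-- The value of an eliminated coordinate. -/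
def offValue {f : Fin s} (chosen o : Option (Fin (m f))) : O :=
  match o, chosen with
  | none, some j => c f j
  | _, _ => 0

/-- The flip components are cut out by the linear ideal. -/
def linearIdeal (r g : ℕ) (F : FlipChoice m) : Ideal (FlipAmb r g m O) :=
  Ideal.span (Set.range fun p : {p : Σ f, Option (Fin (m f)) // p.2 ≠ F p.1} =>
    flipX p.1.1 p.1.2 - MvPowerSeries.C (offValue c (F p.1.1) p.1.2))

theorem flipX_sub_mem_linearIdeal (F : FlipChoice m) {f : Fin s} {o : Option (Fin (m f))}
    (h : o ≠ F f) :
    flipX f o - MvPowerSeries.C (offValue c (F f) o) ∈ linearIdeal (O := O) c r g F :=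
  Ideal.subset_span ⟨⟨⟨f, o⟩, h⟩, rfl⟩

/-- Every prime containing the flip relations contains one of the linear ideals. -/
theorem exists_linearIdeal_le {Q : Ideal (FlipAmb r g m O)} (hQ : Q.IsPrime)
    (hle : flipIdeal r g c ≤ Q) : ∃ F : FlipChoice m, linearIdeal c r g F ≤ Q := by
  classical
  have hxx : ∀ f (j k : Fin (m f)), j ≠ k →
      flipX f (some j) ∈ Q ∨ (flipX f (some k) : FlipAmb r g m O) ∈ Q := fun f j k hjk => by
    have h : flipX f (some j) * flipX f (some k) ∈ Q :=
      hle (Ideal.subset_span ⟨⟨f, (j, k)⟩, if_neg hjk⟩)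
    exact hQ.mem_or_mem h
  have hxa : ∀ f (j : Fin (m f)), (flipX f (some j) : FlipAmb r g m O) ∉ Q →
      flipX f none - MvPowerSeries.C (c f j) ∈ Q := fun f j hj => by
    have h : flipX f (some j) * (flipX f none - MvPowerSeries.C (c f j)) ∈ Q :=
      hle (Ideal.subset_span ⟨⟨f, (j, j)⟩, if_pos rfl⟩)
    exact (hQ.mem_or_mem h).resolve_left hj
  refine ⟨fun f => if h : ∃ j, (flipX f (some j) : FlipAmb r g m O) ∉ Q
      then some h.choose else none, ?_⟩
  rw [linearIdeal, Ideal.span_le]
  rintro _ ⟨⟨⟨f, o⟩, ho⟩, rfl⟩
  simp only at ho ⊢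
  by_cases h : ∃ j, (flipX f (some j) : FlipAmb r g m O) ∉ Q
  · rw [dif_pos h] at ho ⊢
    rcases o with _ | k
    · simpa [offValue] using hxa f _ h.choose_spec
    · have hk : h.choose ≠ k := fun e => ho (by rw [e])
      simpa [offValue] using (hxx f _ k hk).resolve_left h.choose_spec
  · rw [dif_neg h] at ho ⊢
    push Not at h
    rcases o with _ | k
    · exact absurd rfl ho
    · simpa [offValue] using h k

variable [IsDomain O] [IsDiscreteValuationRing O] [IsAdicComplete (maximalIdeal O) O]
  (hc : ∀ f j, c f j ∈ maximalIdeal O)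

omit [IsAdicComplete (maximalIdeal O) O] in
include hc in
theorem offValue_mem {f : Fin s} (chosen o : Option (Fin (m f))) :
    offValue c chosen o ∈ maximalIdeal O := by
  rcases o with _ | k <;> rcases chosen with _ | j <;> simp [offValue, -mem_maximalIdeal, hc]

/-- Substitution eliminating the coordinates not chosen by `F`. -/
def flipImage (F : FlipChoice m) : FlipVar r g m → Amb r (g + s) O :=
  Sum.elim (fun v => MvPowerSeries.X (.inl v)) (Sum.elim
    (fun j => MvPowerSeries.X (.inr (Fin.castAdd s j)))
    fun p => if p.2 = F p.1 then MvPowerSeries.X (.inr (Fin.natAdd g p.1))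
      else MvPowerSeries.C (offValue c (F p.1) p.2))

omit [IsAdicComplete (maximalIdeal O) O] in
include hc in
theorem flipImage_mem (F : FlipChoice m) (v : FlipVar r g m) :
    flipImage c F v ∈ maximalIdeal (Amb r (g + s) O) := by
  rcases v with v | j | ⟨f, o⟩
  · exact X_mem_maximalIdeal _
  · exact X_mem_maximalIdeal _
  · simp only [flipImage, Sum.elim_inr]
    split_ifs
    · exact X_mem_maximalIdeal _
    · exact C_mem_maximalIdeal (offValue_mem c hc _ _)

/-- Elimination of the coordinates not chosen by `F`. -/
def flipProj (F : FlipChoice m) : FlipAmb r g m O →+* Amb r (g + s) O :=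
  eval MvPowerSeries.C (flipImage c F) (flipImage_mem c hc F)

/-- Images of the section of `flipProj`. -/
def flipSecImage (F : FlipChoice m) : Var r (g + s) → FlipAmb r g m O :=
  Sum.elim (fun v => MvPowerSeries.X (.inl v))
    (Fin.addCases (fun j => MvPowerSeries.X (.inr (.inl j))) fun f => flipX f (F f))

omit [IsAdicComplete (maximalIdeal O) O] in
theorem flipSecImage_mem (F : FlipChoice m) (v : Var r (g + s)) :
    (flipSecImage F v : FlipAmb r g m O) ∈ maximalIdeal (FlipAmb r g m O) := by
  rcases v with v | k
  · exact X_mem_maximalIdeal _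
  · induction k using Fin.addCases with
    | left j => simpa [flipSecImage, -mem_maximalIdeal] using X_mem_maximalIdeal (O := O) _
    | right f => simpa [flipSecImage, -mem_maximalIdeal, flipX] using X_mem_maximalIdeal (O := O) _

/-- The section of `flipProj`. -/
def flipSec (F : FlipChoice m) : Amb r (g + s) O →+* FlipAmb r g m O :=
  eval MvPowerSeries.C (flipSecImage F) (flipSecImage_mem F)

theorem flipProj_flipS (F : FlipChoice m) (i : Fin r) :
    flipProj c hc F ∘ flipS (g := g) i = Sv i := by
  funext u; simp [flipProj, flipImage, flipS, Sv]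

theorem flipProj_flipN (F : FlipChoice m) (i : Fin r) :
    flipProj c hc F ∘ flipN (g := g) i = Nv i := by
  funext u; simp [flipProj, flipImage, flipN, Nv]

theorem flipProj_flipX_self (F : FlipChoice m) (f : Fin s) :
    flipProj c hc F (flipX (r := r) (g := g) f (F f)) =
      MvPowerSeries.X (.inr (Fin.natAdd g f)) := by
  simp [flipProj, flipImage, flipX]

theorem flipProj_flipX_of_ne (F : FlipChoice m) {f : Fin s} {o : Option (Fin (m f))}
    (h : o ≠ F f) :
    flipProj c hc F (flipX (r := r) (g := g) f o) =
      MvPowerSeries.C (offValue c (F f) o) := by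
  simp [flipProj, flipImage, flipX, h]

theorem flipSec_Sv (F : FlipChoice m) (i : Fin r) :
    flipSec (O := O) F ∘ Sv (g := g + s) i = flipS i := by
  funext u; simp [flipSec, flipSecImage, flipS, Sv]

theorem flipSec_Nv (F : FlipChoice m) (i : Fin r) :
    flipSec (O := O) F ∘ Nv (g := g + s) i = flipN i := by
  funext u; simp [flipSec, flipSecImage, flipN, Nv]

theorem flipProj_flipSec (F : FlipChoice m) (x : Amb r (g + s) O) :
    flipProj c hc F (flipSec (g := g) F x) = x := by
  have h := sub_mem_of_generators ((flipProj c hc F).comp (flipSec (g := g) F))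
    (RingHom.id (Amb r (g + s) O)) ⊥ (fun a => by simp [flipProj, flipSec]) (fun v => ?_)
    ?_ ?_ (fun a ha => C_mem_maximalIdeal ha) (fun v => X_mem_maximalIdeal v) x
  · simpa [sub_eq_zero] using h
  · rcases v with v | k
    · simp [flipProj, flipSec, flipImage, flipSecImage]
    · induction k using Fin.addCases with
      | left j => simp [flipProj, flipSec, flipImage, flipSecImage]
      | right f => simp [flipProj, flipSec, flipImage, flipSecImage, flipX]
  · intro a ha; simpa [flipProj, flipSec, -mem_maximalIdeal] using C_mem_maximalIdeal ha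
  · intro v
    rw [RingHom.comp_apply]
    refine map_maximalIdeal_le (flipProj c hc F) (fun a ha => ?_) (fun v => ?_)
      (Ideal.mem_map_of_mem _ ?_)
    · simpa [flipProj, -mem_maximalIdeal] using C_mem_maximalIdeal ha
    · simpa [flipProj, -mem_maximalIdeal] using flipImage_mem c hc F v
    · simpa [flipSec, -mem_maximalIdeal] using flipSecImage_mem F v

include hc in
theorem sub_flipSec_flipProj_mem (F : FlipChoice m) (x : FlipAmb r g m O) :
    x - flipSec F (flipProj c hc F x) ∈ linearIdeal c r g F := by
  refine sub_mem_of_generators (RingHom.id (FlipAmb r g m O)) ((flipSec F).comp (flipProj c hc F))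
    (linearIdeal c r g F) (fun a => by simp [flipProj, flipSec]) (fun v => ?_)
    (fun a ha => C_mem_maximalIdeal ha) (fun v => X_mem_maximalIdeal v) ?_ ?_ x
  · rcases v with v | j | ⟨f, o⟩
    · simp [flipProj, flipSec, flipImage, flipSecImage]
    · simp [flipProj, flipSec, flipImage, flipSecImage]
    · by_cases h : o = F f
      · subst h
        simp [flipProj, flipSec, flipImage, flipSecImage, flipX]
      · simpa [flipProj, flipSec, flipImage, h, flipX] using
          flipX_sub_mem_linearIdeal (r := r) (g := g) c F h
  · intro a ha; simpa [flipProj, flipSec, -mem_maximalIdeal] using C_mem_maximalIdeal ha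
  · intro v
    rw [RingHom.comp_apply]
    refine map_maximalIdeal_le (flipSec (g := g) F) (fun a ha => ?_) (fun v => ?_)
      (Ideal.mem_map_of_mem _ ?_)
    · simpa [flipSec, -mem_maximalIdeal] using C_mem_maximalIdeal ha
    · simpa [flipSec, -mem_maximalIdeal] using flipSecImage_mem F v
    · simpa [flipProj, -mem_maximalIdeal] using flipImage_mem c hc F v

/-- A prime containing the linear ideal contains every `comap` of a smaller ideal. -/
theorem comap_flipProj_le (F : FlipChoice m) {Q : Ideal (FlipAmb r g m O)}
    (hlin : linearIdeal c r g F ≤ Q) {I : Ideal (Amb r (g + s) O)}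
    (hI : I ≤ Q.comap (flipSec F)) : I.comap (flipProj c hc F) ≤ Q := by
  intro x hx
  rw [← sub_add_cancel x (flipSec F (flipProj c hc F x))]
  exact add_mem (hlin (sub_flipSec_flipProj_mem c hc F x)) (hI hx)

theorem linearIdeal_le_ker (F : FlipChoice m) :
    linearIdeal c r g F ≤ RingHom.ker (flipProj c hc F) := by
  rw [linearIdeal, Ideal.span_le]
  rintro _ ⟨⟨⟨f, o⟩, ho⟩, rfl⟩
  rw [SetLike.mem_coe, RingHom.mem_ker, map_sub, flipProj_flipX_of_ne c hc F ho]
  simp [flipProj]

omit [IsDomain O] [IsDiscreteValuationRing O] [IsAdicComplete (maximalIdeal O) O] in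
theorem flipIdeal_le_linearIdeal (F : FlipChoice m) :
    flipIdeal r g c ≤ linearIdeal c r g F := by
  rw [flipIdeal, Ideal.span_le]
  rintro _ ⟨⟨f, j, k⟩, rfl⟩
  simp only
  split_ifs with h
  · by_cases hj : some j = F f
    · have h1 := flipX_sub_mem_linearIdeal (r := r) (g := g) c F (o := none) (f := f)
        (by simp [← hj])
      rw [← hj] at h1
      exact Ideal.mul_mem_left _ _ (by simpa [offValue] using h1)
    · have h1 := flipX_sub_mem_linearIdeal (r := r) (g := g) c F hj
      exact Ideal.mul_mem_right _ _ (by simpa [offValue] using h1)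
  · by_cases hj : some j = F f
    · have hk : some k ≠ F f := fun e => h (Option.some.inj (hj.trans e.symm))
      have h1 := flipX_sub_mem_linearIdeal (r := r) (g := g) c F hk
      exact Ideal.mul_mem_left _ _ (by simpa [offValue] using h1)
    · have h1 := flipX_sub_mem_linearIdeal (r := r) (g := g) c F hj
      exact Ideal.mul_mem_right _ _ (by simpa [offValue] using h1)

end Fermat.Agent.LocalRing
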