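import Mathlib
import Fermat.Prelude.Thm_IsLocalRing_isAdicComplete_of_module_finite
import Fermat.Agent.LocalRing.Flip

/-!
# The rings used for Ihara avoidance

`LocalData O` collects: `r` primes `q ≡ 1` with scalar residual Frobenius (parameters `h`, and the
possible inertia parameters `ε b`), `s` flip primes and `g` free variables.  It gives the rings
`UnipRing`, `CharRing` and their common quotient `ResRing`.

## Main results

* `isLocalRing_quotient`, `finite_residueField_quotient`, `isAdicComplete_quotient`: basic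
  properties of these rings.
* `ringKrullDim_unipRing_le`, `ringKrullDim_charRing_le`: their dimension is at most
  `3 r + g + s + 1`.
-/

set_option autoImplicit false

noncomputable section

open IsLocalRing

namespace Fermat.Agent.LocalRing

/-- The parameters. -/
structure LocalData (O : Type*) [CommRing O] [IsDomain O] [IsDiscreteValuationRing O] where
  /-- the number of Ihara avoidance primes -/
  r : ℕ
  /-- the number of free variables -/
  g : ℕ
  /-- the number of flip primes -/
  s : ℕ
  /-- the number of Steinberg components at a flip prime -/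
  m : Fin s → ℕ
  /-- the constants at the flip primes -/
  c : ∀ f, Fin (m f) → O
  c_mem : ∀ f j, c f j ∈ maximalIdeal O
  c_injective : ∀ f, Function.Injective (c f)
  /-- the parameter `(q - 1) / (q + 1)` -/
  h : Fin r → O
  h_mem : ∀ i, h i ∈ maximalIdeal O
  /-- one less than the number of classes of inertia characters -/
  nb : ℕ
  /-- the parameters `(ζ^b - ζ^{-b}) / 2` -/
  ε : Fin (nb + 1) → O
  ε_mem : ∀ b, ε b ∈ maximalIdeal O
  ε_ne : ∀ b, ε b ≠ 0
  /-- a uniformiser -/
  ϖ : O
  irreducible : Irreducible ϖ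
  isUnit_two : IsUnit (2 : O)

variable {O : Type*} [CommRing O] [IsDomain O] [IsDiscreteValuationRing O]

namespace LocalData

variable (P : LocalData O)

theorem ϖ_mem : P.ϖ ∈ maximalIdeal O :=
  P.irreducible.maximalIdeal_eq ▸ Ideal.mem_span_singleton_self P.ϖ

theorem exists_eq_mul {x : O} (hx : x ∈ maximalIdeal O) : ∃ y, y * P.ϖ = x :=
  Ideal.mem_span_singleton'.mp (P.irreducible.maximalIdeal_eq ▸ hx)

/-- The ambient power series ring. -/
abbrev Total := FlipAmb P.r P.g P.m O

/-- The relations for unipotent inertia. -/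
def unipIdeal : Ideal P.Total :=
  Ideal.span (Set.range fun i => qf (flipN i)) ⊔
    Ideal.span (Set.range fun p : Fin P.r × Fin 3 =>
      br (flipS p.1) (flipN p.1) p.2 - MvPowerSeries.C (2 * P.h p.1) * flipN p.1 p.2) ⊔
    flipIdeal P.r P.g P.c

/-- The relations for inertia through characters. -/
def chiIdeal : Ideal P.Total :=
  Ideal.span (Set.range fun i =>
      ∏ b, (qf (flipN i) - MvPowerSeries.C (P.ε b * P.ε b))) ⊔
    Ideal.span (Set.range fun p : Fin P.r × Fin 3 => br (flipS p.1) (flipN p.1) p.2) ⊔
    flipIdeal P.r P.g P.c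

/-- The common relations modulo `ϖ`. -/
def resIdeal : Ideal P.Total :=
  Ideal.span (Set.range fun i => qf (flipN i)) ⊔
    Ideal.span (Set.range fun p : Fin P.r × Fin 3 => br (flipS p.1) (flipN p.1) p.2) ⊔
    flipIdeal P.r P.g P.c ⊔ Ideal.span {MvPowerSeries.C P.ϖ}

theorem C_ϖ_mem_resIdeal : (MvPowerSeries.C P.ϖ : P.Total) ∈ P.resIdeal :=
  Ideal.mem_sup_right (Ideal.mem_span_singleton_self _)

theorem C_mem_resIdeal {x : O} (hx : x ∈ maximalIdeal O) :
    (MvPowerSeries.C x : P.Total) ∈ P.resIdeal := by
  obtain ⟨y, rfl⟩ := P.exists_eq_mul hx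
  rw [map_mul]
  exact Ideal.mul_mem_left _ _ P.C_ϖ_mem_resIdeal

theorem unipIdeal_le_resIdeal : P.unipIdeal ≤ P.resIdeal := by
  refine sup_le (sup_le ?_ ?_) (le_sup_of_le_left le_sup_right)
  · exact le_sup_of_le_left (le_sup_of_le_left le_sup_left)
  · rw [Ideal.span_le]
    rintro _ ⟨⟨i, u⟩, rfl⟩
    refine sub_mem (Ideal.mem_sup_left (Ideal.mem_sup_left
      (Ideal.mem_sup_right (Ideal.subset_span ⟨(i, u), rfl⟩)))) (Ideal.mul_mem_right _ _ ?_)
    exact P.C_mem_resIdeal (Ideal.mul_mem_left _ _ (P.h_mem i))

theorem chiIdeal_le_resIdeal : P.chiIdeal ≤ P.resIdeal := by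
  classical
  refine sup_le (sup_le ?_ ?_) (le_sup_of_le_left le_sup_right)
  · rw [Ideal.span_le]
    rintro _ ⟨i, rfl⟩
    simp only [SetLike.mem_coe]
    rw [← Finset.mul_prod_erase _ _ (Finset.mem_univ (0 : Fin (P.nb + 1)))]
    exact Ideal.mul_mem_right _ _ (sub_mem (Ideal.mem_sup_left (Ideal.mem_sup_left
      (Ideal.mem_sup_left (Ideal.subset_span ⟨i, rfl⟩))))
      (P.C_mem_resIdeal (Ideal.mul_mem_left _ _ (P.ε_mem 0))))
  · exact le_sup_of_le_left (le_sup_of_le_left le_sup_right)

theorem resIdeal_le_maximalIdeal : P.resIdeal ≤ maximalIdeal P.Total := by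
  have hN : ∀ i u, (flipN i u : P.Total) ∈ maximalIdeal P.Total := fun i u => X_mem_maximalIdeal _
  have hS : ∀ i u, (flipS i u : P.Total) ∈ maximalIdeal P.Total := fun i u => X_mem_maximalIdeal _
  refine sup_le (sup_le (sup_le ?_ ?_) ?_) ?_ <;> rw [← SetLike.coe_subset_coe] <;>
    refine Ideal.span_le.mpr ?_
  · rintro _ ⟨i, rfl⟩
    exact add_mem (Ideal.mul_mem_left _ _ (hN i 0)) (Ideal.mul_mem_left _ _ (hN i 2))
  · rintro _ ⟨⟨i, u⟩, rfl⟩
    fin_cases u <;> simp only [br, Fin.zero_eta, Fin.mk_one, Fin.reduceFinMk, Matrix.cons_val_zero,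
      Matrix.cons_val_one, Matrix.cons_val] <;>
      first
      | exact sub_mem (Ideal.mul_mem_left _ _ (hN i 2)) (Ideal.mul_mem_left _ _ (hN i 1))
      | exact Ideal.mul_mem_left _ _ (sub_mem (Ideal.mul_mem_left _ _ (hN i 1))
          (Ideal.mul_mem_left _ _ (hN i 0)))
      | exact Ideal.mul_mem_left _ _ (sub_mem (Ideal.mul_mem_left _ _ (hN i 0))
          (Ideal.mul_mem_left _ _ (hN i 2)))
  · rintro _ ⟨p, rfl⟩
    simp only [SetLike.mem_coe]
    split_ifs <;> exact Ideal.mul_mem_right _ _ (X_mem_maximalIdeal _)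
  · rw [Set.singleton_subset_iff]
    exact C_mem_maximalIdeal P.ϖ_mem

/-- The ring with unipotent inertia at the Ihara avoidance primes. -/
abbrev UnipRing := P.Total ⧸ P.unipIdeal

/-- The ring with characters on inertia at the Ihara avoidance primes. -/
abbrev CharRing := P.Total ⧸ P.chiIdeal

/-- The common quotient. -/
abbrev ResRing := P.Total ⧸ P.resIdeal

/-- Reduction of `UnipRing`. -/
def toRes : P.UnipRing →+* P.ResRing := Ideal.Quotient.factor P.unipIdeal_le_resIdeal

/-- Reduction of `CharRing`. -/
def charToRes : P.CharRing →+* P.ResRing := Ideal.Quotient.factor P.chiIdeal_le_resIdeal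

theorem charToRes_surjective : Function.Surjective P.charToRes :=
  Ideal.Quotient.factor_surjective P.chiIdeal_le_resIdeal

theorem toRes_mk (x : P.Total) :
    P.toRes (Ideal.Quotient.mk P.unipIdeal x) = Ideal.Quotient.mk P.resIdeal x :=
  Ideal.Quotient.factor_mk _ _

theorem charToRes_mk (x : P.Total) :
    P.charToRes (Ideal.Quotient.mk P.chiIdeal x) = Ideal.Quotient.mk P.resIdeal x :=
  Ideal.Quotient.factor_mk _ _

theorem resIdeal_eq : P.resIdeal = P.unipIdeal ⊔ Ideal.span {MvPowerSeries.C P.ϖ} := by
  refine le_antisymm (sup_le (sup_le (sup_le ?_ ?_) ?_) le_sup_right)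
    (sup_le P.unipIdeal_le_resIdeal le_sup_right)
  · exact le_sup_of_le_left (le_sup_of_le_left le_sup_left)
  · rw [Ideal.span_le]
    rintro _ ⟨⟨i, u⟩, rfl⟩
    have h1 : br (flipS i) (flipN i) u - MvPowerSeries.C (2 * P.h i) * flipN i u ∈ P.unipIdeal :=
      Ideal.mem_sup_left (Ideal.mem_sup_right (Ideal.subset_span ⟨(i, u), rfl⟩))
    obtain ⟨y, hy⟩ := P.exists_eq_mul (Ideal.mul_mem_left _ (2 : O) (P.h_mem i))
    have h2 : MvPowerSeries.C (2 * P.h i) * flipN i u ∈
        Ideal.span {(MvPowerSeries.C P.ϖ : P.Total)} := by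
      rw [← hy, map_mul, mul_right_comm]
      exact Ideal.mul_mem_left _ _ (Ideal.mem_span_singleton_self _)
    simpa using add_mem (Ideal.mem_sup_left h1) (Ideal.mem_sup_right (S := P.unipIdeal) h2)
  · exact le_sup_of_le_left le_sup_right

theorem charToRes_ϖ : P.charToRes (Ideal.Quotient.mk _ (MvPowerSeries.C P.ϖ)) = 0 := by
  rw [charToRes_mk, Ideal.Quotient.eq_zero_iff_mem]
  exact P.C_ϖ_mem_resIdeal

section Instances

variable {J : Ideal P.Total}

theorem isLocalRing_quotient (h : J ≤ P.resIdeal) : IsLocalRing (P.Total ⧸ J) := by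
  have : Nontrivial (P.Total ⧸ J) := Ideal.Quotient.nontrivial_iff.mpr fun e =>
    (maximalIdeal.isMaximal P.Total).ne_top (top_le_iff.mp (e ▸ h.trans P.resIdeal_le_maximalIdeal))
  exact IsLocalRing.of_surjective' (Ideal.Quotient.mk J) Ideal.Quotient.mk_surjective

instance : IsLocalRing P.UnipRing := P.isLocalRing_quotient P.unipIdeal_le_resIdeal

instance : IsLocalRing P.CharRing := P.isLocalRing_quotient P.chiIdeal_le_resIdeal

theorem finite_residueField_quotient [Finite (ResidueField O)] [IsLocalRing (P.Total ⧸ J)] :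
    Finite (ResidueField (P.Total ⧸ J)) := by
  have := Ideal.Quotient.mk_surjective (I := J)
  have : IsLocalHom (Ideal.Quotient.mk J) :=
    IsLocalHom.of_surjective (Ideal.Quotient.mk J) Ideal.Quotient.mk_surjective
  refine Finite.of_surjective (ResidueField.map (Ideal.Quotient.mk J)) fun y => ?_
  obtain ⟨z, rfl⟩ := residue_surjective y
  obtain ⟨x, rfl⟩ := Ideal.Quotient.mk_surjective z
  exact ⟨residue _ x, ResidueField.map_residue _ x⟩

instance [Finite (ResidueField O)] : Finite (ResidueField P.UnipRing) :=
  P.finite_residueField_quotient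

instance [Finite (ResidueField O)] : Finite (ResidueField P.CharRing) :=
  P.finite_residueField_quotient

theorem isAdicComplete_quotient [IsAdicComplete (maximalIdeal O) O] [IsLocalRing (P.Total ⧸ J)] :
    IsAdicComplete (maximalIdeal (P.Total ⧸ J)) (P.Total ⧸ J) := by
  have : IsLocalHom (algebraMap P.Total (P.Total ⧸ J)) :=
    IsLocalHom.of_surjective (Ideal.Quotient.mk J) Ideal.Quotient.mk_surjective
  exact IsLocalRing.isAdicComplete_of_module_finite (𝒪 := P.Total) (T := P.Total ⧸ J)

instance [IsAdicComplete (maximalIdeal O) O] :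
    IsAdicComplete (maximalIdeal P.UnipRing) P.UnipRing :=
  P.isAdicComplete_quotient

instance [IsAdicComplete (maximalIdeal O) O] :
    IsAdicComplete (maximalIdeal P.CharRing) P.CharRing :=
  P.isAdicComplete_quotient

end Instances

/-! ### Dimensions -/

/-- A quotient of `Total` by relations that contain the residual ones modulo `ϖ` has dimension at
most `3 r + g + s + 1`. -/
theorem ringKrullDim_quotient_le {J : Ideal P.Total}
    [IsLocalRing (P.Total ⧸ J)]
    (hq : ∀ Q : Ideal P.Total, Q.IsPrime → J ≤ Q → MvPowerSeries.C P.ϖ ∈ Q → P.resIdeal ≤ Q) :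
    ringKrullDim (P.Total ⧸ J) ≤ (3 * P.r + P.g + P.s + 1 : ℕ) := by
  classical
  let forms : (Fin P.r × Fin 3) ⊕ (Fin P.g ⊕ Fin P.s) ⊕ Unit → P.Total :=
    Sum.elim (fun p => ![flipS p.1 0 + flipN p.1 1, flipS p.1 1 + flipN p.1 2, flipS p.1 2] p.2)
      (Sum.elim (Sum.elim (fun j => MvPowerSeries.X (.inr (.inl j)))
        (fun f => ∑ o, flipX f o)) fun _ => MvPowerSeries.C P.ϖ)
  set mk := Ideal.Quotient.mk J
  let S : Finset (P.Total ⧸ J) := Finset.univ.image (mk ∘ forms)
  have hforms : ∀ a, forms a ∈ maximalIdeal P.Total := by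
    rintro (⟨i, u⟩ | (j | f) | u)
    · fin_cases u <;> simp only [forms, Sum.elim_inl, Fin.zero_eta, Fin.mk_one, Fin.reduceFinMk,
        Matrix.cons_val_zero, Matrix.cons_val_one, Matrix.cons_val]
      · exact add_mem (X_mem_maximalIdeal _) (X_mem_maximalIdeal _)
      · exact add_mem (X_mem_maximalIdeal _) (X_mem_maximalIdeal _)
      · exact X_mem_maximalIdeal _
    · exact X_mem_maximalIdeal _
    · simp only [forms, Sum.elim_inr, Sum.elim_inl]
      refine Ideal.sum_mem _ fun o _ => ?_
      exact X_mem_maximalIdeal _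
    · exact C_mem_maximalIdeal P.ϖ_mem
  have : IsLocalHom mk := IsLocalHom.of_surjective mk Ideal.Quotient.mk_surjective
  have hS : (S : Set (P.Total ⧸ J)) ⊆ Ring.jacobson (P.Total ⧸ J) := by
    rw [IsLocalRing.ringJacobson_eq_maximalIdeal]
    intro x hx
    obtain ⟨a, -, rfl⟩ := Finset.mem_image.mp hx
    rw [← IsLocalRing.map_maximalIdeal_of_surjective mk Ideal.Quotient.mk_surjective]
    exact Ideal.mem_map_of_mem mk (hforms a)
  have hzero : ringKrullDim ((P.Total ⧸ J) ⧸ Ideal.span (S : Set (P.Total ⧸ J))) ≤ 0 := by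
    have : Ring.KrullDimLE 0 ((P.Total ⧸ J) ⧸ Ideal.span (S : Set (P.Total ⧸ J))) := by
      refine Ring.KrullDimLE.mk₀ fun I hI => ?_
      have := hI
      set mk₂ := Ideal.Quotient.mk (Ideal.span (S : Set (P.Total ⧸ J)))
      set Q := I.comap (mk₂.comp mk) with hQdef
      have hQ : Q.IsPrime := Ideal.IsPrime.comap _
      have hJ : J ≤ Q := fun x hx => by
        rw [hQdef, Ideal.mem_comap, RingHom.comp_apply, Ideal.Quotient.eq_zero_iff_mem.mpr hx,
          map_zero]
        exact zero_mem _
      have hf : ∀ a, forms a ∈ Q := fun a => by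
        rw [hQdef, Ideal.mem_comap, RingHom.comp_apply, Ideal.Quotient.eq_zero_iff_mem.mpr
          (Ideal.subset_span (Finset.mem_image_of_mem _ (Finset.mem_univ a)) :
            mk (forms a) ∈ Ideal.span (S : Set (P.Total ⧸ J)))]
        exact zero_mem _
      have hres := hq Q hQ hJ (hf (.inr (.inr ())))
      -- all the coordinates lie in `Q`
      have hIA : ∀ i b u, (MvPowerSeries.X (.inl (i, b, u)) : P.Total) ∈ Q := by
        intro i
        have f0 : flipS i 0 + flipN i 1 ∈ Q := by simpa [forms] using hf (.inl (i, 0))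
        have f1 : flipS i 1 + flipN i 2 ∈ Q := by simpa [forms] using hf (.inl (i, 1))
        have f2 : flipS i 2 ∈ Q := by simpa [forms] using hf (.inl (i, 2))
        have hq' : qf (flipN i) ∈ Q := hres (Ideal.mem_sup_left (Ideal.mem_sup_left
          (Ideal.mem_sup_left (Ideal.subset_span ⟨i, rfl⟩))))
        have hb : ∀ u, br (flipS i) (flipN i) u ∈ Q := fun u => hres (Ideal.mem_sup_left
          (Ideal.mem_sup_left (Ideal.mem_sup_right (Ideal.subset_span ⟨(i, u), rfl⟩))))
        have h2u : IsUnit (2 : P.Total) := by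
          simpa [map_ofNat] using P.isUnit_two.map (MvPowerSeries.C (σ := FlipVar P.r P.g P.m))
        have hn2 : flipN i 2 ∈ Q := by
          refine hQ.mem_of_pow_mem 2 ?_
          have h := hb 0
          simp only [br, Matrix.cons_val_zero] at h
          have := sub_mem (sub_mem (Q.mul_mem_right (flipN i 2) f1)
            (Q.mul_mem_right (flipN i 1) f2)) h
          convert this using 1
          ring
        have hn1 : flipN i 1 ∈ Q := by
          refine hQ.mem_of_pow_mem 2 ?_
          have h := hb 1
          simp only [br, Matrix.cons_val_one, Matrix.cons_val_zero] at h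
          have h := (Ideal.unit_mul_mem_iff_mem _ h2u).mp h
          have := sub_mem (sub_mem (sub_mem (Q.mul_mem_right (flipN i 1) f0) h)
            (Q.mul_mem_right (flipN i 0) f1)) (Q.mul_mem_left (-(flipN i 0)) hn2)
          convert this using 1
          ring
        have hn0 : flipN i 0 ∈ Q := by
          refine hQ.mem_of_pow_mem 2 ?_
          have := sub_mem hq' (Q.mul_mem_left (flipN i 1) hn2)
          convert this using 1
          simp only [qf]
          ring
        intro b u
        cases b
        · fin_cases u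
          · simpa [flipS] using sub_mem f0 hn1
          · simpa [flipS] using sub_mem f1 hn2
          · simpa [flipS] using f2
        · fin_cases u
          · simpa [flipN] using hn0
          · simpa [flipN] using hn1
          · simpa [flipN] using hn2
      have hflip : ∀ f o, (flipX f o : P.Total) ∈ Q := by
        intro f
        have hsum : (∑ o, flipX f o : P.Total) ∈ Q := hf (.inr (.inl (.inr f)))
        have hrel : ∀ j k : Fin (P.m f), (if j = k then
            flipX f (some j) * (flipX f none - MvPowerSeries.C (P.c f j))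
            else flipX f (some j) * flipX f (some k) : P.Total) ∈ Q := fun j k =>
          hres (Ideal.mem_sup_left (Ideal.mem_sup_right (Ideal.subset_span ⟨⟨f, (j, k)⟩, rfl⟩)))
        have hx : ∀ j, (flipX f (some j) : P.Total) ∈ Q := by
          intro j
          have hja : flipX f (some j) * flipX f none ∈ Q := by
            have h := hrel j j
            rw [if_pos rfl, mul_sub] at h
            simpa using add_mem h (Q.mul_mem_left (flipX f (some j))
              (hres (P.C_mem_resIdeal (P.c_mem f j))))
          refine hQ.mem_of_pow_mem 2 ?_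
          have h := Q.mul_mem_left (flipX f (some j)) hsum
          rw [Fintype.sum_option, mul_add, Finset.mul_sum,
            ← Finset.add_sum_erase _ _ (Finset.mem_univ j)] at h
          have hrest : ∑ k ∈ Finset.univ.erase j, flipX f (some j) * flipX f (some k) ∈ Q :=
            Ideal.sum_mem _ fun k hk => by
              have := hrel j k
              rwa [if_neg (Finset.ne_of_mem_erase hk).symm] at this
          have := sub_mem (sub_mem h hja) hrest
          convert this using 1
          ring
        intro o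
        rcases o with _ | j
        · have := sub_mem hsum (Ideal.sum_mem Q (t := Finset.univ) fun j _ => hx j)
          simpa [Fintype.sum_option] using this
        · exact hx j
      have hmax : maximalIdeal P.Total ≤ Q := by
        intro x hx
        rw [← sub_add_cancel x (MvPowerSeries.C (MvPowerSeries.constantCoeff x))]
        refine add_mem ?_ (hres (P.C_mem_resIdeal (constantCoeff_mem hx)))
        have h1 := mem_span_X_pow (n := 1)
          (f := x - MvPowerSeries.C (MvPowerSeries.constantCoeff x))
          (MvPolynomial.ext _ _ fun d => by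
            rw [MvPowerSeries.coeff_truncTotal_eq_ite]
            split_ifs with hd
            · obtain rfl : d = 0 := (Finsupp.degree_eq_zero_iff _).mp (by omega)
              simp
            · simp)
        rw [pow_one] at h1
        refine (Ideal.span_le.mpr ?_) h1
        rintro _ ⟨v, rfl⟩
        rcases v with ⟨i, b, u⟩ | j | ⟨f, o⟩
        · exact hIA i b u
        · exact hf (.inr (.inl (.inl j)))
        · exact hflip f o
      have hQmax : Q.IsMaximal := by
        rw [le_antisymm (le_maximalIdeal hQ.ne_top) hmax]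
        exact maximalIdeal.isMaximal _
      have hsurj : Function.Surjective (mk₂.comp mk) :=
        Ideal.Quotient.mk_surjective.comp Ideal.Quotient.mk_surjective
      have hIQ : I = Q.map (mk₂.comp mk) := (Ideal.map_comap_of_surjective _ hsurj I).symm
      rw [hIQ]
      exact (Ideal.map_eq_top_or_isMaximal_of_surjective _ hsurj hQmax).resolve_left
        fun e => hI.ne_top (hIQ.trans e)
    exact Ring.krullDimLE_iff.mp this
  refine (ringKrullDim_le_ringKrullDim_quotient_add_card S hS).trans ?_
  refine (add_le_add hzero le_rfl).trans ?_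
  rw [zero_add]
  have hcard : S.card ≤ 3 * P.r + P.g + P.s + 1 := by
    refine Finset.card_image_le.trans (le_of_eq ?_)
    simp only [Finset.card_univ, Fintype.card_sum, Fintype.card_prod, Fintype.card_fin,
      Fintype.card_unit]
    ring
  exact_mod_cast hcard

/-- The dimension bound for `UnipRing`. -/
theorem ringKrullDim_unipRing_le [IsAdicComplete (maximalIdeal O) O] :
    ringKrullDim P.UnipRing ≤ (3 * P.r + P.g + P.s + 1 : ℕ) :=
  P.ringKrullDim_quotient_le fun _ _ hle hϖ =>
    P.resIdeal_eq ▸ sup_le hle ((Ideal.span_singleton_le_iff_mem _).mpr hϖ)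

/-- The dimension bound for `CharRing`. -/
theorem ringKrullDim_charRing_le [IsAdicComplete (maximalIdeal O) O] :
    ringKrullDim P.CharRing ≤ (3 * P.r + P.g + P.s + 1 : ℕ) := by
  classical
  refine P.ringKrullDim_quotient_le fun Q hQ hle hϖ => ?_
  have hC : ∀ {x : O}, x ∈ maximalIdeal O → (MvPowerSeries.C x : P.Total) ∈ Q := by
    intro x hx
    obtain ⟨y, rfl⟩ := P.exists_eq_mul hx
    rw [map_mul]
    exact Q.mul_mem_left _ hϖ
  refine sup_le (sup_le (sup_le ?_ ?_) ?_) ((Ideal.span_singleton_le_iff_mem _).mpr hϖ)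
  · rw [Ideal.span_le]
    rintro _ ⟨i, rfl⟩
    obtain ⟨b, -, hb⟩ := hQ.prod_mem_iff.mp
      (hle (Ideal.mem_sup_left (Ideal.mem_sup_left (Ideal.subset_span ⟨i, rfl⟩))))
    simpa using add_mem hb (hC (Ideal.mul_mem_left _ (P.ε b) (P.ε_mem b)))
  · exact le_trans (le_sup_of_le_left le_sup_right) hle
  · exact le_trans le_sup_right hle

end LocalData

end Fermat.Agent.LocalRing
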