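import Mathlib
import Fermat.Agent.LocalRing.Data

/-!
# Components of the Ihara avoidance rings

A component of `UnipRing` is given by a type `T` at the Ihara avoidance primes (`true`: Steinberg)
and a choice `F` at the flip primes.  A component of `CharRing` is given by a choice of characters
`b` and by `F`.

## Main results

* `exists_unipKer_le`, `exists_charKer_le`: every prime over the relations contains a component.
* `eq_of_unipKer_le_resKer`: a component is determined by its reduction modulo `ϖ`.
* `eq_or_eq_of_unipKer_le_divKer`, `divKer_eq`: the divisor between two neighbouring components.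
-/

set_option autoImplicit false

noncomputable section

open IsLocalRing

namespace Fermat.Agent.LocalRing

variable {r g : ℕ} {O : Type*} [CommRing O] [IsDomain O] [IsDiscreteValuationRing O]
  [IsAdicComplete (maximalIdeal O) O] {h : Fin r → O} (hh : ∀ i, h i ∈ maximalIdeal O)

/-- Two distinct types differ at some place, being Steinberg for one and unramified for the
other. -/
theorem exists_separating (t t' : Fin r → Bool) (hne : t' ≠ t) :
    ∃ i, (t i = true ∧ t' i = false) ∨ (t i = false ∧ t' i = true) := by
  obtain ⟨i, hi⟩ := Function.ne_iff.mp hne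
  refine ⟨i, ?_⟩
  cases ht : t i <;> cases ht' : t' i <;> simp_all

/-- The value of the chart on `qf S - h²` at an unramified place. -/
theorem unipotentChart_qfS_of_unr (t : Fin r → Bool) {i : Fin r} (ht : t i = false) :
    unipotentChart hh t (qf (Sv (g := g) i) - MvPowerSeries.C (h i * h i)) =
      chartX i 0 * chartX i 0 * (1 + chartX i 1 * chartX i 2) - MvPowerSeries.C (h i * h i) := by
  rw [map_sub, map_qf, comp_Sv_unipotentChart]
  simp [qf, unipotentChart, unipotentImage, ht]
  ring

theorem unipotentChart_qfS_of_st (t : Fin r → Bool) {i : Fin r} (ht : t i = true) :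
    unipotentChart hh t (qf (Sv (g := g) i) - MvPowerSeries.C (h i * h i)) = 0 := by
  rw [map_sub, map_qf, comp_Sv_unipotentChart]
  simp [qf, unipotentChart, unipotentImage, ht]
  ring

theorem unipotentChart_Nv (t : Fin r → Bool) (i : Fin r) :
    unipotentChart hh t (Nv (g := g) i 1) = if t i then chartX i 0 else 0 := by
  cases ht : t i <;> simp [unipotentChart, Nv, unipotentImage, ht]

theorem unipotentChart_G (t : Fin r → Bool) (j : Fin g) :
    unipotentChart hh t (MvPowerSeries.X (.inr j)) = MvPowerSeries.X (.inr j) := by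
  simp [unipotentChart, unipotentImage]

theorem unipotentChart_C (t : Fin r → Bool) (a : O) :
    unipotentChart (g := g) hh t (MvPowerSeries.C a) = MvPowerSeries.C a := by
  simp [unipotentChart]

/-- Substituting the constant `a` for the free variable `j`. -/
def substVar (j : Fin g) {a : O} (ha : a ∈ maximalIdeal O) :
    ChartRing r g O →+* ChartRing r g O :=
  eval MvPowerSeries.C (fun v => if v = .inr j then MvPowerSeries.C a else MvPowerSeries.X v)
    fun v => by split_ifs <;> [exact C_mem_maximalIdeal ha; exact X_mem_maximalIdeal v]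

theorem substVar_chartX (j : Fin g) {a : O} (ha : a ∈ maximalIdeal O) (i : Fin r) (k : Fin 3) :
    substVar j ha (chartX (g := g) i k) = chartX i k := by
  simp [substVar, chartX]

theorem substVar_X_inr (j : Fin g) {a : O} (ha : a ∈ maximalIdeal O) (k : Fin g) :
    substVar (r := r) j ha (MvPowerSeries.X (.inr k)) =
      if k = j then MvPowerSeries.C a else MvPowerSeries.X (.inr k) := by
  simp [substVar]

theorem substVar_C (j : Fin g) {a : O} (ha : a ∈ maximalIdeal O) (x : O) :
    substVar (r := r) j ha (MvPowerSeries.C x) = MvPowerSeries.C x := by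
  simp [substVar]

namespace LocalData

variable (P : LocalData O)

/-- A component of `UnipRing`. -/
abbrev UnipComp := (Fin P.r → Bool) × FlipChoice P.m

/-- The prime of a component of `UnipRing`, upstairs. -/
def unipKer (K : P.UnipComp) : Ideal P.Total :=
  RingHom.ker ((unipotentChart P.h_mem K.1).comp (flipProj P.c P.c_mem K.2))

/-- The residual prime of a component of `UnipRing`, upstairs. -/
def resKer (K : P.UnipComp) : Ideal P.Total :=
  RingHom.ker (((reduceSeries _ O).comp (unipotentChart P.h_mem K.1)).comp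
    (flipProj P.c P.c_mem K.2))

/-- The prime of a component of `CharRing`, upstairs. -/
def charKer (b : Fin P.r → Fin (P.nb + 1)) (F : FlipChoice P.m) : Ideal P.Total :=
  RingHom.ker ((charChart (g := P.g + P.s) (ε := P.ε ∘ b) P.isUnit_two (fun i => P.ε_mem (b i))
    fun _ => true).comp (flipProj P.c P.c_mem F))

/-- The divisor where the flip prime `f` passes from unramified to the `j`-th Steinberg
component. -/
def divKer (K : P.UnipComp) (f : Fin P.s) (j : Fin (P.m f)) : Ideal P.Total :=
  RingHom.ker (((substVar (Fin.natAdd P.g f) (P.c_mem f j)).comp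
    (unipotentChart P.h_mem K.1)).comp (flipProj P.c P.c_mem K.2))

theorem isPrime_unipKer (K : P.UnipComp) : (P.unipKer K).IsPrime := RingHom.ker_isPrime _

theorem isPrime_resKer (K : P.UnipComp) : (P.resKer K).IsPrime := RingHom.ker_isPrime _

theorem isPrime_charKer (b : Fin P.r → Fin (P.nb + 1)) (F : FlipChoice P.m) :
    (P.charKer b F).IsPrime := RingHom.ker_isPrime _

theorem isPrime_divKer (K : P.UnipComp) (f : Fin P.s) (j : Fin (P.m f)) :
    (P.divKer K f j).IsPrime := RingHom.ker_isPrime _

theorem unipKer_le_resKer (K : P.UnipComp) : P.unipKer K ≤ P.resKer K := fun x hx => by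
  simp only [unipKer, resKer, RingHom.mem_ker, RingHom.comp_apply] at hx ⊢
  rw [hx, map_zero]

theorem unipKer_le_divKer (K : P.UnipComp) (f : Fin P.s) (j : Fin (P.m f)) :
    P.unipKer K ≤ P.divKer K f j := fun x hx => by
  simp only [unipKer, divKer, RingHom.mem_ker, RingHom.comp_apply] at hx ⊢
  rw [hx, map_zero]

theorem linearIdeal_le_unipKer (K : P.UnipComp) :
    linearIdeal P.c P.r P.g K.2 ≤ P.unipKer K := fun x hx => by
  have := linearIdeal_le_ker P.c P.c_mem K.2 hx
  simp only [unipKer, RingHom.mem_ker, RingHom.comp_apply] at this ⊢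
  rw [this, map_zero]

theorem linearIdeal_le_charKer (b : Fin P.r → Fin (P.nb + 1)) (F : FlipChoice P.m) :
    linearIdeal P.c P.r P.g F ≤ P.charKer b F := fun x hx => by
  have := linearIdeal_le_ker P.c P.c_mem F hx
  simp only [charKer, RingHom.mem_ker, RingHom.comp_apply] at this ⊢
  rw [this, map_zero]

theorem unipIdeal_le_unipKer (K : P.UnipComp) : P.unipIdeal ≤ P.unipKer K := by
  have h0 := unipotentIdeal_sup_bfIdeal_le_ker (g := P.g + P.s) P.h_mem K.1
  refine sup_le (sup_le ?_ ?_)
    ((flipIdeal_le_linearIdeal P.c K.2).trans (P.linearIdeal_le_unipKer K)) <;> rw [Ideal.span_le]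
  · rintro _ ⟨i, rfl⟩
    rw [SetLike.mem_coe, unipKer, RingHom.mem_ker, RingHom.comp_apply, map_qf, flipProj_flipN]
    exact h0 (Ideal.mem_sup_left (Ideal.mem_sup_left (Ideal.subset_span ⟨i, rfl⟩)))
  · rintro _ ⟨⟨i, u⟩, rfl⟩
    rw [SetLike.mem_coe, unipKer, RingHom.mem_ker, RingHom.comp_apply, map_sub, map_mul, map_br,
      flipProj_flipN, flipProj_flipS, show flipProj P.c P.c_mem K.2 (MvPowerSeries.C (2 * P.h i)) =
        MvPowerSeries.C (2 * P.h i) by simp [flipProj],
      show flipProj P.c P.c_mem K.2 (flipN i u) = Nv i u from congrFun (flipProj_flipN _ _ _ i) u]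
    exact h0 (Ideal.mem_sup_left (Ideal.mem_sup_right (Ideal.subset_span ⟨(i, u), rfl⟩)))

theorem chiIdeal_le_charKer (b : Fin P.r → Fin (P.nb + 1)) (F : FlipChoice P.m) :
    P.chiIdeal ≤ P.charKer b F := by
  have h0 := charIdeal_le_ker (g := P.g + P.s) (ε := P.ε ∘ b) P.isUnit_two
    (fun i => P.ε_mem (b i)) fun _ => true
  refine sup_le (sup_le ?_ ?_)
    ((flipIdeal_le_linearIdeal P.c F).trans (P.linearIdeal_le_charKer b F)) <;> rw [Ideal.span_le]
  · rintro _ ⟨i, rfl⟩
    simp only [SetLike.mem_coe]
    rw [← Finset.mul_prod_erase _ _ (Finset.mem_univ (b i))]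
    refine Ideal.mul_mem_right _ _ ?_
    rw [charKer, RingHom.mem_ker, RingHom.comp_apply, map_sub, map_qf, flipProj_flipN,
      show flipProj P.c P.c_mem F (MvPowerSeries.C (P.ε (b i) * P.ε (b i))) =
        MvPowerSeries.C (P.ε (b i) * P.ε (b i)) by simp [flipProj]]
    exact h0 (Ideal.mem_sup_left (Ideal.subset_span ⟨i, rfl⟩))
  · rintro _ ⟨⟨i, u⟩, rfl⟩
    rw [SetLike.mem_coe, charKer, RingHom.mem_ker, RingHom.comp_apply, map_br, flipProj_flipN,
      flipProj_flipS]
    exact h0 (Ideal.mem_sup_right (Ideal.subset_span ⟨(i, u), rfl⟩))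

theorem resIdeal_le_resKer (K : P.UnipComp) : P.resIdeal ≤ P.resKer K := by
  rw [resIdeal_eq]
  refine sup_le ((P.unipIdeal_le_unipKer K).trans (P.unipKer_le_resKer K))
    ((Ideal.span_singleton_le_iff_mem _).mpr ?_)
  simp [resKer, flipProj, unipotentChart, reduceSeries_C P.ϖ_mem]

/-- Every prime over the relations of `UnipRing` contains a component. -/
theorem exists_unipKer_le {Q : Ideal P.Total} (hQ : Q.IsPrime) (hle : P.unipIdeal ≤ Q) :
    ∃ K, P.unipKer K ≤ Q := by
  obtain ⟨F, hF⟩ := exists_linearIdeal_le P.c hQ (le_sup_right.trans hle)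
  have := hQ
  have hsmall : unipotentIdeal (P.g + P.s) P.h ≤ Q.comap (flipSec F) := by
    refine sup_le ?_ ?_ <;> rw [Ideal.span_le]
    · rintro _ ⟨i, rfl⟩
      rw [SetLike.mem_coe, Ideal.mem_comap, map_qf, flipSec_Nv]
      exact hle (Ideal.mem_sup_left (Ideal.mem_sup_left (Ideal.subset_span ⟨i, rfl⟩)))
    · rintro _ ⟨⟨i, u⟩, rfl⟩
      rw [SetLike.mem_coe, Ideal.mem_comap, map_sub, map_mul, map_br, flipSec_Nv, flipSec_Sv,
        show flipSec F (MvPowerSeries.C (2 * P.h i)) =
          (MvPowerSeries.C (2 * P.h i) : P.Total) by simp [flipSec],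
        show flipSec F (Nv i u) = (flipN i u : P.Total) from congrFun (flipSec_Nv F i) u]
      exact hle (Ideal.mem_sup_left (Ideal.mem_sup_right (Ideal.subset_span ⟨(i, u), rfl⟩)))
  obtain ⟨T, hT⟩ := exists_ker_unipotentChart_le P.h_mem P.isUnit_two (Ideal.IsPrime.comap _) hsmall
  refine ⟨(T, F), ?_⟩
  rw [unipKer, ← RingHom.comap_ker]
  exact comap_flipProj_le P.c P.c_mem F hF hT

/-- Every prime over the relations of `CharRing` contains a component. -/
theorem exists_charKer_le {Q : Ideal P.Total} (hQ : Q.IsPrime) (hle : P.chiIdeal ≤ Q) :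
    ∃ b F, P.charKer b F ≤ Q := by
  classical
  obtain ⟨F, hF⟩ := exists_linearIdeal_le P.c hQ (le_sup_right.trans hle)
  have := hQ
  choose b hb using fun i => hQ.prod_mem_iff.mp
    (hle (Ideal.mem_sup_left (Ideal.mem_sup_left (Ideal.subset_span ⟨i, rfl⟩))))
  refine ⟨b, F, ?_⟩
  rw [charKer, ← RingHom.comap_ker]
  refine comap_flipProj_le P.c P.c_mem F hF (ker_charChart_le_of_isPrime P.isUnit_two
    (fun i => P.ε_mem (b i)) (fun i => P.ε_ne (b i)) (Ideal.IsPrime.comap _) ?_)
  refine sup_le ?_ ?_ <;> rw [Ideal.span_le]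
  · rintro _ ⟨i, rfl⟩
    rw [SetLike.mem_coe, Ideal.mem_comap, map_sub, map_qf, flipSec_Nv]
    simpa [flipSec] using (hb i).2
  · rintro _ ⟨⟨i, u⟩, rfl⟩
    rw [SetLike.mem_coe, Ideal.mem_comap, map_br, flipSec_Nv, flipSec_Sv]
    exact hle (Ideal.mem_sup_left (Ideal.mem_sup_right (Ideal.subset_span ⟨(i, u), rfl⟩)))

/-- A prime over `resIdeal` on the flip stratum `F` contains all components of `CharRing` with
that `F`. -/
theorem charKer_le_of_resIdeal_le {Q : Ideal P.Total} (hQ : Q.IsPrime) (hle : P.resIdeal ≤ Q)
    {F : FlipChoice P.m} (hF : linearIdeal P.c P.r P.g F ≤ Q) (b : Fin P.r → Fin (P.nb + 1)) :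
    P.charKer b F ≤ Q := by
  have := hQ
  rw [charKer, ← RingHom.comap_ker]
  refine comap_flipProj_le P.c P.c_mem F hF (ker_charChart_le_of_isPrime P.isUnit_two
    (fun i => P.ε_mem (b i)) (fun i => P.ε_ne (b i)) (Ideal.IsPrime.comap _) ?_)
  refine sup_le ?_ ?_ <;> rw [Ideal.span_le]
  · rintro _ ⟨i, rfl⟩
    rw [SetLike.mem_coe, Ideal.mem_comap, map_sub, map_qf, flipSec_Nv]
    refine sub_mem (hle (Ideal.mem_sup_left (Ideal.mem_sup_left
      (Ideal.mem_sup_left (Ideal.subset_span ⟨i, rfl⟩))))) ?_
    simpa [flipSec] using hle (P.C_mem_resIdeal (Ideal.mul_mem_left _ (P.ε (b i)) (P.ε_mem (b i))))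
  · rintro _ ⟨⟨i, u⟩, rfl⟩
    rw [SetLike.mem_coe, Ideal.mem_comap, map_br, flipSec_Nv, flipSec_Sv]
    exact hle (Ideal.mem_sup_left (Ideal.mem_sup_left (Ideal.mem_sup_right
      (Ideal.subset_span ⟨(i, u), rfl⟩))))

/-- The flip choice is determined by a point at which the chosen variables are generic. -/
theorem flip_eq_of_le {D : Type*} [CommRing D] (θ : Amb P.r (P.g + P.s) O →+* D)
    {F F' : FlipChoice P.m}
    (hle : linearIdeal P.c P.r P.g F' ≤ RingHom.ker (θ.comp (flipProj P.c P.c_mem F))) {f : Fin P.s}
    (h0 : θ (MvPowerSeries.X (.inr (Fin.natAdd P.g f))) ≠ 0)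
    (hc : ∀ j, F' f = some j →
      θ (MvPowerSeries.X (.inr (Fin.natAdd P.g f))) ≠ θ (MvPowerSeries.C (P.c f j))) :
    F' f = F f := by
  by_contra hne
  have hmem := hle (flipX_sub_mem_linearIdeal P.c F' (o := F f) (Ne.symm hne))
  rw [RingHom.mem_ker, RingHom.comp_apply, map_sub, flipProj_flipX_self] at hmem
  rcases hF : F f with _ | j
  · rcases hF' : F' f with _ | k
    · exact hne (hF'.trans hF.symm)
    · rw [hF, hF'] at hmem
      simp [flipProj, offValue, sub_eq_zero] at hmem
      exact hc k hF' hmem
  · rw [hF] at hmem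
    rcases hF' : F' f with _ | k <;> simp [flipProj, offValue] at hmem <;> exact h0 hmem

/-- The type at the Ihara avoidance primes is determined modulo `ϖ`. -/
theorem type_eq_of_le
    (ψ : ChartRing P.r (P.g + P.s) O →+* MvPowerSeries (ChartVar P.r (P.g + P.s)) (ResidueField O))
    (hψX : ∀ i k, ψ (chartX i k) = MvPowerSeries.X (.inl (i, k)))
    (hψC : ∀ a ∈ maximalIdeal O, ψ (MvPowerSeries.C a) = 0) {K K' : P.UnipComp}
    (hle : P.unipKer K' ≤ RingHom.ker
      ((ψ.comp (unipotentChart P.h_mem K.1)).comp (flipProj P.c P.c_mem K.2))) :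
    K'.1 = K.1 := by
  by_contra hne
  obtain ⟨i, ⟨ht, ht'⟩ | ⟨ht, ht'⟩⟩ := exists_separating K.1 K'.1 hne
  · have h1 : (flipN i 1 : P.Total) ∈ P.unipKer K' := by
      rw [unipKer, RingHom.mem_ker, RingHom.comp_apply,
        show flipProj P.c P.c_mem K'.2 (flipN i 1) = Nv i 1
          from congrFun (flipProj_flipN _ _ _ i) 1,
        unipotentChart_Nv]
      simp [ht']
    have h0 := hle h1
    rw [RingHom.mem_ker, RingHom.comp_apply, RingHom.comp_apply,
      show flipProj P.c P.c_mem K.2 (flipN i 1) = Nv i 1 from congrFun (flipProj_flipN _ _ _ i) 1,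
      unipotentChart_Nv, if_pos ht, hψX] at h0
    classical
    have := DFunLike.congr_arg (MvPowerSeries.coeff
      (Finsupp.single (Sum.inl (i, 0) : ChartVar P.r (P.g + P.s)) 1)) h0
    simp [MvPowerSeries.X] at this
  · have hproj : ∀ F, flipProj (g := P.g) P.c P.c_mem F
        (qf (flipS i) - MvPowerSeries.C (P.h i * P.h i)) =
        qf (Sv i) - MvPowerSeries.C (P.h i * P.h i) := fun F => by
      rw [map_sub, map_qf, flipProj_flipS]
      simp [flipProj]
    have h1 : qf (flipS i) - MvPowerSeries.C (P.h i * P.h i) ∈ P.unipKer K' := by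
      rw [unipKer, RingHom.mem_ker, RingHom.comp_apply, hproj,
        unipotentChart_qfS_of_st P.h_mem _ ht']
    have h0 := hle h1
    rw [RingHom.mem_ker, RingHom.comp_apply, RingHom.comp_apply, hproj,
      unipotentChart_qfS_of_unr P.h_mem _ ht, map_sub, hψC _ (Ideal.mul_mem_left _ _ (P.h_mem i)),
      sub_zero, map_mul, map_mul, hψX, map_add, map_one, map_mul, hψX, hψX, mul_eq_zero,
      mul_eq_zero] at h0
    classical
    rcases h0 with (h0 | h0) | h0
    · simpa [MvPowerSeries.X, MvPowerSeries.coeff_monomial] using DFunLike.congr_arg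
        (MvPowerSeries.coeff (Finsupp.single (Sum.inl (i, 0) : ChartVar P.r (P.g + P.s)) 1)) h0
    · simpa [MvPowerSeries.X, MvPowerSeries.coeff_monomial] using DFunLike.congr_arg
        (MvPowerSeries.coeff (Finsupp.single (Sum.inl (i, 0) : ChartVar P.r (P.g + P.s)) 1)) h0
    · simpa using congrArg MvPowerSeries.constantCoeff h0

/-- A component meets the residual prime of no other component. -/
theorem eq_of_unipKer_le_resKer {K K' : P.UnipComp} (hle : P.unipKer K' ≤ P.resKer K) :
    K' = K := by
  have hlin := (P.linearIdeal_le_unipKer K').trans hle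
  have hF : K'.2 = K.2 := funext fun f => by
    refine P.flip_eq_of_le ((reduceSeries _ O).comp (unipotentChart P.h_mem K.1)) hlin ?_ ?_
    · simp only [RingHom.comp_apply, unipotentChart_G, reduceSeries_X]
      classical
      intro h0
      simpa [MvPowerSeries.X, MvPowerSeries.coeff_monomial] using DFunLike.congr_arg
        (MvPowerSeries.coeff (Finsupp.single (Sum.inr (Fin.natAdd P.g f) : ChartVar P.r _) 1)) h0
    · intro j _
      simp only [RingHom.comp_apply, unipotentChart_G, unipotentChart_C, reduceSeries_X,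
        reduceSeries_C (P.c_mem f j)]
      classical
      intro h0
      simpa [MvPowerSeries.X, MvPowerSeries.coeff_monomial] using DFunLike.congr_arg
        (MvPowerSeries.coeff (Finsupp.single (Sum.inr (Fin.natAdd P.g f) : ChartVar P.r _) 1)) h0
  exact Prod.ext (P.type_eq_of_le (reduceSeries _ O) (fun i k => reduceSeries_X _)
    (fun a ha => reduceSeries_C ha) hle) hF

/-- Only two components pass through the divisor `divKer K f j`. -/
theorem eq_or_eq_of_unipKer_le_divKer {K K' : P.UnipComp} {f : Fin P.s} {j : Fin (P.m f)}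
    (hK : K.2 f = none) (hle : P.unipKer K' ≤ P.divKer K f j) :
    K' = K ∨ K' = (K.1, Function.update K.2 f (some j)) := by
  classical
  have hlin := (P.linearIdeal_le_unipKer K').trans hle
  set θ := (substVar (Fin.natAdd P.g f) (P.c_mem f j)).comp (unipotentChart P.h_mem K.1)
  have hne : ∀ (v : Fin (P.g + P.s)) (x : O),
      (MvPowerSeries.X (.inr v) : ChartRing P.r (P.g + P.s) O) ≠ MvPowerSeries.C x :=
        fun v x h0 => by
    simpa [MvPowerSeries.X, MvPowerSeries.coeff_monomial, MvPowerSeries.coeff_C] using
      DFunLike.congr_arg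
        (MvPowerSeries.coeff (Finsupp.single (Sum.inr v : ChartVar P.r (P.g + P.s)) 1)) h0
  have hoff : ∀ f', f' ≠ f → K'.2 f' = K.2 f' := fun f' hf' => by
    have hv : θ (MvPowerSeries.X (.inr (Fin.natAdd P.g f'))) =
        MvPowerSeries.X (.inr (Fin.natAdd P.g f')) := by
      simp only [θ, RingHom.comp_apply, unipotentChart_G, substVar_X_inr]
      rw [if_neg fun e => hf' (Fin.natAdd_injective _ _ e)]
    refine P.flip_eq_of_le θ hlin ?_ fun k _ => ?_ <;> rw [hv]
    · simpa using hne (Fin.natAdd P.g f') 0
    · simpa [θ, unipotentChart_C, substVar_C] using hne (Fin.natAdd P.g f') (P.c f' k)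
  have hat : K'.2 f = none ∨ K'.2 f = some j := by
    rcases hF : K'.2 f with _ | k
    · exact Or.inl rfl
    refine Or.inr (congrArg some ?_)
    by_contra hkj
    have hv : θ (MvPowerSeries.X (.inr (Fin.natAdd P.g f))) = MvPowerSeries.C (P.c f j) := by
      simp [θ, unipotentChart_G, substVar_X_inr]
    have hmem := hlin (flipX_sub_mem_linearIdeal P.c K'.2 (o := none) (f := f) (by simp [hF]))
    rw [divKer, RingHom.mem_ker, RingHom.comp_apply] at hmem
    have hproj : flipProj P.c P.c_mem K.2 (flipX (r := P.r) (g := P.g) f none -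
        MvPowerSeries.C (offValue P.c (K'.2 f) none)) =
          MvPowerSeries.X (.inr (Fin.natAdd P.g f)) - MvPowerSeries.C (P.c f k) := by
      rw [map_sub, ← hK, flipProj_flipX_self, hK]
      simp [flipProj, offValue, hF]
    rw [hproj] at hmem
    change θ _ = 0 at hmem
    rw [map_sub, hv, show θ (MvPowerSeries.C (P.c f k)) = MvPowerSeries.C (P.c f k) by
      simp [θ, unipotentChart_C, substVar_C], sub_eq_zero] at hmem
    exact hkj (P.c_injective f (by simpa using congrArg MvPowerSeries.constantCoeff hmem)).symm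
  have hT : K'.1 = K.1 := by
    refine P.type_eq_of_le ((reduceSeries _ O).comp (substVar (Fin.natAdd P.g f) (P.c_mem f j)))
      (fun i k => ?_) (fun a ha => ?_) (hle.trans fun x hx => ?_)
    · simp [chartX, substVar, reduceSeries_X]
    · simp [substVar_C, reduceSeries_C ha]
    · simp only [divKer, RingHom.mem_ker, RingHom.comp_apply] at hx ⊢
      rw [hx, map_zero]
  rcases hat with h | h
  · exact Or.inl (Prod.ext hT (funext fun f' => by
      rcases eq_or_ne f' f with rfl | hf'
      · rw [h, hK]
      · exact hoff f' hf'))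
  · exact Or.inr (Prod.ext hT (funext fun f' => by
      rcases eq_or_ne f' f with rfl | hf'
      · simp [h]
      · simp [hoff f' hf', hf']))

/-- The divisor lies on the Steinberg component. -/
theorem unipKer_update_le_divKer {K : P.UnipComp} {f : Fin P.s} {j : Fin (P.m f)}
    (hK : K.2 f = none) :
    P.unipKer (K.1, Function.update K.2 f (some j)) ≤ P.divKer K f j := by
  classical
  set F₂ := Function.update K.2 f (some j) with hF₂
  have hF2f : F₂ f = some j := by simp [hF₂]
  have h0mem : (0 : O) ∈ maximalIdeal O := zero_mem _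
  intro x hx
  simp only [unipKer, RingHom.mem_ker, RingHom.comp_apply] at hx
  have key := sub_mem_of_generators
    (((substVar (Fin.natAdd P.g f) (P.c_mem f j)).comp (unipotentChart P.h_mem K.1)).comp
      (flipProj P.c P.c_mem K.2))
    (((substVar (Fin.natAdd P.g f) h0mem).comp (unipotentChart P.h_mem K.1)).comp
      (flipProj P.c P.c_mem F₂)) ⊥
    (fun a => by simp [flipProj, unipotentChart_C, substVar_C]) (fun v => ?_) ?_ ?_ ?_ ?_ x
  · simpa [divKer, hx, sub_eq_zero] using key
  · rcases v with ⟨i, b, u⟩ | l | ⟨f', o⟩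
    · have e : ∀ (a : O) (ha : a ∈ maximalIdeal O) (k : Fin 3),
          substVar (Fin.natAdd P.g f) ha (chartX (g := P.g + P.s) i k) = chartX i k :=
        fun a ha k => substVar_chartX _ ha i k
      cases hT : K.1 i <;> cases b <;> fin_cases u <;>
        simp [flipProj, flipImage, unipotentChart, unipotentImage, hT, e, substVar_C, map_ofNat]
    · have hne : Fin.castAdd P.s l ≠ Fin.natAdd P.g f :=
        fun e => by have := congrArg Fin.val e; simp at this; omega
      simp [flipProj, flipImage, unipotentChart_G, substVar_X_inr, hne]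
    · rcases eq_or_ne f' f with rfl | hf'
      · rcases o with _ | k
        · simp [flipProj, flipImage, hK, hF2f, offValue, unipotentChart_G, unipotentChart_C,
            substVar_X_inr, substVar_C]
        · rcases eq_or_ne k j with rfl | hkj
          · simp [flipProj, flipImage, hK, hF2f, offValue, unipotentChart_G,
              substVar_X_inr]
          · simp [flipProj, flipImage, hK, hF2f, offValue, hkj]
      · have hne : Fin.natAdd P.g f' ≠ Fin.natAdd P.g f :=
          fun e => hf' (Fin.natAdd_injective _ _ e)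
        have he : F₂ f' = K.2 f' := by simp [hF₂, hf']
        by_cases ho : o = K.2 f'
        · simp [flipProj, flipImage, he, ho, unipotentChart_G, substVar_X_inr, hne]
        · simp [flipProj, flipImage, he, ho, unipotentChart_C, substVar_C]
  all_goals
    first
    | (intro a ha; simpa [flipProj, unipotentChart_C, substVar_C, -mem_maximalIdeal] using
        C_mem_maximalIdeal ha)
    | (intro v
       simp only [RingHom.comp_apply]
       refine map_maximalIdeal_le (substVar _ _) (fun a ha => ?_) (fun w => ?_)
         (Ideal.mem_map_of_mem _ (map_maximalIdeal_le (unipotentChart P.h_mem K.1) (fun a ha => ?_)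
           (fun w => ?_) (Ideal.mem_map_of_mem _ ?_)))
       · simpa [substVar_C, -mem_maximalIdeal] using C_mem_maximalIdeal ha
       · simp only [substVar, eval_X]
         split_ifs <;>
           first | exact C_mem_maximalIdeal (P.c_mem f j) | exact C_mem_maximalIdeal h0mem
                 | exact X_mem_maximalIdeal _
       · simpa [unipotentChart_C, -mem_maximalIdeal] using C_mem_maximalIdeal ha
       · simpa [unipotentChart, -mem_maximalIdeal] using unipotentImage_mem P.h_mem K.1 w
       · simpa [flipProj, -mem_maximalIdeal] using flipImage_mem P.c P.c_mem _ v)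

/-- The divisor is cut out on the unramified component by `a - c`. -/
theorem divKer_eq {K : P.UnipComp} {f : Fin P.s} {j : Fin (P.m f)} (hK : K.2 f = none) :
    P.divKer K f j =
      P.unipKer K ⊔ Ideal.span {flipX f none - MvPowerSeries.C (P.c f j)} := by
  classical
  have hproj : flipProj P.c P.c_mem K.2 (flipX (r := P.r) (g := P.g) f none) =
      MvPowerSeries.X (.inr (Fin.natAdd P.g f)) := by
    rw [← hK, flipProj_flipX_self]
  refine le_antisymm (fun x hx => ?_) (sup_le (P.unipKer_le_divKer K f j)
    ((Ideal.span_singleton_le_iff_mem _).mpr ?_))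
  · set a : Amb P.r (P.g + P.s) O := MvPowerSeries.X (Sum.inr (Fin.natAdd P.g f)) with ha
    let img : Var P.r (P.g + P.s) → Amb P.r (P.g + P.s) O :=
      fun v => if v = .inr (Fin.natAdd P.g f) then MvPowerSeries.C (P.c f j) else MvPowerSeries.X v
    have himg : ∀ v, img v ∈ maximalIdeal (Amb P.r (P.g + P.s) O) := fun v => by
      simp only [img]; split_ifs <;> [exact C_mem_maximalIdeal (P.c_mem f j);
        exact X_mem_maximalIdeal v]
    let σ := eval MvPowerSeries.C img himg
    set y := flipProj P.c P.c_mem K.2 x with hy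
    have h1 : y - σ y ∈ Ideal.span {a - MvPowerSeries.C (P.c f j)} := by
      refine sub_mem_of_generators (RingHom.id (Amb P.r (P.g + P.s) O)) σ _
        (fun c => by simp [σ]) (fun v => ?_) (fun c hc => C_mem_maximalIdeal hc)
        (fun v => X_mem_maximalIdeal v)
        (fun c hc => by simpa [σ, -mem_maximalIdeal] using C_mem_maximalIdeal hc)
        (fun v => by simpa [σ, -mem_maximalIdeal] using himg v) y
      simp only [RingHom.id_apply, σ, eval_X, img]
      split_ifs with hv
      · subst hv; exact Ideal.mem_span_singleton_self _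
      · simp
    have h2 : unipotentChart P.h_mem K.1 (σ y) = 0 := by
      have key := sub_mem_of_generators
        ((substVar (Fin.natAdd P.g f) (P.c_mem f j)).comp (unipotentChart P.h_mem K.1))
        ((unipotentChart P.h_mem K.1).comp σ) ⊥
        (fun c => by simp [σ, unipotentChart_C, substVar_C]) (fun v => ?_) ?_ ?_ ?_ ?_ y
      · have hx' : substVar (Fin.natAdd P.g f) (P.c_mem f j) (unipotentChart P.h_mem K.1 y) = 0 :=
          hx
        simpa [hx', sub_eq_zero] using key
      · rcases v with ⟨i, b, u⟩ | l
        · have e : ∀ k : Fin 3,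
              substVar (Fin.natAdd P.g f) (P.c_mem f j) (chartX (g := P.g + P.s) i k) =
                chartX i k :=
            fun k => substVar_chartX _ _ i k
          cases hT : K.1 i <;> cases b <;> fin_cases u <;>
            simp [σ, img, unipotentChart, unipotentImage, hT, e, substVar_C, map_ofNat]
        · by_cases hl : l = Fin.natAdd P.g f <;>
            simp [σ, img, hl, unipotentChart_G, unipotentChart_C, substVar_X_inr]
      · intro c hc; simpa [unipotentChart_C, substVar_C, -mem_maximalIdeal]
          using C_mem_maximalIdeal hc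
      · intro v
        simp only [RingHom.comp_apply]
        refine map_maximalIdeal_le (substVar _ _) (fun c hc => ?_) (fun w => ?_)
          (Ideal.mem_map_of_mem _ ?_)
        · simpa [substVar_C, -mem_maximalIdeal] using C_mem_maximalIdeal hc
        · simp only [substVar, eval_X]
          split_ifs <;> [exact C_mem_maximalIdeal (P.c_mem f j); exact X_mem_maximalIdeal w]
        · simpa [unipotentChart, -mem_maximalIdeal] using unipotentImage_mem P.h_mem K.1 v
      · intro c hc; simpa [σ, unipotentChart_C, -mem_maximalIdeal] using C_mem_maximalIdeal hc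
      · intro v
        simp only [RingHom.comp_apply]
        refine map_maximalIdeal_le (unipotentChart P.h_mem K.1) (fun c hc => ?_) (fun w => ?_)
          (Ideal.mem_map_of_mem _ ?_)
        · simpa [unipotentChart_C, -mem_maximalIdeal] using C_mem_maximalIdeal hc
        · simpa [unipotentChart, -mem_maximalIdeal] using unipotentImage_mem P.h_mem K.1 w
        · simpa [σ, -mem_maximalIdeal] using himg v
    have h3 : x - flipSec K.2 y ∈ P.unipKer K :=
      P.linearIdeal_le_unipKer K (sub_flipSec_flipProj_mem P.c P.c_mem K.2 x)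
    have h4 : flipSec K.2 (σ y) ∈ P.unipKer K := by
      rw [unipKer, RingHom.mem_ker, RingHom.comp_apply, flipProj_flipSec, h2]
    have h5 : flipSec K.2 (y - σ y) ∈
        Ideal.span {(flipX f none - MvPowerSeries.C (P.c f j) : P.Total)} := by
      have := Ideal.mem_map_of_mem (flipSec (g := P.g) K.2) h1
      rw [Ideal.map_span, Set.image_singleton, map_sub] at this
      have e : flipSec (O := O) (g := P.g) K.2 a = flipX f none := by
        rw [ha, ← hK]; simp [flipSec, flipSecImage]
      rwa [e, show flipSec (g := P.g) K.2 (MvPowerSeries.C (P.c f j)) =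
        (MvPowerSeries.C (P.c f j) : P.Total) by simp [flipSec]] at this
    have := add_mem (Ideal.mem_sup_left (add_mem h3 h4)) (Ideal.mem_sup_right (S := P.unipKer K) h5)
    convert this using 1
    rw [map_sub]
    ring
  · simp only [divKer, RingHom.mem_ker, RingHom.comp_apply, map_sub, hproj, unipotentChart_G]
    simp [flipProj, unipotentChart_C, substVar_C, substVar_X_inr]

end LocalData

end Fermat.Agent.LocalRing
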