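import Mathlib
import Fermat.Agent.LocalRing.Components

/-!
# The Ihara avoidance input for patching

Statements about the minimal primes of `UnipRing` and `CharRing` in the form used by the patching
argument.

## Main results

* `mem_minimalPrimes_iff`: the minimal primes of `UnipRing` are the components.
* `eq_comp_of_le_compRes`: one component passes through each residual prime `compRes K`.
* `hcov`: without flip primes every minimal prime of `CharRing` lies below every prime over the
  kernel of `charToRes`.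
* `eq_or_eq_of_le_compDiv`, `compDiv_eq`: only two components pass through a divisor, which one
  equation cuts out in its component.
-/

set_option autoImplicit false

noncomputable section

open IsLocalRing

namespace Fermat.Agent.LocalRing

/-- The image of an ideal over the kernel of a surjection. -/
theorem comap_map_eq_self {A B : Type*} [CommRing A] [CommRing B] {φ : A →+* B}
    (hφ : Function.Surjective φ) {I : Ideal A} (h : RingHom.ker φ ≤ I) : (I.map φ).comap φ = I := by
  rw [Ideal.comap_map_of_surjective _ hφ]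
  exact sup_eq_left.mpr h

namespace LocalData

variable {O : Type*} [CommRing O] [IsDomain O] [IsDiscreteValuationRing O]
  [IsAdicComplete (maximalIdeal O) O] (P : LocalData O)

/-- The component `K` of `UnipRing`. -/
def comp (K : P.UnipComp) : Ideal P.UnipRing := (P.unipKer K).map (Ideal.Quotient.mk _)

/-- The residual prime on the component `K`. -/
def compRes (K : P.UnipComp) : Ideal P.UnipRing := (P.resKer K).map (Ideal.Quotient.mk _)

/-- The component `(b, F)` of `CharRing`. -/
def charComp (b : Fin P.r → Fin (P.nb + 1)) (F : FlipChoice P.m) : Ideal P.CharRing :=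
  (P.charKer b F).map (Ideal.Quotient.mk _)

/-- The divisor between the unramified and the `j`-th Steinberg component at the flip prime `f`. -/
def compDiv (K : P.UnipComp) (f : Fin P.s) (j : Fin (P.m f)) : Ideal P.UnipRing :=
  (P.divKer K f j).map (Ideal.Quotient.mk _)

omit [IsAdicComplete (maximalIdeal O) O] in
theorem comap_mk {I : Ideal P.Total} (h : P.unipIdeal ≤ I) :
    (I.map (Ideal.Quotient.mk P.unipIdeal)).comap (Ideal.Quotient.mk _) = I :=
  comap_map_eq_self Ideal.Quotient.mk_surjective (by rwa [Ideal.mk_ker])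

theorem unipIdeal_le_resKer (K : P.UnipComp) : P.unipIdeal ≤ P.resKer K :=
  (P.unipIdeal_le_unipKer K).trans (P.unipKer_le_resKer K)

theorem unipIdeal_le_divKer (K : P.UnipComp) (f : Fin P.s) (j : Fin (P.m f)) :
    P.unipIdeal ≤ P.divKer K f j :=
  (P.unipIdeal_le_unipKer K).trans (P.unipKer_le_divKer K f j)

omit [IsAdicComplete (maximalIdeal O) O] in
theorem isPrime_map {I : Ideal P.Total} (hI : I.IsPrime) (h : P.unipIdeal ≤ I) :
    (I.map (Ideal.Quotient.mk P.unipIdeal)).IsPrime :=
  haveI := hI
  Ideal.map_isPrime_of_surjective Ideal.Quotient.mk_surjective (by rwa [Ideal.mk_ker])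

theorem isPrime_compRes (K : P.UnipComp) : (P.compRes K).IsPrime :=
  P.isPrime_map (P.isPrime_resKer K) (P.unipIdeal_le_resKer K)

theorem isPrime_compDiv (K : P.UnipComp) (f : Fin P.s) (j : Fin (P.m f)) :
    (P.compDiv K f j).IsPrime :=
  P.isPrime_map (P.isPrime_divKer K f j) (P.unipIdeal_le_divKer K f j)

theorem comp_le_compRes (K : P.UnipComp) : P.comp K ≤ P.compRes K :=
  Ideal.map_mono (P.unipKer_le_resKer K)

theorem comp_le_compDiv (K : P.UnipComp) (f : Fin P.s) (j : Fin (P.m f)) :
    P.comp K ≤ P.compDiv K f j :=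
  Ideal.map_mono (P.unipKer_le_divKer K f j)

theorem ker_toRes_le_compRes (K : P.UnipComp) : RingHom.ker P.toRes ≤ P.compRes K := by
  intro a ha
  obtain ⟨x, rfl⟩ := Ideal.Quotient.mk_surjective a
  rw [RingHom.mem_ker, toRes_mk, Ideal.Quotient.eq_zero_iff_mem] at ha
  exact Ideal.mem_map_of_mem _ (P.resIdeal_le_resKer K ha)

/-- The minimal primes of `UnipRing` are the components. -/
theorem mem_minimalPrimes_iff (Q : Ideal P.UnipRing) :
    Q ∈ minimalPrimes P.UnipRing ↔ ∃ K, Q = P.comp K := by
  constructor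
  · intro hQ
    have := hQ.1.1
    obtain ⟨K, hK⟩ := P.exists_unipKer_le (Q := Q.comap (Ideal.Quotient.mk _))
      (Ideal.IsPrime.comap _) (fun x hx => by
        rw [Ideal.mem_comap, Ideal.Quotient.eq_zero_iff_mem.mpr hx]; exact zero_mem _)
    have hle : P.comp K ≤ Q := Ideal.map_le_iff_le_comap.mpr hK
    exact ⟨K, le_antisymm
      (hQ.2 ⟨P.isPrime_map (P.isPrime_unipKer K) (P.unipIdeal_le_unipKer K), bot_le⟩ hle) hle⟩
  · rintro ⟨K, rfl⟩
    refine ⟨⟨P.isPrime_map (P.isPrime_unipKer K) (P.unipIdeal_le_unipKer K), bot_le⟩, ?_⟩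
    rintro Q ⟨hQ, -⟩ hle
    have := hQ
    obtain ⟨K', hK'⟩ := P.exists_unipKer_le (Q := Q.comap (Ideal.Quotient.mk _))
      (Ideal.IsPrime.comap _) (fun x hx => by
        rw [Ideal.mem_comap, Ideal.Quotient.eq_zero_iff_mem.mpr hx]; exact zero_mem _)
    have h1 : P.unipKer K' ≤ P.unipKer K := by
      refine hK'.trans ((Ideal.comap_mono hle).trans ?_)
      exact (P.comap_mk (P.unipIdeal_le_unipKer K)).le
    obtain rfl := P.eq_of_unipKer_le_resKer (h1.trans (P.unipKer_le_resKer K))
    exact Ideal.map_le_iff_le_comap.mpr hK'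

theorem comp_mem_minimalPrimes (K : P.UnipComp) : P.comp K ∈ minimalPrimes P.UnipRing :=
  (P.mem_minimalPrimes_iff _).mpr ⟨K, rfl⟩

/-- Only the component `K` passes through its residual prime. -/
theorem eq_comp_of_le_compRes (K : P.UnipComp) :
    ∀ Q ∈ minimalPrimes P.UnipRing, Q ≤ P.compRes K → Q = P.comp K := by
  intro Q hQ hle
  obtain ⟨K', rfl⟩ := (P.mem_minimalPrimes_iff Q).mp hQ
  have h := Ideal.comap_mono (f := Ideal.Quotient.mk P.unipIdeal) hle
  rw [comp, compRes, P.comap_mk (P.unipIdeal_le_unipKer K'),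
    P.comap_mk (P.unipIdeal_le_resKer K)] at h
  rw [P.eq_of_unipKer_le_resKer h]

/-- The minimal primes of `CharRing` are among the components. -/
theorem exists_eq_charComp {Q : Ideal P.CharRing} (hQ : Q ∈ minimalPrimes P.CharRing) :
    ∃ b F, Q = P.charComp b F := by
  have := hQ.1.1
  obtain ⟨b, F, hK⟩ := P.exists_charKer_le (Q := Q.comap (Ideal.Quotient.mk _))
    (Ideal.IsPrime.comap _) (fun x hx => by
      rw [Ideal.mem_comap, Ideal.Quotient.eq_zero_iff_mem.mpr hx]; exact zero_mem _)
  have := P.isPrime_charKer b F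
  have hle : P.charComp b F ≤ Q := Ideal.map_le_iff_le_comap.mpr hK
  exact ⟨b, F, le_antisymm (hQ.2 ⟨Ideal.map_isPrime_of_surjective Ideal.Quotient.mk_surjective
    (by rw [Ideal.mk_ker]; exact P.chiIdeal_le_charKer b F), bot_le⟩ hle) hle⟩

/-- **The covering hypothesis of Ihara avoidance** when there are no flip primes. -/
theorem hcov (hs : P.s = 0) : ∀ Q₀ ∈ minimalPrimes P.CharRing, ∀ Q : Ideal P.CharRing,
    Q.IsPrime → RingHom.ker P.charToRes ≤ Q → Q₀ ≤ Q := by
  intro Q₀ hQ₀ Q hQ hker
  obtain ⟨b, F, rfl⟩ := P.exists_eq_charComp hQ₀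
  refine Ideal.map_le_iff_le_comap.mpr ?_
  have := hQ
  refine P.charKer_le_of_resIdeal_le (Ideal.IsPrime.comap _) (fun x hx => ?_) ?_ b
  · rw [Ideal.mem_comap]
    exact hker (by rw [RingHom.mem_ker, charToRes_mk, Ideal.Quotient.eq_zero_iff_mem]; exact hx)
  · rw [linearIdeal, Ideal.span_le]
    rintro _ ⟨⟨⟨f, o⟩, -⟩, rfl⟩
    exact absurd f.2 (by omega)

/-- **The flip hypothesis**: only two components pass through the divisor. -/
theorem eq_or_eq_of_le_compDiv {K : P.UnipComp} {f : Fin P.s} {j : Fin (P.m f)}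
    (hK : K.2 f = none) : ∀ Q ∈ minimalPrimes P.UnipRing, Q ≤ P.compDiv K f j →
      Q = P.comp K ∨ Q = P.comp (K.1, Function.update K.2 f (some j)) := by
  intro Q hQ hle
  obtain ⟨K', rfl⟩ := (P.mem_minimalPrimes_iff Q).mp hQ
  have h := Ideal.comap_mono (f := Ideal.Quotient.mk P.unipIdeal) hle
  rw [comp, compDiv, P.comap_mk (P.unipIdeal_le_unipKer K'),
    P.comap_mk (P.unipIdeal_le_divKer K f j)] at h
  rcases P.eq_or_eq_of_unipKer_le_divKer hK h with h | h
  · exact Or.inl (by rw [h])
  · exact Or.inr (by rw [h])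

theorem comp_update_le_compDiv {K : P.UnipComp} {f : Fin P.s} {j : Fin (P.m f)}
    (hK : K.2 f = none) :
    P.comp (K.1, Function.update K.2 f (some j)) ≤ P.compDiv K f j :=
  Ideal.map_mono (P.unipKer_update_le_divKer hK)

/-- The divisor is cut out in its component by one equation. -/
theorem compDiv_eq {K : P.UnipComp} {f : Fin P.s} {j : Fin (P.m f)} (hK : K.2 f = none) :
    P.compDiv K f j = P.comp K ⊔ Ideal.span
      {Ideal.Quotient.mk P.unipIdeal (flipX f none - MvPowerSeries.C (P.c f j))} := by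
  rw [compDiv, P.divKer_eq hK, Ideal.map_sup, Ideal.map_span, Set.image_singleton]
  rfl

/-- A coordinate not chosen at a flip prime takes its fixed value on the component. -/
theorem flipX_sub_mem_comp {K : P.UnipComp} {f : Fin P.s} {o : Option (Fin (P.m f))}
    (h : o ≠ K.2 f) : Ideal.Quotient.mk P.unipIdeal
      (flipX f o - MvPowerSeries.C (offValue P.c (K.2 f) o)) ∈ P.comp K :=
  Ideal.mem_map_of_mem _ (P.linearIdeal_le_unipKer K (flipX_sub_mem_linearIdeal P.c K.2 h))

end LocalData

end Fermat.Agent.LocalRing
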